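import Fermat.Agent.FormSystems.Minor

/-!
# The major arcs of a system

For `F i x = ν i` their sum is the truncated singular series times the sum along one arc, up to
`O (W ^ (2 r + 3) P ^ (n + r - 1))`.
-/

set_option autoImplicit false

noncomputable section

namespace FA.FormSystems

open Finset FA.ThreePrimes FA.WaringAsymptotic FA.CubicForms FA.FormsManyVariables MvPolynomial
open scoped Real

variable {n r : ℕ} (F : Fin r → MvPolynomial (Fin n) ℤ)

/-- The sum with the factor `e (- α · ν)`. -/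
def sysRepSum (P : ℕ) (ν : Fin r → ℤ) (α : Fin r → ℝ) : ℂ :=
  sysSum F P α * eAdd (-∑ i, α i * (ν i : ℝ))

theorem norm_sysRepSum (P : ℕ) (ν : Fin r → ℤ) (α : Fin r → ℝ) :
    ‖sysRepSum F P ν α‖ = ‖sysSum F P α‖ := by
  rw [sysRepSum, norm_mul, norm_eAdd, mul_one]

theorem sysRepSum_congr (P : ℕ) (ν : Fin r → ℤ) {α β : Fin r → ℝ} {z : Fin r → ℤ}
    (h : ∀ i, α i = β i + z i) : sysRepSum F P ν α = sysRepSum F P ν β := by
  rw [sysRepSum, sysRepSum, sysSum_congr F P h]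
  congr 1
  simp only [h, add_mul, sum_add_distrib, neg_add, ← Int.cast_mul, ← Int.cast_sum, ← Int.cast_neg]
  rw [eAdd_add, eAdd_intCast, mul_one]

theorem norm_sysRepSum_sub_le {m : ℕ} (hF : ∀ i, (F i).IsHomogeneous (m + 2)) {P B : ℕ}
    {ν : Fin r → ℤ} (hν : ∀ i, |ν i| ≤ (B * P ^ (m + 2) : ℕ)) (α β : Fin r → ℝ) :
    ‖sysRepSum F P ν α - sysRepSum F P ν β‖ ≤ 2 * π * ((sysSize F : ℝ) + r * B) *
      (P : ℝ) ^ (m + 2) * ((2 * P + 1 : ℕ) : ℝ) ^ n * ‖α - β‖ := by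
  rw [sysRepSum, sysRepSum, show sysSum F P α * eAdd (-∑ i, α i * (ν i : ℝ)) -
      sysSum F P β * eAdd (-∑ i, β i * (ν i : ℝ)) =
        (sysSum F P α - sysSum F P β) * eAdd (-∑ i, α i * (ν i : ℝ)) +
          sysSum F P β * (eAdd (-∑ i, α i * (ν i : ℝ)) - eAdd (-∑ i, β i * (ν i : ℝ))) by ring]
  refine (norm_add_le _ _).trans ?_
  rw [norm_mul, norm_eAdd, mul_one, norm_mul]
  have hν' : ∀ i, |(ν i : ℝ)| ≤ (B : ℝ) * (P : ℝ) ^ (m + 2) := fun i => by exact_mod_cast hν i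
  have h : |(-∑ i, α i * (ν i : ℝ)) - (-∑ i, β i * (ν i : ℝ))| ≤
      r * (‖α - β‖ * ((B : ℝ) * (P : ℝ) ^ (m + 2))) := by
    rw [neg_sub_neg, ← sum_sub_distrib]
    refine (abs_sum_le_sum_abs _ _).trans ((sum_le_card_nsmul _ _
      (‖α - β‖ * ((B : ℝ) * (P : ℝ) ^ (m + 2))) fun i _ => ?_).trans (le_of_eq (by simp)))
    rw [← sub_mul, abs_mul, abs_sub_comm]
    exact mul_le_mul (abs_le_pi_norm (α - β) i) (hν' i) (abs_nonneg _) (norm_nonneg _)
  have hbox : ‖sysSum F P β‖ ≤ ((2 * P + 1 : ℕ) : ℝ) ^ n := by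
    push_cast; exact norm_sysSum_le F P β
  refine (add_le_add (norm_sysSum_sub_le F hF P α β) (mul_le_mul hbox
    ((norm_eAdd_sub_le _ _).trans (mul_le_mul_of_nonneg_left h (by positivity)))
      (norm_nonneg _) (by positivity))).trans (le_of_eq ?_)
  ring

theorem injOn_sysArcPoint {d P W H : ℕ} (hP : 1 ≤ P) (hW : 1 ≤ W)
    (hH : (2 * H + 1) * (W * W) < P ^ (d + 1)) :
    Set.InjOn (fun zo : (Σ _ : ℕ, Fin r → ℕ) × (Fin r → ℤ) =>
        sysArcPoint (P ^ (d + 1)) zo.1 zo.2)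
      (sysCentres r W ×ˢ cbox r H : Finset _) := by
  obtain ⟨M, hM⟩ : ∃ M : ℝ, M = ((P ^ (d + 1) : ℕ) : ℝ) := ⟨_, rfl⟩
  have hMn : 0 < P ^ (d + 1) := pow_pos hP _
  have hM0 : 0 < M := hM ▸ Nat.cast_pos.2 hMn
  have hH' : (2 * (H : ℝ) + 1) * ((W : ℝ) * W) < M := by
    rw [hM]; exact_mod_cast hH
  rintro ⟨⟨q, a⟩, o⟩ hz ⟨⟨q', a'⟩, o'⟩ hw e
  obtain ⟨hz1, hz2⟩ := mem_product.1 hz
  obtain ⟨hw1, hw2⟩ := mem_product.1 hw
  simp only [sysCentres, mem_sigma, mem_Icc] at hz1 hw1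
  obtain ⟨hlt, hprim⟩ := mem_primResidues.1 hz1.2
  obtain ⟨hlt', hprim'⟩ := mem_primResidues.1 hw1.2
  have hq : (0 : ℝ) < q := Nat.cast_pos.2 hz1.1.1
  have hq' : (0 : ℝ) < q' := Nat.cast_pos.2 hw1.1.1
  have hkey : ∀ i, (a i * q' : ℕ) = a' i * q ∧
      (round (((a i : ℝ) / q) * M) + o i) % (P ^ (d + 1) : ℕ) =
        (round (((a' i : ℝ) / q') * M) + o' i) % (P ^ (d + 1) : ℕ) := by
    intro i
    have e' := congrFun e i
    simp only [sysArcPoint, arcPoint, centre] at e'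
    rw [← hM] at e'
    have e'' := congrArg (fun x : ℕ => (x : ℤ)) e'
    simp only [Int.toNat_of_nonneg (Int.emod_nonneg _ (Int.natCast_ne_zero.2 hMn.ne'))] at e''
    refine ⟨?_, e''⟩
    obtain ⟨l, hl⟩ := Int.modEq_iff_dvd.1 e''
    have hl' := congrArg (fun x : ℤ => (x : ℝ)) hl
    push_cast at hl'
    rw [show ((P : ℝ) ^ (d + 1)) = M by rw [hM]; push_cast; rfl] at hl'
    have a1 := abs_le.1 (abs_sub_round (((a i : ℝ) / q) * M))
    have a2 := abs_le.1 (abs_sub_round (((a' i : ℝ) / q') * M))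
    have ho : |(o' i : ℝ) - o i| ≤ 2 * H := by
      rw [abs_le]
      have b1 : -(H : ℤ) ≤ o i ∧ o i ≤ H := abs_le.1 (mem_cbox.1 hz2 i)
      have b2 : -(H : ℤ) ≤ o' i ∧ o' i ≤ H := abs_le.1 (mem_cbox.1 hw2 i)
      have : (-(2 * H : ℤ) : ℤ) ≤ o' i - o i ∧ o' i - o i ≤ 2 * H := ⟨by omega, by omega⟩
      exact ⟨by exact_mod_cast this.1, by exact_mod_cast this.2⟩
    obtain ⟨z, hz'⟩ : ∃ z : ℤ, z = (a' i : ℤ) * q - a i * q' - l * (q * q') := ⟨_, rfl⟩
    have hzlt : |(z : ℝ)| < 1 := by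
      have e3 : (z : ℝ) / ((q : ℝ) * q') * M =
          ((a' i : ℝ) / q' * M - round (((a' i : ℝ) / q') * M)) -
            ((a i : ℝ) / q * M - round (((a i : ℝ) / q) * M)) - ((o' i : ℝ) - o i) := by
        rw [hz']
        push_cast
        field_simp at hl' ⊢
        linear_combination (q : ℝ) * q' * hl'
      have h5 : |(z : ℝ) / ((q : ℝ) * q') * M| ≤ 2 * H + 1 := by
        rw [e3, abs_le]
        rw [abs_le] at ho
        constructor <;> linarith [a1.1, a1.2, a2.1, a2.2, ho.1, ho.2]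
      rw [abs_mul, abs_div, abs_of_pos hM0, abs_of_pos (mul_pos hq hq'), div_mul_eq_mul_div,
        div_le_iff₀ (mul_pos hq hq')] at h5
      have h6 : (2 * (H : ℝ) + 1) * ((q : ℝ) * q') ≤ (2 * H + 1) * ((W : ℝ) * W) := by
        gcongr
        exacts [hz1.1.2, hw1.1.2]
      by_contra hcon
      rw [not_lt] at hcon
      have := (le_mul_of_one_le_left hM0.le hcon).trans (h5.trans h6)
      linarith
    rw [← Int.cast_abs, ← Int.cast_one, Int.cast_lt, Int.abs_lt_one_iff, hz'] at hzlt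
    have hl0 : l = 0 := by
      have b1 : (a i : ℤ) * q' < q * q' :=
        mul_lt_mul_of_pos_right (Int.ofNat_lt.2 (hlt i)) (by exact_mod_cast hw1.1.1)
      have b2 : (a' i : ℤ) * q < q * q' := by
        rw [mul_comm (q : ℤ)]
        exact mul_lt_mul_of_pos_right (Int.ofNat_lt.2 (hlt' i)) (by exact_mod_cast hz1.1.1)
      have b3 : 0 ≤ (a i : ℤ) * q' := by positivity
      have b4 : 0 ≤ (a' i : ℤ) * q := by positivity
      rcases lt_trichotomy l 0 with h | h | h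
      · have : l * ((q : ℤ) * q') ≤ -1 * (q * q') :=
          mul_le_mul_of_nonneg_right (by omega) (by positivity)
        linarith
      · exact h
      · have : 1 * ((q : ℤ) * q') ≤ l * (q * q') :=
          mul_le_mul_of_nonneg_right (by omega) (by positivity)
        linarith
    rw [hl0, zero_mul, sub_zero, sub_eq_zero] at hzlt
    exact_mod_cast hzlt.symm
  have h1 : q ∣ q' := dvd_of_primitive hz1.1.1 hprim (a' := fun i => (a' i : ℤ))
    fun i => by have := (hkey i).1; exact_mod_cast (mul_comm _ _).trans this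
  have h2 : q' ∣ q := dvd_of_primitive hw1.1.1 hprim' (a' := fun i => (a i : ℤ))
    fun i => by have := (hkey i).1; exact_mod_cast (mul_comm _ _).trans this.symm
  obtain rfl := Nat.dvd_antisymm h1 h2
  have haa : a = a' := funext fun i => Nat.eq_of_mul_eq_mul_right hz1.1.1 (hkey i).1
  subst haa
  have hoo : o = o' := funext fun i => by
    obtain ⟨l, hl⟩ := Int.modEq_iff_dvd.1 (hkey i).2
    rw [add_sub_add_left_eq_sub] at hl
    have := Int.eq_zero_of_abs_lt_dvd ⟨l, hl⟩ ?_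
    · omega
    have b1 : -(H : ℤ) ≤ o i ∧ o i ≤ H := abs_le.1 (mem_cbox.1 hz2 i)
    have b2 : -(H : ℤ) ≤ o' i ∧ o' i ≤ H := abs_le.1 (mem_cbox.1 hw2 i)
    have b3 : (2 * H + 1) * (W * W) ≥ 2 * H + 1 := Nat.le_mul_of_pos_right _ (Nat.mul_pos hW hW)
    rw [abs_lt]
    omega
  rw [hoo]

/-- **The sum over the major arcs**, for `F i x = ν i`. -/
theorem exists_sys_major_sum {m : ℕ} (hF : ∀ i, (F i).IsHomogeneous (m + 2)) (B : ℕ) :
    ∃ C : ℝ, 0 < C ∧ ∀ (P W : ℕ) (ν : Fin r → ℤ), 1 ≤ W → 6 ≤ P → W ^ 4 ≤ P →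
      (∀ i, |ν i| ≤ (B * P ^ (m + 2) : ℕ)) →
    ‖∑ h ∈ sysArcs r (m + 2) P W,
        sysRepSum F P ν (fun i => (h i : ℝ) / ((P ^ (m + 3) : ℕ) : ℝ)) -
      (∑ q ∈ Icc 1 W, sysRepTerm F ν q) * ∑ o ∈ cbox r (W * P + 1),
        sysRepSum F P ν (fun i => (o i : ℝ) / ((P ^ (m + 3) : ℕ) : ℝ))‖ ≤
      C * (W : ℝ) ^ (2 * r + 3) * (P : ℝ) ^ r * (P : ℝ) ^ (n - 1) := by
  classical
  obtain ⟨C₁, hC₁, happ⟩ := exists_sys_major_approx F hF
  refine ⟨5 ^ r * (4 * C₁ + 2 * π * ((sysSize F : ℝ) + r * B) * 3 ^ n + 1), by positivity,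
    fun P W ν hW hP6 hW4 hν => ?_⟩
  have hP1 : 1 ≤ P := by omega
  have hP0 : (1 : ℝ) ≤ P := by exact_mod_cast hP1
  have hW0 : (1 : ℝ) ≤ W := by exact_mod_cast hW
  have hWP : W ≤ P := (Nat.le_self_pow four_ne_zero W).trans hW4
  obtain ⟨H, hH⟩ : ∃ H, H = W * P + 1 := ⟨_, rfl⟩
  obtain ⟨M, hM⟩ : ∃ M : ℝ, M = ((P ^ (m + 3) : ℕ) : ℝ) := ⟨_, rfl⟩
  have hM' : M = (P : ℝ) ^ (m + 3) := by rw [hM]; push_cast; rfl
  have hM0 : 0 < M := by rw [hM']; positivity
  have hMn : 0 < P ^ (m + 3) := pow_pos (by omega) _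
  have hH2 : (2 * H + 1) * (W * W) < P ^ (m + 2 + 1) := by
    calc (2 * H + 1) * (W * W) ≤ (5 * (W * P)) * (W * W) := by
          refine Nat.mul_le_mul_right _ ?_
          rw [hH]
          have : 1 ≤ W * P := Nat.mul_pos (by omega) (by omega)
          omega
      _ = 5 * P * W ^ 3 := by ring
      _ ≤ 5 * P * P :=
          Nat.mul_le_mul_left _ ((Nat.pow_le_pow_right hW (by norm_num : 3 ≤ 4)).trans hW4)
      _ < P * P * P := by
          refine Nat.mul_lt_mul_of_pos_right ?_ (by omega)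
          exact Nat.mul_lt_mul_of_pos_right (by omega) (by omega)
      _ = P ^ 3 := by ring
      _ ≤ P ^ (m + 3) := Nat.pow_le_pow_right (by omega) (by omega)
  rw [sysArcs, ← hH, sum_image (injOn_sysArcPoint hP1 hW hH2), sum_product]
  have hser : ∑ q ∈ Icc 1 W, sysRepTerm F ν q = ∑ z ∈ sysCentres r W,
      sysCompleteSum F z.1 (fun i => (z.2 i : ℤ)) / (z.1 : ℂ) ^ n *
        eAdd (-((∑ i, (z.2 i : ℝ) * ν i) / z.1)) := by
    rw [sysCentres, sum_sigma]
    rfl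
  rw [hser, sum_mul, ← sum_sub_distrib]
  obtain ⟨E, hE⟩ : ∃ E : ℝ, E = (4 * C₁ + 2 * π * ((sysSize F : ℝ) + r * B) * 3 ^ n + 1) *
      ((W : ℝ) ^ 2 * (P : ℝ) ^ (n - 1)) := ⟨_, rfl⟩
  refine (norm_sum_le _ _).trans ((sum_le_card_nsmul _ _ (((2 * H + 1 : ℕ) : ℝ) ^ r * E)
    fun z hz => ?_).trans ?_)
  · rw [mul_sum, ← sum_sub_distrib]
    refine (norm_sum_le _ _).trans ((sum_le_card_nsmul _ _ E fun o ho => ?_).trans (le_of_eq ?_))
    · obtain ⟨hzI, hza⟩ := mem_sigma.1 hz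
      obtain ⟨hq, hqW⟩ := mem_Icc.1 hzI
      obtain ⟨c, hc⟩ : ∃ c : Fin r → ℝ, c = fun i => (z.2 i : ℝ) / z.1 := ⟨_, rfl⟩
      obtain ⟨β, hβ⟩ : ∃ β : Fin r → ℝ,
          β = fun i => ((round (c i * M) : ℤ) + (o i : ℝ)) / M - c i := ⟨_, rfl⟩
      have hpt : ∀ i, ((sysArcPoint (P ^ (m + 2 + 1)) z o i : ℕ) : ℝ) / M = c i + β i +
          ((-((round (c i * M) + o i) / ((P ^ (m + 3) : ℕ) : ℤ)) : ℤ) : ℝ) := by
        intro i
        have e : ((sysArcPoint (P ^ (m + 2 + 1)) z o i : ℕ) : ℤ) =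
            (round (c i * M) + o i) % ((P ^ (m + 3) : ℕ) : ℤ) := by
          rw [sysArcPoint, arcPoint, centre, hc, hM, show m + 2 + 1 = m + 3 from rfl,
            Int.toNat_of_nonneg (Int.emod_nonneg _ (by exact_mod_cast hMn.ne'))]
        have e' := congrArg (fun x : ℤ => (x : ℝ)) e
        simp only [Int.emod_def] at e'
        push_cast at e'
        rw [e', ← hM', hβ] at *
        push_cast
        field_simp
        ring
      have hd : ∀ i, |β i - (o i : ℝ) / M| ≤ 1 / (2 * M) := fun i => by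
        rw [show β i - (o i : ℝ) / M = ((round (c i * M) : ℤ) - c i * M) / M by
          rw [hβ]; field_simp; ring, abs_div, abs_of_pos hM0, div_le_div_iff₀ hM0 (by positivity),
          abs_sub_comm]
        nlinarith [abs_sub_round (c i * M)]
      have hdn : ‖β - fun i => (o i : ℝ) / M‖ ≤ 1 / M := by
        refine (pi_norm_le_iff_of_nonneg (by positivity)).2 fun i => ?_
        rw [Pi.sub_apply, Real.norm_eq_abs]
        exact (hd i).trans (one_div_le_one_div_of_le hM0 (by linarith))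
      have hβW : (P : ℝ) ^ (m + 2) * ‖β‖ ≤ 3 * W := by
        have h1 : ‖β‖ ≤ ((H : ℝ) + 1) / M := by
          refine (pi_norm_le_iff_of_nonneg (by positivity)).2 fun i => ?_
          rw [Real.norm_eq_abs]
          have h2 := abs_sub_abs_le_abs_sub (β i) ((o i : ℝ) / M)
          have h3 : |(o i : ℝ) / M| ≤ (H : ℝ) / M := by
            rw [abs_div, abs_of_pos hM0, ← Int.cast_abs]
            gcongr
            exact_mod_cast mem_cbox.1 ho i
          have h4 : 1 / (2 * M) ≤ 1 / M := one_div_le_one_div_of_le hM0 (by linarith)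
          rw [add_div]
          linarith [hd i]
        calc (P : ℝ) ^ (m + 2) * ‖β‖ ≤ (P : ℝ) ^ (m + 2) * (((H : ℝ) + 1) / M) := by gcongr
          _ = ((H : ℝ) + 1) / P := by rw [hM']; field_simp; ring
          _ ≤ _ := by
              rw [div_le_iff₀ (by linarith), hH]
              push_cast
              nlinarith [one_le_mul_of_one_le_of_one_le hW0 hP0]
      have hsplit : sysRepSum F P ν (fun i => ((sysArcPoint (P ^ (m + 2 + 1)) z o i : ℕ) : ℝ) / M) =
          eAdd (-((∑ i, (z.2 i : ℝ) * ν i) / z.1)) *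
            (sysSum F P (fun i => c i + β i) * eAdd (-∑ i, β i * (ν i : ℝ))) := by
        rw [sysRepSum_congr F P ν (β := fun i => c i + β i) hpt, sysRepSum,
          mul_left_comm (eAdd _) (sysSum F P _), ← eAdd_add]
        congr 2
        rw [hc, sum_div, ← neg_add, ← sum_add_distrib]
        exact congrArg _ (sum_congr rfl fun i _ => by ring)
      have happ' := happ P z.1 (fun i => (z.2 i : ℤ)) β hq (hqW.trans hWP)
      simp only [Int.cast_natCast] at happ'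
      rw [show (fun i => (z.2 i : ℝ) / z.1 + β i) = fun i => c i + β i by rw [hc]] at happ'
      simp only [← hM, hsplit]
      rw [mul_comm (sysCompleteSum F z.1 (fun i => (z.2 i : ℤ)) / (z.1 : ℂ) ^ n), mul_assoc,
        ← mul_sub, norm_mul, norm_eAdd, one_mul]
      refine (norm_sub_le_norm_sub_add_norm_sub _
        (sysCompleteSum F z.1 (fun i => (z.2 i : ℤ)) / (z.1 : ℂ) ^ n * sysRepSum F P ν β) _).trans
        ?_
      rw [← mul_sub, norm_mul _ (sysRepSum F P ν β - _), norm_div, norm_pow, Complex.norm_natCast,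
        sysRepSum, ← mul_assoc, ← sub_mul, norm_mul, norm_eAdd, mul_one]
      have h1 : C₁ * (z.1 : ℝ) * (P : ℝ) ^ (n - 1) * (1 + (P : ℝ) ^ (m + 2) * ‖β‖) ≤
          4 * C₁ * ((W : ℝ) ^ 2 * (P : ℝ) ^ (n - 1)) := by
        calc C₁ * (z.1 : ℝ) * (P : ℝ) ^ (n - 1) * (1 + (P : ℝ) ^ (m + 2) * ‖β‖)
            ≤ C₁ * (W : ℝ) * (P : ℝ) ^ (n - 1) * (4 * W) := by
              gcongr
              linarith
          _ = _ := by ring
      have h2 : ‖sysCompleteSum F z.1 (fun i => (z.2 i : ℤ))‖ / (z.1 : ℝ) ^ n *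
          ‖sysRepSum F P ν β - sysRepSum F P ν (fun i => (o i : ℝ) / M)‖ ≤
            2 * π * ((sysSize F : ℝ) + r * B) * 3 ^ n *
              ((W : ℝ) ^ 2 * (P : ℝ) ^ (n - 1)) := by
        refine (mul_le_of_le_one_left (norm_nonneg _)
          ((div_le_one (by positivity)).2 (norm_sysCompleteSum_le F _ _))).trans ?_
        refine (norm_sysRepSum_sub_le F hF hν β _).trans ?_
        calc 2 * π * ((sysSize F : ℝ) + r * B) * (P : ℝ) ^ (m + 2) *
              ((2 * P + 1 : ℕ) : ℝ) ^ n * ‖β - fun i => (o i : ℝ) / M‖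
            ≤ 2 * π * ((sysSize F : ℝ) + r * B) * (P : ℝ) ^ (m + 2) * (3 * (P : ℝ)) ^ n *
                (1 / M) := by
              gcongr
              push_cast; linarith
          _ = 2 * π * ((sysSize F : ℝ) + r * B) * 3 ^ n * ((P : ℝ) ^ n / P) := by
              rw [hM', mul_pow]; field_simp; ring
          _ ≤ _ := by
              refine mul_le_mul_of_nonneg_left ?_ (by positivity)
              rw [div_le_iff₀ (by linarith)]
              calc (P : ℝ) ^ n ≤ (P : ℝ) ^ (n - 1 + 1) := pow_le_pow_right₀ hP0 (by omega)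
                _ = 1 * (P : ℝ) ^ (n - 1) * P := by rw [pow_succ]; ring
                _ ≤ _ := by gcongr; exact one_le_pow₀ hW0
      rw [sysRepSum] at h2
      have h3 := happ'.trans h1
      rw [hE]
      have : 0 ≤ (W : ℝ) ^ 2 * (P : ℝ) ^ (n - 1) := by positivity
      linarith
    · rw [nsmul_eq_mul, card_cbox, Nat.cast_pow]
  · rw [nsmul_eq_mul]
    have hcz : ((sysCentres r W).card : ℝ) ≤ (W : ℝ) ^ (r + 1) := by
      rw [sysCentres, card_sigma, Nat.cast_sum]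
      refine (sum_le_card_nsmul _ _ ((W : ℝ) ^ r) fun q hq => ?_).trans (le_of_eq ?_)
      · exact_mod_cast (card_primResidues_le r q).trans (Nat.pow_le_pow_left (mem_Icc.1 hq).2 r)
      · rw [Nat.card_Icc, Nat.add_sub_cancel, nsmul_eq_mul, pow_succ']
    have hH5 : ((2 * H + 1 : ℕ) : ℝ) ≤ 5 * ((W : ℝ) * P) := by
      rw [hH]; push_cast
      linarith [one_le_mul_of_one_le_of_one_le hW0 hP0]
    have hE0 : 0 ≤ E := by rw [hE]; positivity
    calc ((sysCentres r W).card : ℝ) * (((2 * H + 1 : ℕ) : ℝ) ^ r * E)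
        ≤ (W : ℝ) ^ (r + 1) * ((5 * ((W : ℝ) * P)) ^ r * E) := by gcongr
      _ = _ := by rw [hE, mul_pow, mul_pow]; ring

end FA.FormSystems
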