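import Fermat.Agent.FormSystems.Integral
import Fermat.Agent.FormSystems.Major

/-!
# Birch's asymptotic formula for systems of forms

If `n - s > r (r + 1) (d - 1) 2 ^ (d - 1)` and `|ν i| ≤ B P ^ d` the common solutions of
`F i x = ν i` in the box of size `P` number `𝔖 (ν) J (ν / P ^ d) P ^ (n - r d)` up to
`O (P ^ (n - r d - δ))`, for `r` forms of degree `d`.
-/

set_option autoImplicit false

noncomputable section

namespace FA.FormSystems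

open Finset FA.ThreePrimes FA.WaringAsymptotic FA.CubicForms FA.FormsManyVariables MvPolynomial
  MeasureTheory

variable {n r : ℕ} (F : Fin r → MvPolynomial (Fin n) ℤ)

/-- The number of common solutions of `F i x = ν i` in the box. -/
def countSysReps (ν : Fin r → ℤ) (P : ℕ) : ℕ :=
  ((cbox n P).filter fun x => ∀ i, eval x (F i) = ν i).card

theorem countSysReps_le (ν : Fin r → ℤ) (P : ℕ) :
    (countSysReps F ν P : ℝ) ≤ (2 * (P : ℝ) + 1) ^ n := by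
  refine (Nat.cast_le.2 (card_filter_le _ _)).trans (le_of_eq ?_)
  rw [card_cbox]; push_cast; rfl

theorem sum_grid_sysRepSum {m : ℕ} (hF : ∀ i, (F i).IsHomogeneous (m + 2)) {P B : ℕ}
    {ν : Fin r → ℤ} (hν : ∀ i, |ν i| ≤ (B * P ^ (m + 2) : ℕ)) (hP : sysSize F + B < P) :
    ∑ h ∈ Fintype.piFinset fun _ : Fin r => range (P ^ (m + 3)),
        sysRepSum F P ν (fun i => (h i : ℝ) / ((P ^ (m + 3) : ℕ) : ℝ)) =
      ((P ^ (m + 3) : ℕ) : ℂ) ^ r * (countSysReps F ν P : ℂ) := by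
  rw [countSysReps, card_filter, Nat.cast_sum, mul_sum]
  have e : ∀ h : Fin r → ℕ, sysRepSum F P ν (fun i => (h i : ℝ) / ((P ^ (m + 3) : ℕ) : ℝ)) =
      ∑ x ∈ cbox n P, ∏ i,
        eAdd (((eval x (F i) - ν i : ℤ) : ℝ) * h i / ((P ^ (m + 3) : ℕ) : ℝ)) := fun h => by
    rw [sysRepSum, sysSum, sum_mul]
    refine sum_congr rfl fun x _ => ?_
    rw [← eAdd_add, ← eAdd_sum, ← sum_neg_distrib, ← sum_add_distrib]
    exact congrArg _ (sum_congr rfl fun i _ => by push_cast; ring)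
  simp only [e]
  rw [sum_comm]
  refine sum_congr rfl fun x hx => ?_
  rw [← prod_univ_sum (fun _ : Fin r => range (P ^ (m + 3)))
    fun i h => eAdd (((eval x (F i) - ν i : ℤ) : ℝ) * h / ((P ^ (m + 3) : ℕ) : ℝ))]
  simp only [sum_eAdd_grid (pow_pos (by omega : 0 < P) (m + 3))]
  have hiff : ∀ i, ((P ^ (m + 3) : ℕ) : ℤ) ∣ eval x (F i) - ν i ↔ eval x (F i) = ν i := fun i => by
    refine ⟨fun hd => sub_eq_zero.1 (Int.eq_zero_of_abs_lt_dvd hd ?_), fun h => by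
      rw [h, sub_self]; exact dvd_zero _⟩
    refine ((abs_sub _ _).trans (add_le_add (abs_eval_le (F i) (hF i) (mem_cbox.1 hx))
      (hν i))).trans_lt ?_
    push_cast
    rw [← add_mul, pow_succ' _ (m + 2)]
    refine mul_lt_mul_of_pos_right ?_ (pow_pos (Int.natCast_pos.2 (by omega)) _)
    have : formSize (F i) ≤ sysSize F :=
      single_le_sum (f := fun i => formSize (F i)) (fun _ _ => Nat.zero_le _) (mem_univ i)
    omega
  simp only [hiff]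
  by_cases hall : ∀ i, eval x (F i) = ν i
  · simp [hall]
  · rw [if_neg hall, Nat.cast_zero, mul_zero]
    obtain ⟨i, hi⟩ := not_forall.1 hall
    exact prod_eq_zero (mem_univ i) (if_neg hi)

/-- **The sum along an arc.** -/
theorem exists_sys_arc_sum {m s : ℕ} (hr : 0 < r) (hF : ∀ i, (F i).IsHomogeneous (m + 2))
    (hs : SystemSingularDimLE F s) (hn : s + r * (r + 1) * (m + 1) * 2 ^ (m + 1) < n) (B : ℕ) :
    ∃ C : ℝ, 0 < C ∧ ∀ (P W : ℕ) (ν : Fin r → ℤ), 1 ≤ P → 1 ≤ W →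
      (∀ i, |ν i| ≤ (B * P ^ (m + 2) : ℕ)) →
      ‖∑ o ∈ cbox r (W * P + 1),
          sysRepSum F P ν (fun i => (o i : ℝ) / ((P ^ (m + 3) : ℕ) : ℝ)) -
        (P : ℂ) ^ (n + r) *
          (sysRepIntegral F (fun i => (ν i : ℝ) / (P : ℝ) ^ (m + 2)) : ℂ)‖ ≤
      C * ((W : ℝ) ^ (r + 1) * (P : ℝ) ^ r * (P : ℝ) ^ (n - 1) +
        (P : ℝ) ^ (n + r) * (W : ℝ) ^ (-(1 / 2) : ℝ)) := by
  obtain ⟨C₁, hC₁, happ⟩ := exists_sys_sum_integral F hF
  obtain ⟨C₂, hC₂, htail⟩ := exists_sys_integral_tail F hr hF hs hn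
  obtain ⟨K, hK⟩ : ∃ K : ℝ, K = 2 * Real.pi * ((sysSize F : ℝ) + r * B) * 2 ^ n := ⟨_, rfl⟩
  have hK0 : 0 ≤ K := hK ▸ by positivity
  refine ⟨5 ^ r * 4 * C₁ + 4 ^ r * K + (r : ℝ) * 6 ^ r * 2 ^ n + C₂, by positivity,
    fun P W ν hP hW hν => ?_⟩
  obtain ⟨c, hc⟩ : ∃ c : Fin r → ℝ, c = fun i => (ν i : ℝ) / (P : ℝ) ^ (m + 2) := ⟨_, rfl⟩
  rw [← hc]
  have hcB : ‖c‖ ≤ (B : ℝ) := by
    refine (pi_norm_le_iff_of_nonneg (Nat.cast_nonneg B)).2 fun i => ?_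
    rw [hc, Real.norm_eq_abs, abs_div,
      abs_of_pos (pow_pos (Nat.cast_pos.2 hP) _ : (0 : ℝ) < (P : ℝ) ^ (m + 2)),
      div_le_iff₀ (pow_pos (Nat.cast_pos.2 hP) _)]
    exact_mod_cast hν i
  obtain ⟨H, hH⟩ : ∃ H, H = W * P + 1 := ⟨_, rfl⟩
  rw [← hH]
  have hP0 : (1 : ℝ) ≤ P := by exact_mod_cast hP
  have hPpos : (0 : ℝ) < P := by linarith
  have hW0 : (1 : ℝ) ≤ W := by exact_mod_cast hW
  have hWP : (1 : ℝ) ≤ W * P := one_le_mul_of_one_le_of_one_le hW0 hP0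
  have hH' : (H : ℝ) = W * P + 1 := by rw [hH]; push_cast; rfl
  have hH1 : 1 ≤ H := by omega
  obtain ⟨g, hg⟩ : ∃ g : (Fin r → ℝ) → ℂ,
      g = fun y => sysTwistedIntegral F c ((P : ℝ)⁻¹ • y) := ⟨_, rfl⟩
  have hgK : ∀ x y : Fin r → ℝ, x ∈ symBox r H → y ∈ symBox r H →
      (∀ i, |x i - y i| ≤ 1) → ‖g x - g y‖ ≤ K / P := by
    intro x y _ _ hxy
    rw [hg]
    refine (norm_sysTwistedIntegral_sub_le F hF hcB _ _).trans ?_
    rw [← hK, ← smul_sub, norm_smul, norm_inv, Real.norm_natCast, div_eq_mul_inv]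
    refine mul_le_mul_of_nonneg_left (mul_le_of_le_one_right (by positivity) ?_) hK0
    exact (pi_norm_le_iff_of_nonneg zero_le_one).2 fun i => by
      rw [Pi.sub_apply, Real.norm_eq_abs]; exact hxy i
  have hR := norm_cube_sum_sub_integral_le g (hg ▸ (continuous_sysTwistedIntegral F hF c).comp
    (continuous_const_smul _)) hH1 hgK (B := 2 ^ n) fun y => by
      rw [hg]; exact (norm_sysTwistedIntegral F c _).trans_le (norm_sysFormIntegral_le F _)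
  have hscale : ∫ y in symBox r H, g y =
      (P : ℂ) ^ r * ∫ γ in symBox r ((H : ℝ) / P), sysTwistedIntegral F c γ := by
    rw [show symBox r (H : ℝ) = symBox r ((P : ℝ) * ((H : ℝ) / P)) by
      rw [mul_div_cancel₀ _ hPpos.ne'], ← setIntegral_symBox_smul g hPpos, Complex.ofReal_natCast]
    congr 1
    refine setIntegral_congr_fun measurableSet_Icc fun γ _ => ?_
    rw [hg]
    simp only [smul_smul, inv_mul_cancel₀ hPpos.ne', one_smul]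
  rw [hscale] at hR
  obtain ⟨J, hJ⟩ : ∃ J, J = ∫ γ in symBox r ((H : ℝ) / P), sysTwistedIntegral F c γ := ⟨_, rfl⟩
  rw [← hJ] at hR
  have hfull := htail c W ((H : ℝ) / P) hW (by rw [le_div_iff₀ hPpos]; linarith)
  rw [← hJ] at hfull
  have harg : ∀ o : Fin r → ℤ, ((P : ℝ) ^ (m + 2)) •
      (fun i => (o i : ℝ) / ((P ^ (m + 3) : ℕ) : ℝ)) = (P : ℝ)⁻¹ • fun i => (o i : ℝ) :=
    fun o => funext fun i => by
      simp only [Pi.smul_apply, smul_eq_mul]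
      push_cast; field_simp; ring
  have h1 : ∀ o ∈ cbox r H, ‖sysRepSum F P ν (fun i => (o i : ℝ) / ((P ^ (m + 3) : ℕ) : ℝ)) -
      (P : ℂ) ^ n * g (fun i => (o i : ℝ))‖ ≤ 4 * C₁ * W * (P : ℝ) ^ (n - 1) := by
    intro o ho
    obtain ⟨α, hα⟩ : ∃ α : Fin r → ℝ,
        α = fun i => (o i : ℝ) / ((P ^ (m + 3) : ℕ) : ℝ) := ⟨_, rfl⟩
    have h := happ P α hP
    rw [hα, harg o, ← hα] at h
    simp only [hg, sysTwistedIntegral]
    rw [← hα, sysRepSum, show ∑ i, α i * (ν i : ℝ) =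
      ∑ i, ((P : ℝ)⁻¹ • fun i => (o i : ℝ)) i * c i by
        refine sum_congr rfl fun i _ => ?_
        rw [hc, ← harg o, hα]
        simp only [Pi.smul_apply, smul_eq_mul]
        field_simp, ← mul_assoc, ← sub_mul, norm_mul, norm_eAdd, mul_one]
    refine h.trans ?_
    have hαn : ‖α‖ ≤ (H : ℝ) / ((P ^ (m + 3) : ℕ) : ℝ) := by
      refine (pi_norm_le_iff_of_nonneg (by positivity)).2 fun i => ?_
      rw [hα, Real.norm_eq_abs, abs_div, Nat.abs_cast, ← Int.cast_abs]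
      gcongr
      exact_mod_cast mem_cbox.1 ho i
    have h4 : 1 + (P : ℝ) ^ (m + 2) * ‖α‖ ≤ 4 * W := by
      have h5 : (P : ℝ) ^ (m + 2) * ((H : ℝ) / ((P ^ (m + 3) : ℕ) : ℝ)) = H / P := by
        push_cast; field_simp; ring
      have h6 := mul_le_mul_of_nonneg_left hαn (show (0 : ℝ) ≤ (P : ℝ) ^ (m + 2) by positivity)
      have h7 : (H : ℝ) / P ≤ 2 * W := by rw [div_le_iff₀ hPpos]; linarith
      linarith
    calc C₁ * (P : ℝ) ^ (n - 1) * (1 + (P : ℝ) ^ (m + 2) * ‖α‖)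
        ≤ C₁ * (P : ℝ) ^ (n - 1) * (4 * W) := by gcongr
      _ = _ := by ring
  obtain ⟨Y, hY⟩ : ∃ Y, Y = (W : ℝ) ^ (r + 1) * (P : ℝ) ^ r * (P : ℝ) ^ (n - 1) := ⟨_, rfl⟩
  rw [← hY]
  have hY0 : 0 ≤ Y := hY ▸ by positivity
  have hA : ‖∑ o ∈ cbox r H, sysRepSum F P ν (fun i => (o i : ℝ) / ((P ^ (m + 3) : ℕ) : ℝ)) -
      (P : ℂ) ^ n * ∑ o ∈ cbox r H, g (fun i => (o i : ℝ))‖ ≤ 5 ^ r * 4 * C₁ * Y := by
    rw [mul_sum, ← sum_sub_distrib]
    refine (norm_sum_le _ _).trans ((sum_le_card_nsmul _ _ _ h1).trans ?_)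
    rw [nsmul_eq_mul, card_cbox, hY]
    push_cast
    calc (2 * (H : ℝ) + 1) ^ r * (4 * C₁ * W * (P : ℝ) ^ (n - 1))
        ≤ (5 * (W * P)) ^ r * (4 * C₁ * W * (P : ℝ) ^ (n - 1)) := by
          gcongr; linarith
      _ = _ := by rw [mul_pow, mul_pow, pow_succ]; ring
  have hPn : (P : ℝ) ^ (n - 1) * P = (P : ℝ) ^ n := by
    rw [← pow_succ, Nat.sub_add_cancel (by omega : 1 ≤ n)]
  have hB : ‖(P : ℂ) ^ n * (∑ o ∈ cbox r H, g (fun i => (o i : ℝ))) -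
      (P : ℂ) ^ (n + r) * J‖ ≤ (4 ^ r * K + (r : ℝ) * 6 ^ r * 2 ^ n) * Y := by
    rw [pow_add, mul_assoc, ← mul_sub, norm_mul, norm_pow, Complex.norm_natCast]
    refine (mul_le_mul_of_nonneg_left hR (by positivity)).trans ?_
    have hH2 : (H : ℝ) ≤ 2 * (W * P) := by linarith
    have e1 : (P : ℝ) ^ n * (2 ^ r * (H : ℝ) ^ r * (K / P)) ≤ 4 ^ r * K * Y := by
      calc (P : ℝ) ^ n * (2 ^ r * (H : ℝ) ^ r * (K / P))
          ≤ (P : ℝ) ^ n * (2 ^ r * (2 * (W * P)) ^ r * (K / P)) := by gcongr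
        _ = 4 ^ r * K * ((W : ℝ) ^ r * (P : ℝ) ^ r * (P : ℝ) ^ (n - 1)) := by
            rw [← hPn, show (4 : ℝ) = 2 * 2 by norm_num, mul_pow, mul_pow, mul_pow]
            field_simp
        _ ≤ _ := by
            rw [hY]; gcongr
            exacts [Nat.le_succ r]
    have e2 : (P : ℝ) ^ n * ((r : ℝ) * 3 ^ r * (H : ℝ) ^ (r - 1) * 2 ^ n) ≤
        (r : ℝ) * 6 ^ r * 2 ^ n * Y := by
      have h2 : (H : ℝ) ^ (r - 1) * P ≤ 2 ^ r * ((W : ℝ) ^ (r + 1) * (P : ℝ) ^ r) := by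
        calc (H : ℝ) ^ (r - 1) * P ≤ (2 * (W * P)) ^ (r - 1) * (2 * (W * P)) := by
              gcongr
              nlinarith
          _ = (2 * (W * P)) ^ r := by rw [← pow_succ, Nat.sub_add_cancel hr]
          _ = 2 ^ r * ((W : ℝ) ^ r * (P : ℝ) ^ r) := by rw [mul_pow, mul_pow]
          _ ≤ _ := by
              gcongr
              exacts [Nat.le_succ r]
      rw [← hPn, hY, show (6 : ℝ) = 3 * 2 by norm_num, mul_pow]
      have h3 := mul_le_mul_of_nonneg_left h2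
        (show (0 : ℝ) ≤ (P : ℝ) ^ (n - 1) * ((r : ℝ) * 3 ^ r * 2 ^ n) by positivity)
      linarith
    rw [mul_add, add_mul]
    linarith
  have hC : ‖(P : ℂ) ^ (n + r) * J - (P : ℂ) ^ (n + r) * (sysRepIntegral F c : ℂ)‖ ≤
      C₂ * ((P : ℝ) ^ (n + r) * (W : ℝ) ^ (-(1 / 2) : ℝ)) := by
    rw [← mul_sub, norm_mul, norm_pow, Complex.norm_natCast, mul_left_comm C₂]
    exact mul_le_mul_of_nonneg_left hfull (by positivity)
  refine (norm_sub_le_norm_sub_add_norm_sub _ _ _).trans ((add_le_add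
    ((norm_sub_le_norm_sub_add_norm_sub _ _ _).trans (add_le_add hA hB)) hC).trans ?_)
  have hX : 0 ≤ (P : ℝ) ^ (n + r) * (W : ℝ) ^ (-(1 / 2) : ℝ) := by positivity
  nlinarith [mul_nonneg hC₂.le hY0,
    mul_nonneg (show 0 ≤ 5 ^ r * 4 * C₁ + 4 ^ r * K + (r : ℝ) * 6 ^ r * 2 ^ n by positivity) hX]

/-- **Birch's asymptotic formula for systems of forms.** -/
theorem exists_sys_rep_asymptotic {m s : ℕ} (hr : 0 < r) (hF : ∀ i, (F i).IsHomogeneous (m + 2))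
    (hs : SystemSingularDimLE F s) (hn : s + r * (r + 1) * (m + 1) * 2 ^ (m + 1) < n) (B : ℕ) :
    ∃ δ C : ℝ, 0 < δ ∧ 0 < C ∧ ∀ (P : ℕ) (ν : Fin r → ℤ), 1 ≤ P →
      (∀ i, |ν i| ≤ (B * P ^ (m + 2) : ℕ)) →
        |(countSysReps F ν P : ℝ) - sysRepSeries F ν *
            sysRepIntegral F (fun i => (ν i : ℝ) / (P : ℝ) ^ (m + 2)) *
            (P : ℝ) ^ (n - r * (m + 2))| ≤
          C * (P : ℝ) ^ (((n - r * (m + 2) : ℕ) : ℝ) - δ) := by
  classical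
  obtain ⟨C₆, hC₆, hser⟩ := exists_sysRepTerm_tail F hr hF hs hn
  obtain ⟨C₃, hC₃, hminor⟩ := exists_sys_minor_sum F hr hF hs hn
  obtain ⟨C₄, hC₄, hmajor⟩ := exists_sys_major_sum F hF B
  obtain ⟨C₅, hC₅, harc⟩ := exists_sys_arc_sum F hr hF hs hn B
  obtain ⟨e, he⟩ : ∃ e, e = sysSaving r m / 4 := ⟨_, rfl⟩
  have he0 : 0 < e := he ▸ by have := sysSaving_pos hr m; positivity
  have he1 : e ≤ 1 / 4 := by have := sysSaving_le_one hr m; rw [he]; linarith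
  rw [← he] at hser
  obtain ⟨η, hη⟩ : ∃ η : ℝ, η = 1 / (4 * ((r : ℝ) + 2)) := ⟨_, rfl⟩
  have hη0 : 0 < η := hη ▸ by positivity
  have hη1 : η ≤ 1 / 4 := by
    rw [hη, div_le_div_iff₀ (by positivity) (by norm_num)]
    linarith [(Nat.cast_nonneg r : (0 : ℝ) ≤ r)]
  obtain ⟨δ, hδ⟩ : ∃ δ : ℝ, δ = e * η / 2 := ⟨_, rfl⟩
  have hδ0 : 0 < δ := hδ ▸ by positivity
  have hδ1 : δ ≤ 1 / 2 := by rw [hδ]; nlinarith
  obtain ⟨L₀, hL₀, hlog⟩ := exists_log_le (δ := δ / ((n : ℝ) + 1)) (by positivity)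
  obtain ⟨IB, hIB⟩ : ∃ IB : ℝ, IB = ∫ γ, ‖sysFormIntegral F γ‖ := ⟨_, rfl⟩
  have hIB0 : 0 ≤ IB := hIB ▸ integral_nonneg fun γ => norm_nonneg _
  obtain ⟨C₀, hC₀⟩ : ∃ C₀ : ℝ,
      C₀ = 2 * L₀ ^ (n + 1) * (C₃ + C₄ + 2 * C₆ * C₅ + C₆ * IB) + 1 := ⟨_, rfl⟩
  obtain ⟨P₀, hP₀⟩ : ∃ P₀, P₀ = sysSize F + B + 6 := ⟨_, rfl⟩
  obtain ⟨d, hd⟩ : ∃ d, d = r * (m + 2) := ⟨_, rfl⟩
  have hdn : d < n := by
    have h1 : m + 2 ≤ (r + 1) * (m + 1) :=
      le_trans (show m + 2 ≤ 2 * (m + 1) by omega) (Nat.mul_le_mul_right _ (by omega))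
    have h2 : r * (m + 2) ≤ r * (r + 1) * (m + 1) * 2 ^ (m + 1) := by
      refine le_trans ?_ (Nat.le_mul_of_pos_right _ (Nat.two_pow_pos _))
      rw [mul_assoc]
      exact Nat.mul_le_mul_left r h1
    omega
  rw [← hd]
  refine ⟨δ, C₀ + (3 ^ n + C₆ * IB) * (P₀ : ℝ) ^ (d + 1), hδ0,
    by rw [hC₀]; positivity, fun P ν hP hν => ?_⟩
  have hP0 : (1 : ℝ) ≤ P := by exact_mod_cast hP
  have hP' : (0 : ℝ) < P := by linarith
  obtain ⟨ε, hε⟩ : ∃ ε : ℝ, ε = (P : ℝ) ^ (-δ) := ⟨_, rfl⟩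
  have hε0 : 0 < ε := hε ▸ by positivity
  have hgoal : (P : ℝ) ^ (((n - d : ℕ) : ℝ) - δ) = (P : ℝ) ^ (n - d) * ε := by
    rw [hε, sub_eq_add_neg, Real.rpow_add hP', Real.rpow_natCast]
  obtain ⟨hsum, hT₀le, htail⟩ := hser ν
  obtain ⟨σ, hσ⟩ : ∃ σ : ℂ, σ = ∑' q, sysRepTerm F ν q := ⟨_, rfl⟩
  obtain ⟨I, hI⟩ : ∃ I, I = sysRepIntegral F (fun i => (ν i : ℝ) / (P : ℝ) ^ (m + 2)) := ⟨_, rfl⟩
  have hIle : |I| ≤ IB := by
    rw [hI, hIB, sysRepIntegral]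
    refine (Complex.abs_re_le_norm _).trans ((norm_integral_le_integral_norm _).trans (le_of_eq ?_))
    simp only [norm_sysTwistedIntegral]
  have hσle : ‖σ‖ ≤ C₆ := hσ ▸ (norm_tsum_le_tsum_norm hsum).trans hT₀le
  rw [hgoal, show sysRepSeries F ν = σ.re by rw [sysRepSeries, hσ], ← hI]
  have hσre : |σ.re * I| ≤ C₆ * IB := by
    rw [abs_mul]
    exact mul_le_mul ((Complex.abs_re_le_norm _).trans hσle) hIle (abs_nonneg _) hC₆.le
  rcases Nat.lt_or_ge P P₀ with hsmall | hbig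
  · have h1 : |(countSysReps F ν P : ℝ) - σ.re * I * (P : ℝ) ^ (n - d)| ≤
        (3 ^ n + C₆ * IB) * (P : ℝ) ^ n := by
      refine (abs_sub _ _).trans ?_
      rw [Nat.abs_cast, abs_mul, abs_pow, Nat.abs_cast, add_mul]
      refine add_le_add ((countSysReps_le F ν P).trans ?_) (mul_le_mul hσre
        (pow_le_pow_right₀ hP0 (Nat.sub_le _ _)) (by positivity) (by positivity))
      rw [← mul_pow]
      exact pow_le_pow_left₀ (by positivity) (by linarith) n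
    refine h1.trans ?_
    have h2 : (P : ℝ) ^ n ≤ (P₀ : ℝ) ^ (d + 1) * ((P : ℝ) ^ (n - d) * ε) := by
      have h3 : (1 : ℝ) ≤ (P : ℝ) * ε := by
        rw [hε, mul_comm, ← Real.rpow_add_one hP'.ne']
        exact Real.one_le_rpow hP0 (by linarith)
      calc (P : ℝ) ^ n = (P : ℝ) ^ d * (P : ℝ) ^ (n - d) * 1 := by
            rw [← pow_add, mul_one, Nat.add_sub_cancel' hdn.le]
        _ ≤ (P : ℝ) ^ d * (P : ℝ) ^ (n - d) * ((P : ℝ) * ε) :=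
            mul_le_mul_of_nonneg_left h3 (by positivity)
        _ = (P : ℝ) ^ (d + 1) * ((P : ℝ) ^ (n - d) * ε) := by ring
        _ ≤ _ := mul_le_mul_of_nonneg_right
            (pow_le_pow_left₀ hP'.le (Nat.cast_le.2 hsmall.le) _) (by positivity)
    refine (mul_le_mul_of_nonneg_left h2 (by positivity)).trans ?_
    rw [← mul_assoc]
    refine mul_le_mul_of_nonneg_right (le_add_of_nonneg_left ?_) (by positivity)
    rw [hC₀]; positivity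
  obtain ⟨W, hW⟩ : ∃ W, W = ⌊(P : ℝ) ^ η⌋₊ := ⟨_, rfl⟩
  have hW1 : 1 ≤ W := hW ▸ Nat.le_floor (by simpa using Real.one_le_rpow hP0 hη0.le)
  have hW0 : (1 : ℝ) ≤ W := by exact_mod_cast hW1
  have hWle : (W : ℝ) ≤ (P : ℝ) ^ η := hW ▸ Nat.floor_le (by positivity)
  have hWge : (P : ℝ) ^ η ≤ 2 * W := by
    have h1 := Nat.lt_floor_add_one ((P : ℝ) ^ η)
    rw [← hW] at h1
    linarith
  have hWpow : ∀ k : ℕ, (W : ℝ) ^ k ≤ (P : ℝ) ^ (η * k) := fun k => by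
    rw [Real.rpow_mul hP'.le, Real.rpow_natCast]
    exact pow_le_pow_left₀ (Nat.cast_nonneg _) hWle k
  have hW4 : W ^ 4 ≤ P := by
    have h4 := (hWpow 4).trans ((Real.rpow_le_rpow_of_exponent_le hP0
      (show η * (4 : ℕ) ≤ 1 by push_cast; linarith)).trans (Real.rpow_one _).le)
    exact_mod_cast h4
  have hWP : W ≤ P := (Nat.le_self_pow four_ne_zero W).trans hW4
  have hL : (1 + Real.log P) ^ (n + 1) ≤ L₀ ^ (n + 1) * (P : ℝ) ^ δ := by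
    refine (pow_le_pow_left₀ (by linarith [Real.log_nonneg hP0]) (hlog _ hP0) _).trans (le_of_eq ?_)
    rw [mul_pow, ← Real.rpow_natCast ((P : ℝ) ^ _) (n + 1), ← Real.rpow_mul hP'.le]
    congr 2
    push_cast
    field_simp
  have hWe : (W : ℝ) ^ (-e) ≤ 2 * (P : ℝ) ^ (-(2 * δ)) := by
    have h1 := Real.rpow_le_rpow_of_nonpos (z := -e) (by positivity)
      (show (P : ℝ) ^ η / 2 ≤ W by linarith) (by linarith)
    refine h1.trans ?_
    rw [Real.div_rpow (by positivity) two_pos.le, Real.rpow_neg two_pos.le, div_inv_eq_mul,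
      ← Real.rpow_mul hP'.le, mul_comm, show η * -e = -(2 * δ) by rw [hδ]; ring]
    refine mul_le_mul_of_nonneg_right ?_ (by positivity)
    exact (Real.rpow_le_rpow_of_exponent_le one_le_two (by linarith)).trans (Real.rpow_one 2).le
  obtain ⟨Z, hZ⟩ : ∃ Z : ℝ, Z = 2 * L₀ ^ (n + 1) * ε := ⟨_, rfl⟩
  have hZ0 : 0 ≤ Z := hZ ▸ by positivity
  have hLW : (1 + Real.log P) ^ (n + 1) * (W : ℝ) ^ (-e) ≤ Z := by
    have hsplit : (P : ℝ) ^ δ * (P : ℝ) ^ (-(2 * δ)) = ε := by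
      rw [hε, ← Real.rpow_add hP']; ring_nf
    calc (1 + Real.log P) ^ (n + 1) * (W : ℝ) ^ (-e)
        ≤ (L₀ ^ (n + 1) * (P : ℝ) ^ δ) * (2 * (P : ℝ) ^ (-(2 * δ))) := by gcongr
      _ = _ := by rw [hZ, ← hsplit]; ring
  have hWZ : (W : ℝ) ^ (-e) ≤ Z :=
    le_trans (le_mul_of_one_le_left (by positivity)
      (one_le_pow₀ (by linarith [Real.log_nonneg hP0]))) hLW
  have hWhalf : (W : ℝ) ^ (-(1 / 2) : ℝ) ≤ Z :=
    (Real.rpow_le_rpow_of_exponent_le hW0 (by linarith)).trans hWZ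
  have hεZ : ε ≤ Z := by
    rw [hZ]
    refine le_mul_of_one_le_left hε0.le ?_
    exact one_le_mul_of_one_le_of_one_le one_le_two (one_le_pow₀ hL₀)
  have hWbig : (W : ℝ) ^ (2 * r + 3) ≤ (P : ℝ) * Z := by
    refine le_trans ?_ (mul_le_mul_of_nonneg_left hεZ hP'.le)
    refine (hWpow _).trans ((Real.rpow_le_rpow_of_exponent_le hP0 (?_ : _ ≤ 1 + -δ)).trans
      (le_of_eq (by rw [Real.rpow_add hP', Real.rpow_one, hε])))
    have : η * ((2 * r + 3 : ℕ) : ℝ) ≤ 1 / 2 := by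
      rw [hη, div_mul_eq_mul_div, div_le_iff₀ (by positivity)]
      push_cast
      linarith
    linarith
  obtain ⟨X, hX⟩ : ∃ X, X = (P : ℝ) ^ (n + r) := ⟨_, rfl⟩
  have hX0 : 0 ≤ X := hX ▸ by positivity
  have hXn : (P : ℝ) * ((P : ℝ) ^ r * (P : ℝ) ^ (n - 1)) = X := by
    rw [hX, ← pow_add, ← pow_succ']; congr 1; omega
  obtain ⟨f, hf⟩ : ∃ f : (Fin r → ℕ) → ℂ, f = fun h : Fin r → ℕ =>
      sysRepSum F P ν (fun i => (h i : ℝ) / ((P ^ (m + 3) : ℕ) : ℝ)) := ⟨_, rfl⟩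
  obtain ⟨G, hG⟩ : ∃ G, G = Fintype.piFinset fun _ : Fin r => range (P ^ (m + 3)) := ⟨_, rfl⟩
  have hsub : sysArcs r (m + 2) P W ⊆ G := by
    intro h hh
    obtain ⟨zo, -, rfl⟩ := mem_image.1 hh
    rw [hG]
    refine Fintype.mem_piFinset.2 fun i => ?_
    rw [mem_range, sysArcPoint, arcPoint, Int.toNat_lt (Int.emod_nonneg _ (by positivity))]
    exact Int.emod_lt_of_pos _ (by positivity)
  have htot : ∑ h ∈ G \ sysArcs r (m + 2) P W, f h + ∑ h ∈ sysArcs r (m + 2) P W, f h =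
      ((P ^ (m + 3) : ℕ) : ℂ) ^ r * (countSysReps F ν P : ℂ) := by
    rw [sum_sdiff hsub, hf, hG]
    exact sum_grid_sysRepSum F hF hν (by omega)
  obtain ⟨T, hT⟩ : ∃ T, T = ∑ q ∈ Icc 1 W, sysRepTerm F ν q := ⟨_, rfl⟩
  obtain ⟨A, hA⟩ : ∃ A, A = ∑ o ∈ cbox r (W * P + 1),
      sysRepSum F P ν (fun i => (o i : ℝ) / ((P ^ (m + 3) : ℕ) : ℝ)) := ⟨_, rfl⟩
  have hmin : ‖∑ h ∈ G \ sysArcs r (m + 2) P W, f h‖ ≤ C₃ * Z * X := by
    rw [hf, hG]
    refine (norm_sum_le _ _).trans ?_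
    simp only [norm_sysRepSum]
    refine (hminor P W hP hW1 hWP).trans ?_
    rw [← hX, show C₃ * (1 + Real.log P) ^ (n + 1) * X * (W : ℝ) ^ (-sysSaving r m) =
      C₃ * ((1 + Real.log P) ^ (n + 1) * (W : ℝ) ^ (-sysSaving r m)) * X by ring]
    refine mul_le_mul_of_nonneg_right (mul_le_mul_of_nonneg_left (le_trans ?_ hLW) hC₃.le) hX0
    refine mul_le_mul_of_nonneg_left (Real.rpow_le_rpow_of_exponent_le hW0 ?_)
      (pow_nonneg (by linarith [Real.log_nonneg hP0]) _)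
    rw [he]; linarith [sysSaving_pos hr m]
  have hmaj : ‖∑ h ∈ sysArcs r (m + 2) P W, f h - T * A‖ ≤ C₄ * Z * X := by
    rw [hf, hT, hA]
    refine (hmajor P W ν hW1 (by omega) hW4 hν).trans ?_
    calc C₄ * (W : ℝ) ^ (2 * r + 3) * (P : ℝ) ^ r * (P : ℝ) ^ (n - 1)
        ≤ C₄ * ((P : ℝ) * Z) * (P : ℝ) ^ r * (P : ℝ) ^ (n - 1) := by gcongr
      _ = C₄ * Z * ((P : ℝ) * ((P : ℝ) ^ r * (P : ℝ) ^ (n - 1))) := by ring
      _ = _ := by rw [hXn]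
  have hTA : ‖T * A - T * ((P : ℂ) ^ (n + r) * I)‖ ≤ 2 * C₆ * C₅ * Z * X := by
    rw [← mul_sub, norm_mul, show 2 * C₆ * C₅ * Z * X = C₆ * (2 * C₅ * Z * X) by ring]
    refine mul_le_mul ?_ ?_ (norm_nonneg _) hC₆.le
    · rw [hT]
      exact ((norm_sum_le _ _).trans (hsum.sum_le_tsum _ fun q _ => norm_nonneg _)).trans hT₀le
    rw [hA, hI]
    refine (harc P W ν hP hW1 hν).trans ?_
    rw [← hX]
    have h2 : (W : ℝ) ^ (r + 1) * (P : ℝ) ^ r * (P : ℝ) ^ (n - 1) ≤ X * Z := by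
      calc (W : ℝ) ^ (r + 1) * (P : ℝ) ^ r * (P : ℝ) ^ (n - 1)
          ≤ (P : ℝ) * Z * (P : ℝ) ^ r * (P : ℝ) ^ (n - 1) := by
            gcongr
            exact (pow_le_pow_right₀ hW0 (by omega : r + 1 ≤ 2 * r + 3)).trans hWbig
        _ = _ := by rw [← hXn]; ring
    nlinarith [mul_le_mul_of_nonneg_left (add_le_add h2
      (mul_le_mul_of_nonneg_left hWhalf hX0)) hC₅.le]
  have hTσ : ‖T * ((P : ℂ) ^ (n + r) * I) - σ * ((P : ℂ) ^ (n + r) * I)‖ ≤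
      C₆ * IB * Z * X := by
    rw [← sub_mul, norm_mul, norm_mul, norm_pow, Complex.norm_natCast, Complex.norm_real,
      Real.norm_eq_abs, ← hX, norm_sub_rev, hσ, hT,
      show C₆ * IB * Z * X = C₆ * Z * (X * IB) by ring]
    refine mul_le_mul ((htail W hW1).trans ?_) (mul_le_mul_of_nonneg_left hIle hX0)
      (by positivity) (by positivity)
    exact mul_le_mul_of_nonneg_left hWZ hC₆.le
  have hdiff : ‖((P ^ (m + 3) : ℕ) : ℂ) ^ r * (countSysReps F ν P : ℂ) -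
      σ * ((P : ℂ) ^ (n + r) * I)‖ ≤ (C₃ + C₄ + 2 * C₆ * C₅ + C₆ * IB) * Z * X := by
    rw [← htot]
    refine le_trans (le_of_eq (congrArg norm (show _ = (∑ h ∈ G \ sysArcs r (m + 2) P W, f h) +
      ((∑ h ∈ sysArcs r (m + 2) P W, f h - T * A) +
        ((T * A - T * ((P : ℂ) ^ (n + r) * I)) +
          (T * ((P : ℂ) ^ (n + r) * I) - σ * ((P : ℂ) ^ (n + r) * I)))) by ring))) ?_
    refine (norm_add_le _ _).trans (le_of_le_of_eq (add_le_add hmin ((norm_add_le _ _).trans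
      (add_le_add hmaj ((norm_add_le _ _).trans (add_le_add hTA hTσ))))) ?_)
    ring
  have hre := (Complex.abs_re_le_norm _).trans hdiff
  rw [Complex.sub_re, ← Nat.cast_pow, ← Nat.cast_mul, Complex.natCast_re, ← Complex.ofReal_natCast,
    ← Complex.ofReal_pow, ← Complex.ofReal_mul, Complex.re_mul_ofReal] at hre
  push_cast at hre
  have hM : ((P : ℝ) ^ (m + 3)) ^ r * (P : ℝ) ^ (n - d) = X := by
    rw [hX, ← pow_mul, ← pow_add]
    congr 1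
    rw [show (m + 3) * r = d + r by rw [hd]; ring]
    omega
  rw [show σ.re * ((P : ℝ) ^ (n + r) * I) = (P : ℝ) ^ (n + r) * (σ.re * I) by ring, ← hX, ← hM,
    mul_assoc (((P : ℝ) ^ (m + 3)) ^ r), ← mul_sub, abs_mul,
    abs_of_pos (by positivity : (0 : ℝ) < ((P : ℝ) ^ (m + 3)) ^ r),
    mul_left_comm _ (((P : ℝ) ^ (m + 3)) ^ r)] at hre
  rw [mul_comm ((P : ℝ) ^ (n - d)) (σ.re * I)] at hre
  refine (le_of_mul_le_mul_left hre (by positivity)).trans ?_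
  rw [hZ, hC₀]
  have h1 : 0 ≤ (3 ^ n + C₆ * IB) * (P₀ : ℝ) ^ (d + 1) * ((P : ℝ) ^ (n - d) * ε) := by
    positivity
  have h2 : 0 ≤ (P : ℝ) ^ (n - d) * ε := by positivity
  linarith

end FA.FormSystems
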