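import Fermat.Agent.FormsManyVariables.Fibre
import Mathlib.LinearAlgebra.Matrix.Rank
import Mathlib.LinearAlgebra.Matrix.NonsingularInverse

/-!
# Degenerate tuples of a system of forms

For `r` forms of degree `k + 1` the tuples of integer vectors of size `H` at which the `r` gradient
vectors of multilinear forms are dependent number `O (H ^ ((k - 1) n + s))`, `s` bounding the
dimension of the locus at which the Jacobian has rank less than `r`.
-/

set_option autoImplicit false

noncomputable section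

namespace FA.FormSystems

open Finset MvPolynomial FA.CubicForms FA.FormsManyVariables

variable {n r : ℕ}

/-- `s` integer linear forms cut the locus where the Jacobian has rank less than `r` down to the
origin, as they can if and only if its dimension is at most `s`. -/
def SystemSingularDimLE (F : Fin r → MvPolynomial (Fin n) ℤ) (s : ℕ) : Prop :=
  ∃ ℓ : Fin s → Fin n → ℤ, ∀ z : Fin n → ℂ,
    ¬ LinearIndependent ℂ (fun i j => aeval z (pderiv j (F i))) →
      (∀ a, ∑ l, (ℓ a l : ℂ) * z l = 0) → z = 0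

theorem exists_minor_ne_zero {K : Type*} [Field K] {M : Fin r → Fin n → K}
    (h : LinearIndependent K M) :
    ∃ f : Fin r → Fin n, (Matrix.of fun i a => M i (f a)).det ≠ 0 := by
  have hrk : (Matrix.of M).rank = r :=
    (LinearIndependent.rank_matrix (M := Matrix.of M) h).trans (Fintype.card_fin r)
  obtain ⟨v, hv, -, hli⟩ :=
    Submodule.exists_fun_fin_finrank_span_eq K (Set.range (Matrix.of M).col)
  have hk : Module.finrank K (Submodule.span K (Set.range (Matrix.of M).col)) = r := by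
    rw [← Matrix.rank_eq_finrank_span_cols, hrk]
  choose f hf using hv
  refine ⟨f ∘ Fin.cast hk.symm, ?_⟩
  have hcols : LinearIndependent K
      (Matrix.of fun i a => M i ((f ∘ Fin.cast hk.symm) a)).col := by
    have e : (Matrix.of fun i a => M i ((f ∘ Fin.cast hk.symm) a)).col = v ∘ Fin.cast hk.symm := by
      funext a i
      simp only [Matrix.col, Matrix.transpose_apply, Matrix.of_apply, Function.comp_apply,
        ← hf]
    rw [e]
    exact hli.comp _ (Fin.cast_injective _)
  exact ((Matrix.isUnit_iff_isUnit_det _).1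
    (Matrix.linearIndependent_cols_iff_isUnit.1 hcols)).ne_zero

variable (F : Fin r → MvPolynomial (Fin n) ℤ)

/-- The minors of the gradient vectors of multilinear forms. -/
def polarMinor {S : Type*} [CommRing S] {k : ℕ} (v : Fin k → Fin n → S) (f : Fin r → Fin n) : S :=
  (Matrix.of fun i a => polarJ (F i) v (f a)).det

theorem polarMinor_map {R S : Type*} [CommRing R] [CommRing S] {k : ℕ} (g : R →+* S)
    (v : Fin k → Fin n → R) (f : Fin r → Fin n) :
    polarMinor F (fun i l => g (v i l)) f = g (polarMinor F v f) := by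
  rw [polarMinor, polarMinor, g.map_det]
  congr 1
  ext i a
  exact polarJ_map (F i) g v (f a)

theorem totalDegree_prod_sub_le {ι : Type*} (t : Finset ι) (A B : ι → MvPolynomial (Fin n) ℂ)
    {e : ℕ} (he : 0 < e) (hA : ∀ a ∈ t, (A a).totalDegree ≤ e)
    (hB : ∀ a ∈ t, (B a).totalDegree ≤ e) (hAB : ∀ a ∈ t, (A a - B a).totalDegree < e) :
    (∏ a ∈ t, A a - ∏ a ∈ t, B a).totalDegree ≤ t.card * e - 1 := by
  classical
  induction t using Finset.induction with
  | empty => simp
  | insert a t ha ih =>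
    rw [prod_insert ha, prod_insert ha, card_insert_of_notMem ha,
      show A a * ∏ b ∈ t, A b - B a * ∏ b ∈ t, B b =
        (A a - B a) * ∏ b ∈ t, A b + B a * (∏ b ∈ t, A b - ∏ b ∈ t, B b) by ring]
    have hpA : (∏ b ∈ t, A b).totalDegree ≤ t.card * e :=
      (totalDegree_finsetProd t A).trans
        ((sum_le_card_nsmul _ _ e fun b hb => hA b (mem_insert_of_mem hb)).trans_eq (by simp))
    have h1 := hAB a (mem_insert_self a t)
    rw [add_mul, one_mul]
    refine (totalDegree_add _ _).trans (max_le ((totalDegree_mul _ _).trans (by omega)) ?_)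
    rcases t.eq_empty_or_nonempty with rfl | ht
    · simp
    · have h2 := ih (fun b hb => hA b (mem_insert_of_mem hb))
        (fun b hb => hB b (mem_insert_of_mem hb)) (fun b hb => hAB b (mem_insert_of_mem hb))
      have h3 := hB a (mem_insert_self a t)
      have h4 : 1 ≤ t.card * e := Nat.mul_pos ht.card_pos he
      exact (totalDegree_mul _ _).trans (by omega)

theorem isHomogeneous_polarJ_X {k : ℕ} (G : MvPolynomial (Fin n) ℤ) (j : Fin n) :
    (polarJ G (fun _ : Fin k => fun l => (X l : MvPolynomial (Fin n) ℂ)) j).IsHomogeneous k := by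
  refine IsHomogeneous.sum _ _ _ fun f _ => ?_
  rw [← map_intCast (C (R := ℂ) (σ := Fin n))]
  have := IsHomogeneous.prod univ (fun i => X (f i)) (fun _ : Fin k => 1)
    fun i _ => isHomogeneous_X ℂ (f i)
  simp only [sum_const, card_univ, Fintype.card_fin, smul_eq_mul, mul_one] at this
  have h' := (isHomogeneous_C (Fin n)
    (((polarCoeff G (Fin.snoc f j : Fin (k + 1) → Fin n)) : ℤ) : ℂ)).mul this
  rw [zero_add] at h'
  exact h'

theorem totalDegree_polarJ_shift {m : ℕ} (G : MvPolynomial (Fin n) ℤ)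
    (y : Fin (m + 1) → Fin n → ℂ) (j : Fin n) :
    (polarJ G (fun i l => X l + C (y i l)) j).totalDegree ≤ m + 1 ∧
      (polarJ G (fun i l => X l + C (y i l)) j -
        polarJ G (fun _ : Fin (m + 1) => fun l => (X l : MvPolynomial (Fin n) ℂ)) j).totalDegree <
          m + 1 := by
  simp only [polarJ, ← sum_sub_distrib, ← mul_sub]
  refine ⟨(totalDegree_finsetSum _ _).trans (Finset.sup_le fun f _ => ?_),
    lt_of_le_of_lt (totalDegree_finsetSum _ _) ((Finset.sup_lt_iff (Nat.succ_pos m)).2 fun f _ => ?_)⟩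
  · have h := totalDegree_prod_add_C_sub f (fun i => y i (f i)) univ
    rw [card_univ, Fintype.card_fin] at h
    refine (totalDegree_mul _ _).trans ?_
    rw [← map_intCast (C (R := ℂ) (σ := Fin n)), totalDegree_C]
    omega
  · have h := totalDegree_prod_add_C_sub f (fun i => y i (f i)) univ
    rw [card_univ, Fintype.card_fin] at h
    refine lt_of_le_of_lt (totalDegree_mul _ _) ?_
    rw [← map_intCast (C (R := ℂ) (σ := Fin n)), totalDegree_C]
    omega

theorem isHomogeneous_polarMinor {k : ℕ} (f : Fin r → Fin n) :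
    (polarMinor F (fun _ : Fin k => fun l => (X l : MvPolynomial (Fin n) ℂ)) f).IsHomogeneous
      (r * k) := by
  rw [polarMinor, Matrix.det_apply']
  refine IsHomogeneous.sum _ _ _ fun σ _ => ?_
  have h := IsHomogeneous.prod univ
    (fun i => (Matrix.of fun i a => polarJ (F i) (fun _ : Fin k => fun l =>
      (X l : MvPolynomial (Fin n) ℂ)) (f a)) (σ i) i) (fun _ => k)
    fun i _ => isHomogeneous_polarJ_X (F (σ i)) (f i)
  simp only [sum_const, card_univ, Fintype.card_fin, smul_eq_mul] at h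
  rw [← map_intCast (C (R := ℂ) (σ := Fin n))]
  simpa using (isHomogeneous_C (Fin n) (((Equiv.Perm.sign σ : ℤ) : ℂ))).mul h

theorem totalDegree_polarMinor_shift (hr : 0 < r) {m : ℕ} (y : Fin (m + 1) → Fin n → ℂ)
    (f : Fin r → Fin n) :
    (polarMinor F (fun i l => X l + C (y i l)) f -
      polarMinor F (fun _ : Fin (m + 1) => fun l => (X l : MvPolynomial (Fin n) ℂ)) f).totalDegree <
        r * (m + 1) := by
  simp only [polarMinor, Matrix.det_apply', ← sum_sub_distrib, ← mul_sub, Matrix.of_apply]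
  have hpos : 0 < r * (m + 1) := Nat.mul_pos hr (Nat.succ_pos m)
  refine lt_of_le_of_lt (totalDegree_finsetSum _ _)
    ((Finset.sup_lt_iff hpos).2 fun σ _ => lt_of_le_of_lt (totalDegree_mul _ _) ?_)
  rw [← map_intCast (C (R := ℂ) (σ := Fin n)), totalDegree_C, zero_add]
  refine lt_of_le_of_lt (totalDegree_prod_sub_le univ _ _ (Nat.succ_pos m)
    (fun a _ => (totalDegree_polarJ_shift (F (σ a)) y (f a)).1)
    (fun a _ => (isHomogeneous_polarJ_X (F (σ a)) (f a)).totalDegree_le)
    fun a _ => (totalDegree_polarJ_shift (F (σ a)) y (f a)).2) ?_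
  rw [card_univ, Fintype.card_fin, Nat.succ_eq_add_one]
  omega

/-- **The degenerate tuples.** -/
theorem exists_card_minor_zero_le {m s : ℕ} (hr : 0 < r)
    (hF : ∀ i, (F i).IsHomogeneous (m + 2)) (hs : SystemSingularDimLE F s) :
    ∃ C : ℝ, 0 < C ∧ ∀ H : ℕ, 1 ≤ H →
      (((Fintype.piFinset fun _ : Fin (m + 1) => cbox n H).filter
        fun h => ∀ f : Fin r → Fin n, polarMinor F h f = 0).card : ℝ) ≤
          C * (H : ℝ) ^ (n * m + s) := by
  classical
  obtain ⟨ℓ, hℓ⟩ := hs
  obtain ⟨G₀, hG₀⟩ : ∃ G₀ : (Fin r → Fin n) ⊕ Fin s → MvPolynomial (Fin n) ℂ, G₀ = Sum.elim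
      (fun f => polarMinor F (fun _ : Fin (m + 1) => fun l => X l) f)
      fun a => ∑ l, C (ℓ a l : ℂ) * X l := ⟨_, rfl⟩
  obtain ⟨e, he⟩ : ∃ e : (Fin r → Fin n) ⊕ Fin s → ℕ,
      e = Sum.elim (fun _ => r * (m + 1)) fun _ => 1 := ⟨_, rfl⟩
  have hhom : ∀ j, (G₀ j).IsHomogeneous (e j) := by
    rw [hG₀, he]
    rintro (f | a)
    · exact isHomogeneous_polarMinor F f
    · refine IsHomogeneous.sum _ _ _ fun l _ => ?_
      simpa using (isHomogeneous_C (Fin n) (ℓ a l : ℂ)).mul (isHomogeneous_X ℂ l)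
  have h0 : ∀ z, (∀ j, eval z (G₀ j) = 0) → z = 0 := by
    intro z hz
    refine hℓ z (fun hli => ?_) fun a => ?_
    · obtain ⟨f, hf⟩ := exists_minor_ne_zero hli
      have h := hz (Sum.inl f)
      simp only [hG₀, Sum.elim_inl] at h
      rw [← polarMinor_map] at h
      simp only [eval_X, polarMinor] at h
      refine hf ?_
      have e1 : (Matrix.of fun i a => polarJ (F i) (fun (_ : Fin (m + 1)) l => z l) (f a)) =
          (((m + 1).factorial : ℕ) : ℂ) • Matrix.of fun i a => aeval z (pderiv (f a) (F i)) := by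
        ext i a
        simp [polarJ_diag (F i) (hF i)]
      rw [e1, Matrix.det_smul] at h
      exact (mul_eq_zero.1 h).resolve_left
        (pow_ne_zero _ (Nat.cast_ne_zero.2 (Nat.factorial_ne_zero _)))
    · simpa [hG₀] using hz (Sum.inr a)
  obtain ⟨B, hB⟩ := exists_card_zeros_le G₀ e hhom h0
  obtain ⟨A, hA⟩ : ∃ A : ℕ, A = ∑ a, ∑ l, (ℓ a l).natAbs := ⟨_, rfl⟩
  refine ⟨(B + 1) * 5 ^ (n * m) * (2 * A + 1) ^ s, by positivity, fun H hH => ?_⟩
  obtain ⟨Z, hZ⟩ : ∃ Z, Z = (Fintype.piFinset fun _ : Fin (m + 1) => cbox n H).filter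
      fun h => ∀ f : Fin r → Fin n, polarMinor F h f = 0 := ⟨_, rfl⟩
  obtain ⟨key, hkey⟩ : ∃ key : (Fin (m + 1) → Fin n → ℤ) → (Fin m → Fin n → ℤ) × (Fin s → ℤ),
      key = fun h => (fun i => h i.succ - h 0, fun a => ∑ l, ℓ a l * h 0 l) := ⟨_, rfl⟩
  have himg : ∀ h ∈ Z, key h ∈ (Fintype.piFinset fun _ : Fin m => cbox n (2 * H)) ×ˢ
      Fintype.piFinset fun _ : Fin s => Icc (-((A * H : ℕ) : ℤ)) (A * H : ℕ) := by
    intro h hh
    have hh' := Fintype.mem_piFinset.1 (mem_filter.1 (hZ ▸ hh)).1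
    rw [hkey, mem_product]
    refine ⟨Fintype.mem_piFinset.2 fun i => mem_cbox.2 fun l => ?_,
      Fintype.mem_piFinset.2 fun a => mem_Icc.2 (abs_le.1 ?_)⟩
    · have := mem_cbox.1 (hh' i.succ) l
      have := mem_cbox.1 (hh' 0) l
      simp only [Pi.sub_apply]
      push_cast
      exact (abs_sub _ _).trans (by linarith)
    · change |∑ l, ℓ a l * h 0 l| ≤ ((A * H : ℕ) : ℤ)
      refine (abs_sum_le_sum_abs _ _).trans ?_
      rw [hA]
      push_cast
      rw [sum_mul]
      refine le_trans (sum_le_sum fun l _ => ?_)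
        ((sum_mul _ _ _).ge.trans (single_le_sum (f := fun a => (∑ l, |ℓ a l|) * (H : ℤ))
          (fun a _ => by positivity) (mem_univ a)))
      rw [abs_mul]
      exact mul_le_mul_of_nonneg_left (mem_cbox.1 (hh' 0) l) (abs_nonneg _)
  have hfib : ∀ c, (Z.filter fun h => key h = c).card ≤ B := by
    intro c
    obtain ⟨y, hy⟩ : ∃ y : Fin (m + 1) → Fin n → ℤ, y = Fin.cons 0 c.1 := ⟨_, rfl⟩
    obtain ⟨T, hT⟩ : ∃ T, T = Z.filter fun h => key h = c := ⟨_, rfl⟩
    rw [← hT]
    have hrec : ∀ h ∈ T, ∀ i l, h i l = h 0 l + y i l := by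
      intro h hh i l
      obtain ⟨-, hk⟩ := mem_filter.1 (hT ▸ hh)
      rw [← hk, hkey] at hy
      rw [hy]
      refine Fin.cases ?_ (fun i => ?_) i <;> simp
    have hinj : Set.InjOn (fun h : Fin (m + 1) → Fin n → ℤ => fun l => (h 0 l : ℂ)) T := by
      intro h hh h' hh' e
      funext i l
      rw [hrec h hh, hrec h' hh', Int.cast_inj.1 (congrFun e l)]
    rw [← card_image_of_injOn hinj]
    refine hB (Sum.elim (fun f => polarMinor F (fun i l => X l + C (y i l : ℂ)) f)
      fun a => (∑ l, C (ℓ a l : ℂ) * X l) - C (c.2 a : ℂ)) (fun j => ?_) _ fun z hz => ?_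
    · rcases j with f | a
      · simp only [hG₀, he, Sum.elim_inl]
        exact totalDegree_polarMinor_shift F hr _ f
      · simp only [hG₀, he, Sum.elim_inr, sub_sub_cancel_left, totalDegree_neg, totalDegree_C]
        exact Nat.one_pos
    · obtain ⟨h, hh, rfl⟩ := mem_image.1 hz
      obtain ⟨hhZ, hk⟩ := mem_filter.1 (hT ▸ hh)
      rw [hZ, mem_filter] at hhZ
      rintro (f | a)
      · simp only [Sum.elim_inl, ← polarMinor_map, map_add, eval_X, eval_C]
        rw [show (fun i l => (h 0 l : ℂ) + (y i l : ℂ)) = fun i l => Int.castRingHom ℂ (h i l) from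
          funext fun i => funext fun l => by rw [hrec h hh i l]; simp, polarMinor_map,
          hhZ.2 f, map_zero]
      · simp [← hk, hkey]
  have hsum := card_le_mul_card_image_of_maps_to himg B fun c _ => hfib c
  rw [← hZ]
  refine (Nat.cast_le.2 hsum).trans ?_
  rw [card_product, Fintype.card_piFinset_const, Fintype.card_piFinset_const, cbox,
    Fintype.card_piFinset_const, Int.card_Icc, Int.card_Icc,
    show ((2 * H : ℕ) : ℤ) + 1 - -((2 * H : ℕ) : ℤ) = ((4 * H + 1 : ℕ) : ℤ) by push_cast; ring,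
    show ((A * H : ℕ) : ℤ) + 1 - -((A * H : ℕ) : ℤ) = ((2 * (A * H) + 1 : ℕ) : ℤ) by
      push_cast; ring, Int.toNat_natCast, Int.toNat_natCast, ← pow_mul]
  have hR1 : (1 : ℝ) ≤ H := by exact_mod_cast hH
  push_cast
  rw [pow_add, show ((B : ℝ) + 1) * 5 ^ (n * m) * (2 * A + 1) ^ s *
    ((H : ℝ) ^ (n * m) * (H : ℝ) ^ s) =
      (B + 1) * ((5 * H) ^ (n * m) * ((2 * A + 1) * H) ^ s) by rw [mul_pow, mul_pow]; ring]
  gcongr
  · linarith
  · linarith
  · nlinarith [(Nat.cast_nonneg A : (0 : ℝ) ≤ A)]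

end FA.FormSystems
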