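import Fermat.Agent.FormsManyVariables.Weyl
import Fermat.Agent.FormSystems.Fibre

/-!
# Weyl's inequality for systems of forms

For `r` forms of degree `k + 1` and `α` in `ℝ ^ r` the `2 ^ k`-th power of the exponential sum is
bounded through the tuples of size `H` at which the combinations with coefficients `α` of the
multilinear forms are near integers. Either these are degenerate and the sum is small, or Cramer's
rule at a minor gives `q = O (H ^ (r k))` with every `q α i` within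
`O (H ^ (r k) / P ^ (k + 1))` of an integer.
-/

set_option autoImplicit false

noncomputable section

namespace FA.FormSystems

open Finset FA.ThreePrimes FA.CubicForms FA.FormsManyVariables MvPolynomial

variable {n r : ℕ}

/-- The exponential sum of a system. -/
def sysSum (F : Fin r → MvPolynomial (Fin n) ℤ) (P : ℕ) (α : Fin r → ℝ) : ℂ :=
  ∑ x ∈ cbox n P, eAdd (∑ i, α i * (eval x (F i) : ℤ))

theorem sum_fwdDiff_phase {φ : Fin r → (Fin n → ℤ) → ℤ} (α : Fin r → ℝ) (h x : Fin n → ℤ) :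
    ∑ i, α i * (φ i (x + h) : ℤ) - ∑ i, α i * (φ i x : ℤ) =
      ∑ i, α i * (fwdDiff h (φ i) x : ℤ) := by
  rw [← sum_sub_distrib]
  refine sum_congr rfl fun i _ => ?_
  simp only [fwdDiff, Int.cast_sub, mul_sub]

/-- **Differencing.** -/
theorem norm_pow_le_of_itDiff_sys : ∀ (j : ℕ) (φ : Fin r → (Fin n → ℤ) → ℤ) (α : Fin r → ℝ)
    {P : ℕ}, 1 ≤ P → ∀ K : (Fin j → Fin n → ℤ) → ℝ,
      (∀ h a b, (∀ i, b i - a i ≤ 2 * (P : ℤ)) →
        ‖∑ x ∈ ibox a b, eAdd (∑ i, α i * (itDiff h (φ i) x : ℤ))‖ ≤ K h) →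
      ∀ a b : Fin n → ℤ, (∀ i, b i - a i ≤ 2 * (P : ℤ)) →
        ‖∑ x ∈ ibox a b, eAdd (∑ i, α i * (φ i x : ℤ))‖ ^ 2 ^ j ≤
          ((5 * (P : ℝ)) ^ n) ^ (2 ^ j - (j + 1)) *
            ∑ h ∈ Fintype.piFinset fun _ : Fin j => cbox n (2 * P), K h := by
  intro j
  induction j with
  | zero =>
    intro φ α P hP K hK a b hab
    rw [pow_zero, pow_one,
      show Fintype.piFinset (fun _ : Fin 0 => cbox n (2 * P)) = {Fin.elim0} from
      eq_singleton_iff_unique_mem.2 ⟨Fintype.mem_piFinset.2 fun i => i.elim0,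
        fun h _ => Subsingleton.elim _ _⟩, sum_singleton]
    simpa [itDiff] using hK Fin.elim0 a b hab
  | succ j ih =>
    intro φ α P hP K hK a b hab
    obtain ⟨T, hT⟩ : ∃ T : (Fin n → ℤ) → ℝ, T = fun h =>
        ‖∑ x ∈ ibox (fun i => max (a i) (a i - h i))
        (fun i => min (b i) (b i - h i)), eAdd (∑ i, α i * (fwdDiff h (φ i) x : ℤ))‖ := ⟨_, rfl⟩
    have hsq : ‖∑ x ∈ ibox a b, eAdd (∑ i, α i * (φ i x : ℤ))‖ ^ 2 ≤
        ∑ h ∈ cbox n (2 * P), T h := by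
      refine (norm_sq_ibox_le a b hab fun x => ∑ i, α i * (φ i x : ℤ)).trans (le_of_eq ?_)
      simp only [hT, sum_fwdDiff_phase]
    have hP1 : (1 : ℝ) ≤ P := by exact_mod_cast hP
    obtain ⟨M, hM⟩ : ∃ M, 2 ^ j = M + 1 := ⟨2 ^ j - 1, by
      have := Nat.two_pow_pos j; omega⟩
    have hjM : j ≤ M := by
      have := Nat.lt_two_pow_self (n := j); omega
    calc ‖∑ x ∈ ibox a b, eAdd (∑ i, α i * (φ i x : ℤ))‖ ^ 2 ^ (j + 1)
        = (‖∑ x ∈ ibox a b, eAdd (∑ i, α i * (φ i x : ℤ))‖ ^ 2) ^ (M + 1) := by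
          rw [← pow_mul, ← hM, pow_succ']
      _ ≤ (∑ h ∈ cbox n (2 * P), T h) ^ (M + 1) := pow_le_pow_left₀ (sq_nonneg _) hsq _
      _ ≤ ((cbox n (2 * P)).card : ℝ) ^ M * ∑ h ∈ cbox n (2 * P), T h ^ (M + 1) :=
          pow_sum_le_card_mul_sum_pow (fun h _ => by rw [hT]; exact norm_nonneg _) M
      _ ≤ ((5 * (P : ℝ)) ^ n) ^ M * ∑ h ∈ cbox n (2 * P), ((5 * (P : ℝ)) ^ n) ^ (M + 1 - (j + 1)) *
            ∑ y ∈ Fintype.piFinset fun _ : Fin j => cbox n (2 * P), K (Fin.cons h y) := by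
          refine mul_le_mul (pow_le_pow_left₀ (Nat.cast_nonneg _) ?_ M) (sum_le_sum fun h _ => ?_)
            (sum_nonneg fun h _ => pow_nonneg (by rw [hT]; exact norm_nonneg _) _) (by positivity)
          · rw [card_cbox]
            push_cast
            exact pow_le_pow_left₀ (by positivity) (by linarith) n
          · rw [hT, ← hM]
            refine ih (fun i => fwdDiff h (φ i)) α hP (fun y => K (Fin.cons h y))
              (fun y a' b' hab' => ?_) _ _ (fun i => ?_)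
            · simp only [← itDiff_cons]
              exact hK _ a' b' hab'
            · have := hab i
              omega
      _ = _ := by
          rw [← mul_sum, ← mul_assoc, ← pow_add, WaringAsymptotic.sum_piFinset_succ,
            show M + (M + 1 - (j + 1)) = 2 ^ (j + 1) - (j + 1 + 1) by rw [pow_succ]; omega]

variable (F : Fin r → MvPolynomial (Fin n) ℤ)

/-- The right hand side of Weyl's inequality. -/
def sysWeylRHS (m P : ℕ) (α : Fin r → ℝ) : ℝ :=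
  ((5 * (P : ℝ)) ^ n) ^ (2 ^ (m + 1) - (m + 2)) *
    ∑ h ∈ Fintype.piFinset fun _ : Fin (m + 1) => cbox n (2 * P),
      ∏ j, clip ((2 * P + 1 : ℕ) : ℝ) (∑ i, α i * (polarJ (F i) h j : ℤ))

/-- `Z` satisfies the trivial bound and Weyl's inequality at `α`, as the sums of `e (α · F)` over
boxes and congruence classes in the box of size `P` do. -/
def SysWeylBound (m P : ℕ) (α : Fin r → ℝ) (Z : ℂ) : Prop :=
  ‖Z‖ ≤ (2 * (P : ℝ) + 1) ^ n ∧ ‖Z‖ ^ 2 ^ (m + 1) ≤ sysWeylRHS F m P α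

/-- **Weyl's inequality over a box, with a twist of lower degree.** -/
theorem norm_twisted_pow_le {m : ℕ} (hF : ∀ i, (F i).totalDegree ≤ m + 2) {P : ℕ} (hP : 1 ≤ P)
    (α : Fin r → ℝ) (θ : ℝ) {L : (Fin n → ℤ) → ℤ} (hL : DegLE (m + 1) L) (a b : Fin n → ℤ)
    (hab : ∀ i, b i - a i ≤ 2 * (P : ℤ)) :
    ‖∑ x ∈ ibox a b, eAdd (θ * (L x : ℤ) + ∑ i, α i * (eval x (F i) : ℤ))‖ ^ 2 ^ (m + 1) ≤
      sysWeylRHS F m P α := by
  have h := norm_pow_le_of_itDiff_sys (m + 1)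
    (Fin.cons L fun i x => eval x (F i) : Fin (r + 1) → (Fin n → ℤ) → ℤ) (Fin.cons θ α) hP
    (fun h => ∏ j, clip ((2 * P + 1 : ℕ) : ℝ) (∑ i, α i * (polarJ (F i) h j : ℤ)))
    (fun h a b hab => ?_) a b hab
  · simpa [Fin.sum_univ_succ, sysWeylRHS] using h
  have e : ∀ x : Fin n → ℤ,
      θ * ((itDiff h L x : ℤ) : ℝ) +
          ∑ i, α i * ((itDiff h (fun y => eval y (F i)) x : ℤ) : ℝ) =
        θ * (lead L h : ℤ) + ∑ i, α i * (itDiff h (fun y => eval y (F i)) 0 : ℤ) +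
          ∑ j, (x j : ℝ) * (∑ i, α i * (polarJ (F i) h j : ℤ)) := fun x => by
    rw [hL.itDiff_const, add_assoc]
    simp only [mul_sum]
    rw [sum_comm, ← sum_add_distrib]
    refine congrArg _ (sum_congr rfl fun i _ => ?_)
    rw [itDiff_eq_affine (F i) (hF i) h x]
    push_cast
    rw [mul_add, mul_sum]
    exact congrArg _ (sum_congr rfl fun j _ => by ring)
  simp only [Fin.sum_univ_succ, Fin.cons_zero, Fin.cons_succ]
  rw [sum_congr rfl fun x _ => by rw [e x]]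
  exact norm_linear_ibox_le a b (fun i => by have := hab i; omega) _ _

theorem norm_sysSum_pow_le {m : ℕ} (hF : ∀ i, (F i).totalDegree ≤ m + 2) {P : ℕ} (hP : 1 ≤ P)
    (α : Fin r → ℝ) :
    ‖sysSum F P α‖ ^ 2 ^ (m + 1) ≤ ((5 * (P : ℝ)) ^ n) ^ (2 ^ (m + 1) - (m + 2)) *
      ∑ h ∈ Fintype.piFinset fun _ : Fin (m + 1) => cbox n (2 * P),
        ∏ j, clip ((2 * P + 1 : ℕ) : ℝ) (∑ i, α i * (polarJ (F i) h j : ℤ)) := by
  simpa [sysSum, sysWeylRHS, cbox, ibox] using norm_twisted_pow_le F hF hP α 0 (L := 0)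
    (degLE_const 0 _) (fun _ => -(P : ℤ)) (fun _ => (P : ℤ)) fun i => by omega

theorem sysWeylBound_sysSum {m : ℕ} (hF : ∀ i, (F i).totalDegree ≤ m + 2) {P : ℕ} (hP : 1 ≤ P)
    (α : Fin r → ℝ) : SysWeylBound F m P α (sysSum F P α) :=
  ⟨(norm_sum_le _ _).trans (le_of_eq (by simp [norm_eAdd, card_cbox])),
    norm_sysSum_pow_le F hF hP α⟩

/-- The matrix of one slot. -/
def sysMatrix {k : ℕ} (α : Fin r → ℝ) (t : Fin k → Fin n → ℤ) (a : Fin k) :
    Matrix (Fin n) (Fin n) ℝ :=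
  ∑ i, slotMatrix (F i) (α i) t a

theorem sysMatrix_apply {k : ℕ} (α : Fin r → ℝ) (t : Fin k → Fin n → ℤ) (a : Fin k)
    (g : Fin n → ℤ) (j : Fin n) : ∑ l, sysMatrix F α t a j l * (g l : ℝ) =
      ∑ i, α i * (polarJ (F i) (Function.update t a g) j : ℤ) := by
  simp only [sysMatrix, Matrix.sum_apply, sum_mul, ← slotMatrix_apply]
  rw [sum_comm]

theorem sysMatrix_isSymm {k : ℕ} (hF : ∀ i, (F i).totalDegree ≤ k + 1) (α : Fin r → ℝ)
    (t : Fin k → Fin n → ℤ) (a : Fin k) : (sysMatrix F α t a).IsSymm := by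
  rw [Matrix.IsSymm, sysMatrix, Matrix.transpose_sum]
  exact sum_congr rfl fun i _ => slotMatrix_isSymm (F i) (hF i) (α i) t a

/-- The tuples of sizes `G` with every combination of the multilinear forms within `η` of an
integer. -/
def sysNearTuples {k : ℕ} (α : Fin r → ℝ) (G : Fin k → ℕ) (η : ℝ) :
    Finset (Fin k → Fin n → ℤ) :=
  (Fintype.piFinset fun a => cbox n (G a)).filter
    fun h => ∀ j, nearDist (∑ i, α i * (polarJ (F i) h j : ℤ)) ≤ η

theorem card_sysNearTuples_slot {k : ℕ} (α : Fin r → ℝ) (G : Fin k → ℕ) (η : ℝ) (a : Fin k) :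
    (sysNearTuples F α G η).card =
      ∑ t ∈ Fintype.piFinset (Function.update (fun l => cbox n (G l)) a {0}),
        (nearSet (sysMatrix F α t a) (G a) η).card := by
  rw [sysNearTuples, card_filter, sum_piFinset_slot _ a]
  refine sum_congr rfl fun t _ => ?_
  simp only [nearSet, sysMatrix_apply, card_filter, nearDist]
  congr!

theorem card_sysNearTuples_step {k : ℕ} (hF : ∀ i, (F i).totalDegree ≤ k + 1) (α : Fin r → ℝ)
    (G : Fin k → ℕ) {η : ℝ} (a : Fin k) {H : ℕ} (hH : 1 ≤ H) (hHG : H ≤ G a) (hη : 0 < η)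
    (hηG : 2 * n * (G a : ℝ) * η < 1) :
    ((sysNearTuples F α G η).card : ℝ) ≤ (2 * n + 5 : ℝ) ^ n * ((G a : ℝ) / H) ^ n *
      (sysNearTuples F α (Function.update G a H) (η * H / G a)).card := by
  rw [card_sysNearTuples_slot F α G η a, card_sysNearTuples_slot F α _ (η * H / G a) a,
    Function.update_self, Nat.cast_sum, Nat.cast_sum, mul_sum]
  have e : Function.update (fun l => cbox n (Function.update G a H l)) a {0} =
      Function.update (fun l => cbox n (G l)) a {0} := by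
    funext l
    by_cases hl : l = a
    · subst hl; simp
    · simp [hl]
  rw [e]
  exact sum_le_sum fun t _ =>
    card_nearSet_le _ (sysMatrix_isSymm F hF α t a) hH hHG hη hηG

/-- **Weyl's inequality with Davenport's shrinking.** -/
theorem exists_weylBound_shrink {m : ℕ} (hF : ∀ i, (F i).totalDegree ≤ m + 2) :
    ∃ C : ℝ, 0 < C ∧ ∀ (P H : ℕ) (α : Fin r → ℝ) (Z : ℂ), 1 ≤ H → H ≤ P →
      SysWeylBound F m P α Z → ‖Z‖ ^ 2 ^ (m + 1) * ((H : ℝ) ^ n) ^ (m + 1) ≤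
        C * ((P : ℝ) ^ n) ^ 2 ^ (m + 1) * (1 + Real.log P) ^ n *
          (sysNearTuples F α (fun _ : Fin (m + 1) => H)
            ((H : ℝ) ^ (m + 1) / (P : ℝ) ^ (m + 2))).card := by
  obtain ⟨A, hA⟩ : ∃ A : ℕ, A = 8 * n + 5 := ⟨_, rfl⟩
  have hlA : (0 : ℝ) ≤ Real.log A := Real.log_natCast_nonneg A
  obtain ⟨E, hE⟩ : ∃ E : ℕ, 2 ^ (m + 1) = E + (m + 2) := ⟨2 ^ (m + 1) - (m + 2), by
    have := Nat.lt_two_pow_self (n := m + 1); omega⟩
  refine ⟨((5 : ℝ) ^ n) ^ E * (2 * A * (1 + Real.log A)) ^ n *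
    ((2 * n + 5 : ℝ) ^ n * 4 ^ n) ^ (m + 1), by rw [hA] at hlA ⊢; positivity,
    fun P R α Z hR hRP hZ => ?_⟩
  have hP0 : (1 : ℝ) ≤ P := by exact_mod_cast hR.trans hRP
  have hR0 : (1 : ℝ) ≤ R := by exact_mod_cast hR
  obtain ⟨θ, hθ⟩ : ∃ θ : ℝ, θ = 1 / ((A * P : ℕ) : ℝ) := ⟨_, rfl⟩
  have hA5 : (5 : ℝ) ≤ A := by exact_mod_cast (show 5 ≤ A by omega)
  have hθ0 : 0 < θ := by rw [hθ]; push_cast; positivity
  have hθn : 2 * (n : ℝ) * ((4 * P : ℕ) : ℝ) * θ < 1 := by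
    rw [hθ, mul_one_div, div_lt_one (by push_cast; positivity)]
    push_cast
    rw [hA]
    push_cast
    nlinarith
  obtain ⟨ρ, hρ⟩ : ∃ ρ : ℝ, ρ = (R : ℝ) / ((4 * P : ℕ) : ℝ) := ⟨_, rfl⟩
  have hρ0 : 0 < ρ := by rw [hρ]; push_cast; positivity
  have hρ1 : ρ ≤ 1 := by
    rw [hρ, div_le_one (by push_cast; positivity)]
    exact_mod_cast (show R ≤ 4 * P by omega)
  obtain ⟨K, hK⟩ : ∃ K : ℝ, K = (2 * n + 5 : ℝ) ^ n * (((4 * P : ℕ) : ℝ) / R) ^ n := ⟨_, rfl⟩
  have hK0 : 0 ≤ K := hK ▸ by positivity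
  obtain ⟨N, hN⟩ : ∃ N : ℕ → ℝ, N = fun l => ((sysNearTuples F α
      (fun i : Fin (m + 1) => if i.1 < l then R else 4 * P) (θ * ρ ^ l)).card : ℝ) := ⟨_, rfl⟩
  have hiter : ∀ l, l ≤ m + 1 → N 0 ≤ K ^ l * N l := by
    intro l
    induction l with
    | zero => intro _; simp
    | succ l ih =>
      intro hl
      refine (ih (by omega)).trans ?_
      rw [pow_succ, mul_assoc]
      refine mul_le_mul_of_nonneg_left ?_ (by positivity)
      have hstep := card_sysNearTuples_step F hF α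
        (fun i : Fin (m + 1) => if i.1 < l then R else 4 * P)
        (η := θ * ρ ^ l) ⟨l, by omega⟩ hR (by simp only [lt_irrefl, if_false]; omega)
        (by positivity) (by
          simp only [lt_irrefl, if_false]
          refine lt_of_le_of_lt (mul_le_mul_of_nonneg_left
            (mul_le_of_le_one_right hθ0.le (pow_le_one₀ hρ0.le hρ1)) (by positivity)) hθn)
      simp only [lt_irrefl, if_false] at hstep
      rw [← hK] at hstep
      simp only [hN]
      refine hstep.trans (le_of_eq ?_)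
      congr 4
      · funext i
        by_cases hi : i = ⟨l, by omega⟩
        · subst hi; simp
        · have : i.1 ≠ l := fun e => hi (Fin.ext e)
          simp only [Function.update_of_ne hi]
          split_ifs <;> omega
      · rw [pow_succ, hρ]; ring
  obtain ⟨Nk, hNk⟩ : ∃ Nk : ℝ, Nk = ((sysNearTuples F α (fun _ : Fin (m + 1) => R)
      ((R : ℝ) ^ (m + 1) / (P : ℝ) ^ (m + 2))).card : ℝ) := ⟨_, rfl⟩
  have hlast : N (m + 1) ≤ Nk := by
    rw [hN, hNk]
    refine Nat.cast_le.2 (card_le_card fun h hh => ?_)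
    simp only [sysNearTuples, mem_filter, Fin.is_lt, if_true] at hh ⊢
    refine ⟨hh.1, fun j => (hh.2 j).trans ?_⟩
    rw [hθ, hρ, div_pow]
    push_cast
    rw [mul_pow, show 1 / ((A : ℝ) * P) * ((R : ℝ) ^ (m + 1) / (4 ^ (m + 1) * (P : ℝ) ^ (m + 1))) =
      (R : ℝ) ^ (m + 1) / ((A * 4 ^ (m + 1)) * (P : ℝ) ^ (m + 2)) by field_simp; ring]
    refine div_le_div_of_nonneg_left (by positivity) (by positivity)
      (le_mul_of_one_le_left (by positivity) ?_)
    exact one_le_mul_of_one_le_of_one_le (by linarith) (one_le_pow₀ (by norm_num))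
  obtain ⟨W, hW⟩ : ∃ W : ℝ, W = (2 * ((A * P : ℕ) : ℝ) * (1 + Real.log (A * P : ℕ))) ^ n :=
    ⟨_, rfl⟩
  have hW0 : 0 ≤ W := hW ▸ by positivity [Real.log_natCast_nonneg (A * P)]
  have hfirst : ∑ h ∈ Fintype.piFinset fun _ : Fin (m + 1) => cbox n (2 * P),
      ∏ j, clip ((2 * P + 1 : ℕ) : ℝ) (∑ i, α i * (polarJ (F i) h j : ℤ)) ≤ W * N 0 := by
    rw [sum_piFinset_slot _ 0, hN]
    simp only [pow_zero, mul_one, Nat.not_lt_zero, if_false]
    rw [card_sysNearTuples_slot F α _ θ 0, Nat.cast_sum, mul_sum]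
    refine le_trans (sum_le_sum fun t _ => ?_) (sum_le_sum_of_subset_of_nonneg
      (Fintype.piFinset_subset _ _ fun l => ?_) fun t _ _ => by positivity)
    · have h1 := sum_prod_clip_le (sysMatrix F α t 0) (P := P) (Q₀ := A * P)
        (Nat.mul_le_mul_right P (by omega)) (hR.trans hRP)
      simp only [sysMatrix_apply, ← hθ, ← hW] at h1
      exact h1
    · by_cases hl : l = 0
      · subst hl; simp
      · simp only [Function.update_of_ne hl]
        exact fun g hg => mem_cbox.2 fun i => (mem_cbox.1 hg i).trans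
          (by exact_mod_cast (show 2 * P ≤ 4 * P by omega))
  have hmain : ‖Z‖ ^ 2 ^ (m + 1) ≤
      ((5 * (P : ℝ)) ^ n) ^ E * (W * (K ^ (m + 1) * Nk)) := by
    have h : _ ≤ ((5 * (P : ℝ)) ^ n) ^ (2 ^ (m + 1) - (m + 2)) * _ := hZ.2
    rw [show 2 ^ (m + 1) - (m + 2) = E by omega] at h
    exact h.trans (mul_le_mul_of_nonneg_left (hfirst.trans (mul_le_mul_of_nonneg_left
      ((hiter _ le_rfl).trans (mul_le_mul_of_nonneg_left hlast (by positivity))) hW0))
      (by positivity))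
  have hWle : W ≤ (2 * A * (1 + Real.log A)) ^ n * (P : ℝ) ^ n * (1 + Real.log P) ^ n := by
    rw [hW, ← mul_pow, ← mul_pow]
    refine pow_le_pow_left₀ (by positivity [Real.log_natCast_nonneg (A * P)]) ?_ n
    push_cast
    rw [Real.log_mul (by positivity) (by positivity)]
    have h1 : 0 ≤ Real.log P := Real.log_nonneg hP0
    have h2 : 1 + (Real.log A + Real.log P) ≤ (1 + Real.log A) * (1 + Real.log P) := by
      nlinarith
    exact (mul_le_mul_of_nonneg_left h2 (by positivity)).trans (le_of_eq (by ring))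
  rw [← hNk]
  have hNk0 : 0 ≤ Nk := hNk ▸ Nat.cast_nonneg _
  have hKR : K * (R : ℝ) ^ n = (2 * n + 5 : ℝ) ^ n * 4 ^ n * (P : ℝ) ^ n := by
    rw [hK, mul_assoc, ← mul_pow, mul_assoc, ← mul_pow]
    push_cast
    field_simp
    rw [mul_pow, mul_pow]
  calc ‖Z‖ ^ 2 ^ (m + 1) * ((R : ℝ) ^ n) ^ (m + 1)
      ≤ ((5 * (P : ℝ)) ^ n) ^ E * (W * (K ^ (m + 1) * Nk)) * ((R : ℝ) ^ n) ^ (m + 1) :=
        mul_le_mul_of_nonneg_right hmain (by positivity)
    _ = ((5 : ℝ) ^ n) ^ E * W * ((2 * n + 5 : ℝ) ^ n * 4 ^ n) ^ (m + 1) *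
          (((P : ℝ) ^ n) ^ E * ((P : ℝ) ^ n) ^ (m + 1)) * Nk := by
        rw [mul_pow 5 (P : ℝ), mul_pow ((5 : ℝ) ^ n)]
        have e := congrArg (fun x : ℝ => x ^ (m + 1)) hKR
        simp only [mul_pow] at e ⊢
        linear_combination ((5 : ℝ) ^ n) ^ E * ((P : ℝ) ^ n) ^ E * W * Nk * e
    _ ≤ ((5 : ℝ) ^ n) ^ E * ((2 * A * (1 + Real.log A)) ^ n * (P : ℝ) ^ n * (1 + Real.log P) ^ n) *
          ((2 * n + 5 : ℝ) ^ n * 4 ^ n) ^ (m + 1) *
          (((P : ℝ) ^ n) ^ E * ((P : ℝ) ^ n) ^ (m + 1)) * Nk := by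
        gcongr
    _ = _ := by rw [hE]; ring

theorem exists_sys_weyl_shrink {m : ℕ} (hF : ∀ i, (F i).totalDegree ≤ m + 2) :
    ∃ C : ℝ, 0 < C ∧ ∀ (P H : ℕ) (α : Fin r → ℝ), 1 ≤ H → H ≤ P →
      ‖sysSum F P α‖ ^ 2 ^ (m + 1) * ((H : ℝ) ^ n) ^ (m + 1) ≤
        C * ((P : ℝ) ^ n) ^ 2 ^ (m + 1) * (1 + Real.log P) ^ n *
          (sysNearTuples F α (fun _ : Fin (m + 1) => H)
            ((H : ℝ) ^ (m + 1) / (P : ℝ) ^ (m + 2))).card :=
  let ⟨C, hC, h⟩ := exists_weylBound_shrink F hF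
  ⟨C, hC, fun P H α hH hHP => h P H α _ hH hHP (sysWeylBound_sysSum F hF (hH.trans hHP) α)⟩

theorem natAbs_det_le {A : Matrix (Fin r) (Fin r) ℤ} {b : Fin r → ℕ}
    (h : ∀ i l, (A i l).natAbs ≤ b i) : A.det.natAbs ≤ r.factorial * ∏ i, b i := by
  rw [Matrix.det_apply']
  refine (Int.natAbs_sum_le _ _).trans ((sum_le_card_nsmul _ _ (∏ i, b i) fun σ _ => ?_).trans ?_)
  · rw [Int.natAbs_mul, show (∏ l, A (σ l) l).natAbs = ∏ l, (A (σ l) l).natAbs from
      map_prod Int.natAbsHom _ univ]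
    simp only [Int.cast_id]
    rw [Int.units_natAbs, one_mul, ← Equiv.prod_comp σ b]
    exact prod_le_prod' fun l _ => h (σ l) l
  · rw [card_univ, Fintype.card_perm, Fintype.card_fin, smul_eq_mul]

/-- Cramer's rule: an integral linear system near integers. -/
theorem exists_cramer_approx (M : Matrix (Fin r) (Fin r) ℤ) (α : Fin r → ℝ) {X : ℕ} {η : ℝ}
    (hX : ∀ i l, (M i l).natAbs ≤ X)
    (hv : ∀ l, nearDist (∑ i, α i * (M i l : ℤ)) ≤ η) (hM : M.det ≠ 0) :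
    ∃ (q : ℕ) (a : Fin r → ℤ), 1 ≤ q ∧ q ≤ r.factorial * X ^ r ∧
      ∀ i, |(q : ℝ) * α i - a i| ≤ (r : ℝ) * η * (r.factorial * (X : ℝ) ^ (r - 1)) := by
  classical
  obtain ⟨v, hvdef⟩ : ∃ v : Fin r → ℝ, v = fun l => ∑ i, α i * (M i l : ℤ) := ⟨_, rfl⟩
  have hid : ∀ i, (M.det : ℝ) * α i = ∑ l, v l * (M.adjugate l i : ℤ) := by
    intro i
    simp only [hvdef, sum_mul]
    rw [sum_comm]
    calc (M.det : ℝ) * α i = ∑ k, α k * ((M * M.adjugate) k i : ℤ) := by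
          rw [Matrix.mul_adjugate, sum_eq_single i (fun k _ hk => by simp [Matrix.one_apply_ne hk])
            fun h => absurd (mem_univ _) h]
          simp [mul_comm]
      _ = _ := sum_congr rfl fun k _ => by
          rw [Matrix.mul_apply]
          push_cast
          rw [mul_sum]
          exact sum_congr rfl fun l _ => by ring
  have hadj : ∀ l i, ((M.adjugate l i).natAbs : ℝ) ≤ r.factorial * (X : ℝ) ^ (r - 1) := by
    intro l i
    rw [Matrix.adjugate_apply]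
    refine (Nat.cast_le.2 (natAbs_det_le (b := fun k => if k = i then 1 else X) fun k c => ?_)).trans
      (le_of_eq ?_)
    · by_cases hk : k = i
      · subst hk
        rw [Matrix.updateRow_self, if_pos rfl, Pi.single_apply]
        split_ifs <;> simp
      · rw [Matrix.updateRow_ne hk, if_neg hk]
        exact hX k c
    · rw [← mul_prod_erase _ _ (mem_univ i), if_pos rfl, one_mul,
        prod_congr rfl fun k hk => if_neg (ne_of_mem_erase hk), prod_const,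
        card_erase_of_mem (mem_univ i), card_univ, Fintype.card_fin]
      push_cast
      rfl
  obtain ⟨a, ha⟩ : ∃ a : Fin r → ℤ, a = fun i => ∑ l, round (v l) * M.adjugate l i := ⟨_, rfl⟩
  have hclose : ∀ i, |(M.det : ℝ) * α i - a i| ≤ (r : ℝ) * η *
      (r.factorial * (X : ℝ) ^ (r - 1)) := by
    intro i
    rw [hid, ha]
    push_cast
    rw [← sum_sub_distrib]
    refine (abs_sum_le_sum_abs _ _).trans ((sum_le_card_nsmul _ _
      (η * (r.factorial * (X : ℝ) ^ (r - 1))) fun l _ => ?_).trans (le_of_eq ?_))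
    · rw [← sub_mul, abs_mul]
      refine mul_le_mul (by simpa [hvdef, nearDist] using hv l) ?_ (abs_nonneg _) ?_
      · rw [← Int.cast_abs, ← Nat.cast_natAbs (α := ℝ)]
        exact hadj l i
      · exact (abs_nonneg _).trans (by simpa [hvdef, nearDist] using hv l)
    · rw [card_univ, Fintype.card_fin, nsmul_eq_mul]; ring
  refine ⟨M.det.natAbs, fun i => M.det.sign * a i, Int.natAbs_pos.2 hM,
    (natAbs_det_le hX).trans (by simp), fun i => (le_of_eq ?_).trans (hclose i)⟩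
  rcases lt_or_gt_of_ne hM with hlt | hgt
  · rw [Int.sign_eq_neg_one_of_neg hlt, Nat.cast_natAbs, Int.cast_abs,
      abs_of_neg (Int.cast_lt_zero.2 hlt), ← abs_neg ((M.det : ℝ) * α i - _)]
    push_cast
    ring_nf
  · rw [Int.sign_eq_one_of_pos hgt, Nat.cast_natAbs, Int.cast_abs,
      abs_of_pos (Int.cast_pos.2 hgt)]
    push_cast
    ring_nf

/-- **The dichotomy for systems.** -/
theorem exists_weylBound_dichotomy {m s : ℕ} (hr : 0 < r) (hF : ∀ i, (F i).IsHomogeneous (m + 2))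
    (hs : SystemSingularDimLE F s) :
    ∃ C : ℝ, 0 < C ∧ ∀ (P H : ℕ) (α : Fin r → ℝ) (Z : ℂ), 1 ≤ H → H ≤ P →
      SysWeylBound F m P α Z → ‖Z‖ ^ 2 ^ (m + 1) * (H : ℝ) ^ n ≤
          C * ((P : ℝ) ^ n) ^ 2 ^ (m + 1) * (1 + Real.log P) ^ n * (H : ℝ) ^ s ∨
        ∃ (q : ℕ) (a : Fin r → ℤ), 1 ≤ q ∧ (q : ℝ) ≤ C * (H : ℝ) ^ (r * (m + 1)) ∧
          ∀ i, |(q : ℝ) * α i - a i| ≤ C * (H : ℝ) ^ (r * (m + 1)) / (P : ℝ) ^ (m + 2) := by
  classical
  obtain ⟨C₁, hC₁, hweyl⟩ := exists_weylBound_shrink F fun i => (hF i).totalDegree_le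
  obtain ⟨C₂, hC₂, hzero⟩ := exists_card_minor_zero_le F hr hF hs
  obtain ⟨T, hT⟩ : ∃ T : ℕ, T = (∑ i, ∑ j : Fin n, ∑ f : Fin (m + 1) → Fin n,
      (polarCoeff (F i) (Fin.snoc f j : Fin (m + 1 + 1) → Fin n)).natAbs) + 1 := ⟨_, rfl⟩
  obtain ⟨Q, hQ⟩ : ∃ Q : ℝ, Q = (r : ℝ) * r.factorial * (T : ℝ) ^ r := ⟨_, rfl⟩
  have hT1 : (1 : ℝ) ≤ T := by exact_mod_cast (show 1 ≤ T by omega)
  have hr1 : (1 : ℝ) ≤ r := by exact_mod_cast hr
  refine ⟨C₁ * C₂ + Q + 1, by rw [hQ]; positivity, fun P H α X hH hHP hX => ?_⟩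
  obtain ⟨Z, hZ⟩ : ∃ Z, Z = sysNearTuples F α (fun _ : Fin (m + 1) => H)
      ((H : ℝ) ^ (m + 1) / (P : ℝ) ^ (m + 2)) := ⟨_, rfl⟩
  have hH1 : (1 : ℝ) ≤ H := by exact_mod_cast hH
  by_cases hall : ∀ h ∈ Z, ∀ f : Fin r → Fin n, polarMinor F h f = 0
  · left
    have hL : 0 ≤ 1 + Real.log P := by linarith [Real.log_natCast_nonneg P]
    have h1 := hweyl P H α X hH hHP hX
    rw [← hZ] at h1
    have h2 : (Z.card : ℝ) ≤ C₂ * (H : ℝ) ^ (n * m + s) := by
      refine le_trans (Nat.cast_le.2 (card_le_card fun h hh => ?_)) (hzero H hH)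
      exact mem_filter.2 ⟨(mem_filter.1 (hZ ▸ hh :)).1, hall h hh⟩
    have h3 := h1.trans (mul_le_mul_of_nonneg_left h2 (by positivity))
    rw [show ((H : ℝ) ^ n) ^ (m + 1) = (H : ℝ) ^ n * (H : ℝ) ^ (n * m) by
      rw [pow_succ', ← pow_mul], show (H : ℝ) ^ (n * m + s) = (H : ℝ) ^ (n * m) * (H : ℝ) ^ s from
      pow_add _ _ _, ← mul_assoc,
      show C₁ * ((P : ℝ) ^ n) ^ 2 ^ (m + 1) * (1 + Real.log P) ^ n *
        (C₂ * ((H : ℝ) ^ (n * m) * (H : ℝ) ^ s)) =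
        C₁ * C₂ * ((P : ℝ) ^ n) ^ 2 ^ (m + 1) * (1 + Real.log P) ^ n * (H : ℝ) ^ s *
          (H : ℝ) ^ (n * m) by ring] at h3
    refine (le_of_mul_le_mul_right h3 (by positivity)).trans ?_
    gcongr
    have : 0 ≤ Q := by rw [hQ]; positivity
    linarith
  · right
    push Not at hall
    obtain ⟨h, hh, f, hf⟩ := hall
    rw [hZ, sysNearTuples, mem_filter] at hh
    obtain ⟨M, hM⟩ : ∃ M : Matrix (Fin r) (Fin r) ℤ,
        M = Matrix.of fun i a => polarJ (F i) h (f a) := ⟨_, rfl⟩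
    have hbd : ∀ i l, (M i l).natAbs ≤ T * H ^ (m + 1) := by
      intro i l
      rw [hM, Matrix.of_apply, polarJ, hT]
      refine le_trans (le_trans (Int.natAbs_sum_le _ _) (sum_le_sum fun g _ =>
        (le_of_eq (Int.natAbs_mul _ _)).trans (Nat.mul_le_mul (le_refl _) (?_ : _ ≤ H ^ (m + 1)))))
        ?_
      · rw [show (∏ a, h a (g a)).natAbs = ∏ a, (h a (g a)).natAbs from
          map_prod Int.natAbsHom _ univ]
        refine (prod_le_pow_card _ _ H fun a _ => ?_).trans (by simp)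
        have := abs_le.1 (mem_cbox.1 (Fintype.mem_piFinset.1 hh.1 a) (g a))
        omega
      · rw [← sum_mul]
        refine Nat.mul_le_mul_right _ (le_trans ?_ (Nat.le_succ _))
        simp only [Int.cast_id]
        exact (single_le_sum (f := fun j : Fin n => ∑ g : Fin (m + 1) → Fin n,
          (polarCoeff (F i) (Fin.snoc g j : Fin (m + 1 + 1) → Fin n)).natAbs)
          (fun _ _ => Nat.zero_le _) (mem_univ (f l))).trans
          (single_le_sum (f := fun i : Fin r => ∑ j : Fin n, ∑ g : Fin (m + 1) → Fin n,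
            (polarCoeff (F i) (Fin.snoc g j : Fin (m + 1 + 1) → Fin n)).natAbs)
          (fun _ _ => Nat.zero_le _) (mem_univ i))
    obtain ⟨q, a, hq, hqle, hclose⟩ := exists_cramer_approx M α hbd
      (η := (H : ℝ) ^ (m + 1) / (P : ℝ) ^ (m + 2))
      (fun l => by rw [hM]; exact hh.2 (f l)) (by rw [hM]; exact hf)
    have hle : ∀ e ≤ r, (r.factorial : ℝ) * (((T * H ^ (m + 1) : ℕ) : ℝ)) ^ e ≤
        r.factorial * (T : ℝ) ^ r * (H : ℝ) ^ (e * (m + 1)) := by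
      intro e he
      push_cast
      rw [mul_pow, ← pow_mul, mul_comm (m + 1) e, mul_assoc]
      gcongr
    have hQC : ∀ x : ℝ, 0 ≤ x → Q * x ≤ (C₁ * C₂ + Q + 1) * x := fun x hx =>
      mul_le_mul_of_nonneg_right (by have : 0 ≤ C₁ * C₂ := by positivity
                                     linarith) hx
    refine ⟨q, a, hq, ?_, fun i => (hclose i).trans ?_⟩
    · refine ((Nat.cast_le.2 hqle).trans ?_).trans (hQC _ (by positivity))
      rw [Nat.cast_mul, Nat.cast_pow]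
      refine (hle r le_rfl).trans ?_
      rw [hQ, mul_assoc (r : ℝ), mul_assoc (r : ℝ)]
      exact le_mul_of_one_le_left (by positivity) hr1
    · rw [mul_div_assoc]
      refine le_trans ?_ (hQC _ (by positivity))
      calc (r : ℝ) * ((H : ℝ) ^ (m + 1) / (P : ℝ) ^ (m + 2)) *
            (r.factorial * (((T * H ^ (m + 1) : ℕ) : ℝ)) ^ (r - 1))
          ≤ (r : ℝ) * ((H : ℝ) ^ (m + 1) / (P : ℝ) ^ (m + 2)) *
            (r.factorial * (T : ℝ) ^ r * (H : ℝ) ^ ((r - 1) * (m + 1))) :=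
            mul_le_mul_of_nonneg_left (hle _ (Nat.sub_le _ _)) (by positivity)
        _ = _ := by
            rw [hQ, show r * (m + 1) = (m + 1) + (r - 1) * (m + 1) by
              nth_rewrite 1 [show r = 1 + (r - 1) by omega]; ring, pow_add]
            ring

theorem exists_sys_dichotomy {m s : ℕ} (hr : 0 < r) (hF : ∀ i, (F i).IsHomogeneous (m + 2))
    (hs : SystemSingularDimLE F s) :
    ∃ C : ℝ, 0 < C ∧ ∀ (P H : ℕ) (α : Fin r → ℝ), 1 ≤ H → H ≤ P →
      ‖sysSum F P α‖ ^ 2 ^ (m + 1) * (H : ℝ) ^ n ≤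
          C * ((P : ℝ) ^ n) ^ 2 ^ (m + 1) * (1 + Real.log P) ^ n * (H : ℝ) ^ s ∨
        ∃ (q : ℕ) (a : Fin r → ℤ), 1 ≤ q ∧ (q : ℝ) ≤ C * (H : ℝ) ^ (r * (m + 1)) ∧
          ∀ i, |(q : ℝ) * α i - a i| ≤ C * (H : ℝ) ^ (r * (m + 1)) / (P : ℝ) ^ (m + 2) :=
  let ⟨C, hC, h⟩ := exists_weylBound_dichotomy F hr hF hs
  ⟨C, hC, fun P H α hH hHP => h P H α _ hH hHP
    (sysWeylBound_sysSum F (fun i => (hF i).totalDegree_le) (hH.trans hHP) α)⟩

end FA.FormSystems
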