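import Fermat.Agent.FormsManyVariables.Pointwise
import Fermat.Agent.FormSystems.Weyl
import Mathlib.Analysis.Normed.Group.Constructions

/-!
# The bound at one fraction for systems

If `n - s > r (r + 1) (d - 1) 2 ^ (d - 1)` the sum at `a / q + β`, with `gcd (q, a) = 1`, is
`O (P ^ n (log P) ^ n Φ ^ (- r - 1 - e))`, where `Φ = max (q, q P ^ d ‖β‖)` is at most `P ^ (d / 2)`
and `e = 1 / (r (d - 1) 2 ^ (d - 1))`.
-/

set_option autoImplicit false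

noncomputable section

namespace FA.FormSystems

open Finset FA.ThreePrimes FA.CubicForms FA.FormsManyVariables

variable {n r : ℕ} (F : Fin r → MvPolynomial (Fin n) ℤ)

/-- The exponent saved. -/
def sysSaving (r m : ℕ) : ℝ := 1 / ((r : ℝ) * ((m + 1 : ℕ) : ℝ) * 2 ^ (m + 1))

theorem sysSaving_pos {r : ℕ} (hr : 0 < r) (m : ℕ) : 0 < sysSaving r m := by
  rw [sysSaving]; positivity

theorem sysSaving_le_one {r : ℕ} (hr : 0 < r) (m : ℕ) : sysSaving r m ≤ 1 := by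
  rw [sysSaving, div_le_one (by positivity)]
  push_cast
  exact one_le_mul_of_one_le_of_one_le
    (one_le_mul_of_one_le_of_one_le (Nat.one_le_cast.2 hr)
      (by linarith [(Nat.cast_nonneg m : (0 : ℝ) ≤ m)])) (one_le_pow₀ one_le_two)

/-- No common divisor other than `1` of `q` and all the numerators. -/
def IsPrimitiveFraction (q : ℕ) (a : Fin r → ℤ) : Prop :=
  ∀ k : ℕ, k ∣ q → (∀ i, (k : ℤ) ∣ a i) → k = 1

theorem norm_sysSum_le (P : ℕ) (α : Fin r → ℝ) : ‖sysSum F P α‖ ≤ (2 * (P : ℝ) + 1) ^ n := by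
  refine (norm_sum_le _ _).trans (le_of_eq ?_)
  simp [norm_eAdd, card_cbox]

/-- **The dichotomy, as a saving.** -/
theorem exists_weylBound_small_or_approx {m s : ℕ} (hr : 0 < r) (hF : ∀ i, (F i).IsHomogeneous (m + 2))
    (hs : SystemSingularDimLE F s) (hn : s + r * (r + 1) * (m + 1) * 2 ^ (m + 1) < n) :
    ∃ C : ℝ, 1 ≤ C ∧ ∀ (P H : ℕ) (α : Fin r → ℝ) (Z : ℂ), 1 ≤ H → H ≤ P →
      SysWeylBound F m P α Z →
      ‖Z‖ * ((H : ℝ) ^ (r * (m + 1))) ^ ((r : ℝ) + 1 + sysSaving r m) ≤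
          C * (1 + Real.log P) ^ n * (P : ℝ) ^ n ∨
        ∃ (q : ℕ) (a : Fin r → ℤ), 1 ≤ q ∧ (q : ℝ) ≤ C * (H : ℝ) ^ (r * (m + 1)) ∧
          ∀ i, |(q : ℝ) * α i - a i| ≤ C * (H : ℝ) ^ (r * (m + 1)) / (P : ℝ) ^ (m + 2) := by
  obtain ⟨C₀, hC₀, hdich⟩ := exists_weylBound_dichotomy F hr hF hs
  obtain ⟨K, hK⟩ : ∃ K : ℕ, K = 2 ^ (m + 1) := ⟨_, rfl⟩
  have hK1 : 1 ≤ K := hK ▸ Nat.one_le_two_pow
  obtain ⟨J, hJ⟩ : ∃ J : ℕ, J = r * (r + 1) * (m + 1) * K + 1 := ⟨_, rfl⟩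
  have hJn : s + J ≤ n := by rw [hJ, hK]; omega
  refine ⟨C₀ + 1, by linarith, fun P H α Z hH hHP hZ => ?_⟩
  have hH0 : (1 : ℝ) ≤ H := by exact_mod_cast hH
  have hP0 : (1 : ℝ) ≤ P := by exact_mod_cast hH.trans hHP
  have hL1 : 1 ≤ 1 + Real.log P := by linarith [Real.log_nonneg hP0]
  rcases hdich P H α Z hH hHP hZ with h | ⟨q, a, hq, hqle, hclose⟩
  · left
    rw [← hK] at h
    have h2 : ‖Z‖ ^ K * (H : ℝ) ^ J ≤
        C₀ * ((P : ℝ) ^ n) ^ K * (1 + Real.log P) ^ n := by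
      refine le_of_mul_le_mul_right (le_trans ?_ h) (by positivity : (0 : ℝ) < (H : ℝ) ^ s)
      rw [mul_assoc, ← pow_add]
      exact mul_le_mul_of_nonneg_left (pow_le_pow_right₀ hH0 (by omega)) (by positivity)
    refine le_of_pow_le_pow_left₀ (show K ≠ 0 by omega) (by positivity) ?_
    have e : (((H : ℝ) ^ (r * (m + 1))) ^ ((r : ℝ) + 1 + sysSaving r m)) ^ K = (H : ℝ) ^ J := by
      rw [← Real.rpow_natCast (H : ℝ) (r * (m + 1)), ← Real.rpow_mul (by linarith),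
        ← Real.rpow_natCast _ K, ← Real.rpow_mul (by linarith), ← Real.rpow_natCast (H : ℝ) J, hJ,
        sysSaving, hK]
      congr 1
      have : (r : ℝ) ≠ 0 := Nat.cast_ne_zero.2 hr.ne'
      push_cast
      field_simp
    rw [mul_pow, e, mul_pow, mul_pow]
    refine h2.trans ?_
    rw [mul_right_comm C₀]
    refine mul_le_mul_of_nonneg_right ?_ (by positivity)
    exact mul_le_mul ((le_add_of_nonneg_right zero_le_one).trans
        (le_self_pow₀ (by linarith) (by omega)))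
      (le_self_pow₀ (one_le_pow₀ hL1) (by omega)) (by positivity) (by positivity)
  · right
    exact ⟨q, a, hq, hqle.trans (mul_le_mul_of_nonneg_right (by linarith) (by positivity)),
      fun i => (hclose i).trans (by gcongr; linarith)⟩

theorem exists_power_radius {k : ℕ} (hk : 0 < k) {Y : ℝ} (hY : 1 ≤ Y) :
    ∃ H : ℕ, 1 ≤ H ∧ (H : ℝ) ^ k ≤ Y ∧ Y ≤ (2 * (H : ℝ)) ^ k := by
  obtain ⟨x, hx⟩ : ∃ x : ℝ, x = Y ^ ((k : ℝ)⁻¹) := ⟨_, rfl⟩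
  have hx1 : 1 ≤ x := hx ▸ Real.one_le_rpow hY (by positivity)
  have hxk : x ^ k = Y := by
    rw [hx, ← Real.rpow_natCast, ← Real.rpow_mul (by linarith),
      inv_mul_cancel₀ (Nat.cast_ne_zero.2 hk.ne'), Real.rpow_one]
  refine ⟨⌊x⌋₊, (Nat.one_le_floor_iff _).2 hx1, ?_, ?_⟩
  · exact hxk ▸ pow_le_pow_left₀ (Nat.cast_nonneg _) (Nat.floor_le (by linarith)) k
  · refine hxk ▸ pow_le_pow_left₀ (by linarith) ?_ k
    have h1 := Nat.lt_floor_add_one x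
    have h2 : (1 : ℝ) ≤ (⌊x⌋₊ : ℕ) := by exact_mod_cast (Nat.one_le_floor_iff _).2 hx1
    linarith

theorem dvd_of_primitive {q q' : ℕ} {a a' : Fin r → ℤ} (hq : 0 < q)
    (hprim : IsPrimitiveFraction q a) (h : ∀ i, (q' : ℤ) * a i = a' i * q) : q ∣ q' := by
  obtain ⟨g, q₀, q₁, hg, hco, e0, e1⟩ := Nat.exists_coprime' (Nat.gcd_pos_of_pos_left q' hq)
  have hdvd : ∀ i, (q₀ : ℤ) ∣ a i := fun i => by
    refine IsCoprime.dvd_of_dvd_mul_left (y := (q₁ : ℤ))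
      (Int.isCoprime_iff_nat_coprime.2 (by simpa using hco)) ⟨a' i, ?_⟩
    have h' := h i
    rw [e0, e1] at h'
    push_cast at h'
    refine mul_right_cancel₀ (Int.natCast_ne_zero.2 hg.ne') ?_
    linear_combination h'
  have h1 := hprim q₀ (Dvd.intro g e0.symm) hdvd
  rw [e0, e1, h1, one_mul]
  exact dvd_mul_left g q₁

theorem exists_small_or_approx {m s : ℕ} (hr : 0 < r) (hF : ∀ i, (F i).IsHomogeneous (m + 2))
    (hs : SystemSingularDimLE F s) (hn : s + r * (r + 1) * (m + 1) * 2 ^ (m + 1) < n) :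
    ∃ C : ℝ, 1 ≤ C ∧ ∀ (P H : ℕ) (α : Fin r → ℝ), 1 ≤ H → H ≤ P →
      ‖sysSum F P α‖ * ((H : ℝ) ^ (r * (m + 1))) ^ ((r : ℝ) + 1 + sysSaving r m) ≤
          C * (1 + Real.log P) ^ n * (P : ℝ) ^ n ∨
        ∃ (q : ℕ) (a : Fin r → ℤ), 1 ≤ q ∧ (q : ℝ) ≤ C * (H : ℝ) ^ (r * (m + 1)) ∧
          ∀ i, |(q : ℝ) * α i - a i| ≤ C * (H : ℝ) ^ (r * (m + 1)) / (P : ℝ) ^ (m + 2) :=
  let ⟨C, hC, h⟩ := exists_weylBound_small_or_approx F hr hF hs hn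
  ⟨C, hC, fun P H α hH hHP => h P H α _ hH hHP
    (sysWeylBound_sysSum F (fun i => (hF i).totalDegree_le) (hH.trans hHP) α)⟩

/-- **The bound at one fraction.** -/
theorem exists_weylBound_pointwise {m s : ℕ} (hr : 0 < r) (hF : ∀ i, (F i).IsHomogeneous (m + 2))
    (hs : SystemSingularDimLE F s) (hn : s + r * (r + 1) * (m + 1) * 2 ^ (m + 1) < n) :
    ∃ C : ℝ, 0 < C ∧ ∀ (P q : ℕ) (a : Fin r → ℤ) (β : Fin r → ℝ) (Φ : ℝ) (Z : ℂ), 1 ≤ P → 1 ≤ q →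
      IsPrimitiveFraction q a → Φ = max (q : ℝ) ((q : ℝ) * (P : ℝ) ^ (m + 2) * ‖β‖) →
        Φ ^ 2 ≤ (P : ℝ) ^ (m + 2) →
          SysWeylBound F m P (fun i => (a i : ℝ) / q + β i) Z → ‖Z‖ * Φ ^ ((r : ℝ) + 1 + sysSaving r m) ≤
            C * (1 + Real.log P) ^ n * (P : ℝ) ^ n := by
  obtain ⟨C₀, hC₀, hdich⟩ := exists_weylBound_small_or_approx F hr hF hs hn
  obtain ⟨k, hk⟩ : ∃ k : ℕ, k = r * (m + 1) := ⟨_, rfl⟩
  have hk0 : 0 < k := hk ▸ Nat.mul_pos hr (Nat.succ_pos m)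
  obtain ⟨D, hD⟩ : ∃ D : ℝ, D = 4 * C₀ := ⟨_, rfl⟩
  have hD1 : 1 ≤ D := by rw [hD]; linarith
  obtain ⟨e₀, he₀⟩ : ∃ e₀, e₀ = (r : ℝ) + 1 + sysSaving r m := ⟨_, rfl⟩
  have he0 : 0 ≤ e₀ := by have := sysSaving_pos hr m; rw [he₀]; positivity
  obtain ⟨C₁, hC₁⟩ : ∃ C₁ : ℝ, C₁ = (D * (2 : ℝ) ^ k) ^ e₀ := ⟨_, rfl⟩
  have hC₁0 : 0 ≤ C₁ := hC₁ ▸ Real.rpow_nonneg (by positivity) _
  refine ⟨C₀ * C₁ + 3 ^ n * D ^ e₀, by positivity, fun P q a β Φ Z hP hq hprim hΦ hΦ2 hZ => ?_⟩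
  rw [← he₀]
  rw [← he₀, ← hk] at hdich
  have hP0 : (1 : ℝ) ≤ P := by exact_mod_cast hP
  have hq0 : (1 : ℝ) ≤ q := by exact_mod_cast hq
  have hqΦ : (q : ℝ) ≤ Φ := hΦ ▸ le_max_left _ _
  have hΦ0 : 1 ≤ Φ := hq0.trans hqΦ
  have hL1 : 1 ≤ 1 + Real.log P := by linarith [Real.log_nonneg hP0]
  have hLn : (1 : ℝ) ≤ (1 + Real.log P) ^ n := one_le_pow₀ hL1
  obtain ⟨α, hα⟩ : ∃ α : Fin r → ℝ, α = fun i => (a i : ℝ) / q + β i := ⟨_, rfl⟩
  rw [← hα] at hZ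
  rcases lt_or_ge Φ D with hsmall | hbig
  · have h1 : ‖Z‖ ≤ 3 ^ n * (P : ℝ) ^ n := by
      rw [← mul_pow]
      exact hZ.1.trans (pow_le_pow_left₀ (by positivity) (by linarith) n)
    have h2 : Φ ^ e₀ ≤ D ^ e₀ := Real.rpow_le_rpow (by linarith) hsmall.le he0
    calc ‖Z‖ * Φ ^ e₀ ≤ 3 ^ n * (P : ℝ) ^ n * D ^ e₀ :=
          mul_le_mul h1 h2 (by positivity) (by positivity)
      _ ≤ 3 ^ n * (P : ℝ) ^ n * D ^ e₀ * (1 + Real.log P) ^ n :=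
          le_mul_of_one_le_right (by positivity) hLn
      _ ≤ (C₀ * C₁ + 3 ^ n * D ^ e₀) * (1 + Real.log P) ^ n * (P : ℝ) ^ n := by
        rw [show 3 ^ n * (P : ℝ) ^ n * D ^ e₀ * (1 + Real.log P) ^ n =
          3 ^ n * D ^ e₀ * (1 + Real.log P) ^ n * (P : ℝ) ^ n by ring]
        gcongr
        exact le_add_of_nonneg_left (by positivity)
  obtain ⟨H, hH1, hHle, hHge⟩ := exists_power_radius hk0
    ((one_le_div (by linarith)).2 hbig : 1 ≤ Φ / D)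
  have hX : (0 : ℝ) < (P : ℝ) ^ (m + 2) := by positivity
  have hHP : H ≤ P := by
    refine Nat.cast_le (α := ℝ).1 (le_of_pow_le_pow_left₀ hk0.ne' (by positivity) ?_)
    refine hHle.trans ((div_le_self (by linarith) hD1).trans
      (le_of_pow_le_pow_left₀ two_ne_zero (by positivity) (hΦ2.trans ?_)))
    rw [← pow_mul]
    refine pow_le_pow_right₀ hP0 ?_
    have : m + 1 ≤ k := hk ▸ Nat.le_mul_of_pos_left _ hr
    omega
  rcases hdich P H α Z hH1 hHP hZ with h | ⟨q', a', hq', hq'le, hclose⟩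
  · have h3 : Φ ^ e₀ ≤ C₁ * ((H : ℝ) ^ k) ^ e₀ := by
      rw [hC₁, ← Real.mul_rpow (by positivity) (by positivity)]
      refine Real.rpow_le_rpow (by linarith) ?_ he0
      rw [div_le_iff₀ (by linarith)] at hHge
      exact hHge.trans (le_of_eq (by ring))
    calc ‖Z‖ * Φ ^ e₀ ≤ ‖Z‖ * (C₁ * ((H : ℝ) ^ k) ^ e₀) := by gcongr
      _ = C₁ * (‖Z‖ * ((H : ℝ) ^ k) ^ e₀) := by ring
      _ ≤ C₁ * (C₀ * (1 + Real.log P) ^ n * (P : ℝ) ^ n) := by gcongr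
      _ = C₀ * C₁ * (1 + Real.log P) ^ n * (P : ℝ) ^ n := by ring
      _ ≤ _ := by gcongr; exact le_add_of_nonneg_right (by positivity)
  · exfalso
    have hC0D : C₀ * (H : ℝ) ^ k ≤ Φ / 4 := by
      refine (mul_le_mul_of_nonneg_left hHle (by linarith)).trans (le_of_eq ?_)
      rw [hD]; field_simp
    have hA : C₀ * (H : ℝ) ^ k / (P : ℝ) ^ (m + 2) ≤ Φ / (4 * (P : ℝ) ^ (m + 2)) :=
      (div_le_div_of_nonneg_right hC0D hX.le).trans (le_of_eq (div_div _ _ _))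
    have hB : ∀ i, (q : ℝ) * |β i| ≤ Φ / (P : ℝ) ^ (m + 2) := fun i => by
      rw [le_div_iff₀ hX, mul_right_comm, hΦ]
      exact (mul_le_mul_of_nonneg_left (Real.norm_eq_abs (β i) ▸ norm_le_pi_norm β i)
        (by positivity)).trans (le_max_right _ _)
    have heq : ∀ i, (q' : ℤ) * a i = a' i * q := fun i =>
      eq_of_near_fraction hq (hq'le.trans hC0D)
        (by have := hclose i; rw [hα] at this; exact this) hA (hB i) le_rfl hqΦ hΦ2 hX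
    have hdvd := dvd_of_primitive hq hprim heq
    have hqq : (q : ℝ) ≤ q' := by exact_mod_cast Nat.le_of_dvd hq' hdvd
    have hΦeq : Φ = (q : ℝ) * (P : ℝ) ^ (m + 2) * ‖β‖ := by
      rcases max_choice (q : ℝ) ((q : ℝ) * (P : ℝ) ^ (m + 2) * ‖β‖) with h | h
      · rw [← hΦ] at h; linarith [hq'le.trans hC0D]
      · rw [hΦ, h]
    have hβi : ∀ i, (q' : ℝ) * |β i| ≤ Φ / (4 * (P : ℝ) ^ (m + 2)) := fun i => by
      have e : (q' : ℝ) * α i - a' i = (q' : ℝ) * β i := by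
        have := congrArg (fun z : ℤ => (z : ℝ)) (heq i)
        push_cast at this
        rw [hα]
        field_simp
        linear_combination this
      have h5 := (hclose i).trans hA
      rwa [e, abs_mul, Nat.abs_cast] at h5
    have hq'0 : (0 : ℝ) < q' := Nat.cast_pos.2 hq'
    have hnorm : ‖β‖ ≤ Φ / (4 * (P : ℝ) ^ (m + 2)) / q' := by
      refine (pi_norm_le_iff_of_nonneg (by positivity)).2 fun i => ?_
      rw [le_div_iff₀ hq'0, Real.norm_eq_abs, mul_comm]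
      exact hβi i
    rw [le_div_iff₀ hq'0, le_div_iff₀ (by positivity)] at hnorm
    have h6 : (q : ℝ) * ‖β‖ * (4 * (P : ℝ) ^ (m + 2)) ≤
        ‖β‖ * q' * (4 * (P : ℝ) ^ (m + 2)) := by
      rw [mul_comm (q : ℝ)]
      gcongr
    have h7 : (q : ℝ) * ‖β‖ * (4 * (P : ℝ) ^ (m + 2)) = 4 * Φ := by rw [hΦeq]; ring
    linarith

theorem exists_sys_pointwise {m s : ℕ} (hr : 0 < r) (hF : ∀ i, (F i).IsHomogeneous (m + 2))
    (hs : SystemSingularDimLE F s) (hn : s + r * (r + 1) * (m + 1) * 2 ^ (m + 1) < n) :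
    ∃ C : ℝ, 0 < C ∧ ∀ (P q : ℕ) (a : Fin r → ℤ) (β : Fin r → ℝ) (Φ : ℝ), 1 ≤ P → 1 ≤ q →
      IsPrimitiveFraction q a → Φ = max (q : ℝ) ((q : ℝ) * (P : ℝ) ^ (m + 2) * ‖β‖) →
        Φ ^ 2 ≤ (P : ℝ) ^ (m + 2) →
          ‖sysSum F P (fun i => (a i : ℝ) / q + β i)‖ * Φ ^ ((r : ℝ) + 1 + sysSaving r m) ≤
            C * (1 + Real.log P) ^ n * (P : ℝ) ^ n :=
  let ⟨C, hC, h⟩ := exists_weylBound_pointwise F hr hF hs hn
  ⟨C, hC, fun P q a β Φ hP hq hprim hΦ hΦ2 => h P q a β Φ _ hP hq hprim hΦ hΦ2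
    (sysWeylBound_sysSum F (fun i => (hF i).totalDegree_le) hP _)⟩

end FA.FormSystems
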