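import Fermat.Agent.FormsManyVariables.Complete
import Fermat.Agent.FormsManyVariables.Integral
import Fermat.Agent.FormSystems.Pointwise

/-!
# Complete sums and integrals of a system

Near `a / q` the sum over the box is `q ^ (-n) S (a, q)` times the sum at `β`, and this is `P ^ n`
times the integral of `e (γ · F)` over `[-1, 1] ^ n` at `γ = P ^ d β`, up to
`O (q P ^ (n - 1) (1 + P ^ d ‖β‖))`.
-/

set_option autoImplicit false

noncomputable section

namespace FA.FormSystems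

open Finset FA.ThreePrimes FA.WaringAsymptotic FA.CubicForms FA.FormsManyVariables MvPolynomial
  MeasureTheory
open scoped Real Pointwise

variable {n r : ℕ} (F : Fin r → MvPolynomial (Fin n) ℤ)

/-- `γ · F` at a real point. -/
def sysPhase (γ : Fin r → ℝ) (y : Fin n → ℝ) : ℝ := ∑ i, γ i * aeval y (F i)

/-- The sum of the sizes of all the coefficients. -/
def sysSize : ℕ := ∑ i, formSize (F i)

/-- The complete sum `S (a, q)`. -/
def sysCompleteSum (q : ℕ) (a : Fin r → ℤ) : ℂ :=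
  ∑ x ∈ residueBox n q,
    eAdd (((∑ i, a i * eval (fun l => (x l : ℤ)) (F i) : ℤ) : ℝ) / q)

theorem norm_sysCompleteSum_le (q : ℕ) (a : Fin r → ℤ) :
    ‖sysCompleteSum F q a‖ ≤ (q : ℝ) ^ n := by
  refine (norm_sum_le _ _).trans (le_of_eq ?_)
  simp [norm_eAdd, card_residueBox]

theorem eAdd_sys_congr {q : ℕ} (hq : 0 < q) (a : Fin r → ℤ) {x y : Fin n → ℤ}
    (h : ∀ l, (x l : ZMod q) = (y l : ZMod q)) :
    eAdd (((∑ i, a i * eval x (F i) : ℤ) : ℝ) / q) =
      eAdd (((∑ i, a i * eval y (F i) : ℤ) : ℝ) / q) := by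
  refine eAdd_natCast_div_congr hq ?_
  simp only [Int.cast_sum, Int.cast_mul, ← aeval_intCast, funext h]

/-- Translations permute the residues. -/
theorem sum_sys_residues_shift {q : ℕ} (hq : 0 < q) (a : Fin r → ℤ) (x : Fin n → ℤ) :
    ∑ y ∈ residueBox n q,
        eAdd (((∑ i, a i * eval (x + fun l => (y l : ℤ)) (F i) : ℤ) : ℝ) / q) =
      sysCompleteSum F q a := by
  have : NeZero q := ⟨hq.ne'⟩
  refine sum_nbij' (fun y l => ((x l : ZMod q) + y l).val) (fun y l => ((y l : ZMod q) - x l).val)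
    (fun y _ => mem_residueBox.2 fun l => ZMod.val_lt _)
    (fun y _ => mem_residueBox.2 fun l => ZMod.val_lt _) (fun y hy => ?_) (fun y hy => ?_)
    fun y _ => eAdd_sys_congr F hq a fun l => ?_
  · funext l
    simp only [ZMod.natCast_zmod_val, add_sub_cancel_left,
      ZMod.val_cast_of_lt (mem_residueBox.1 hy l)]
  · funext l
    simp only [ZMod.natCast_zmod_val, add_sub_cancel,
      ZMod.val_cast_of_lt (mem_residueBox.1 hy l)]
  · simp only [Pi.add_apply, Int.cast_add, Int.cast_natCast, ZMod.natCast_zmod_val]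

theorem sysSum_eq (P : ℕ) (α : Fin r → ℝ) :
    sysSum F P α = ∑ x ∈ cbox n P, eAdd (sysPhase F α fun l => (x l : ℝ)) := by
  simp only [sysSum, sysPhase, aeval_intCast]

theorem sysSum_congr (P : ℕ) {α β : Fin r → ℝ} {z : Fin r → ℤ}
    (h : ∀ i, α i = β i + z i) : sysSum F P α = sysSum F P β := by
  refine sum_congr rfl fun x _ => ?_
  simp only [h, add_mul, sum_add_distrib, ← Int.cast_mul, ← Int.cast_sum]
  rw [eAdd_add, eAdd_intCast, mul_one]

theorem sysSum_zero (P : ℕ) : sysSum F P 0 = (((2 * P + 1) ^ n : ℕ) : ℂ) := by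
  simp [sysSum, card_cbox]

theorem norm_eAdd_sub_le (s t : ℝ) : ‖eAdd s - eAdd t‖ ≤ 2 * π * |s - t| := by
  have := norm_eAdd_mul_sub_le 1 s t
  simpa using this

theorem eAdd_sum {ι : Type*} (t : Finset ι) (f : ι → ℝ) :
    eAdd (∑ i ∈ t, f i) = ∏ i ∈ t, eAdd (f i) := by
  classical
  induction t using Finset.induction with
  | empty => simp
  | insert a t ha ih => rw [sum_insert ha, prod_insert ha, eAdd_add, ih]

theorem abs_le_pi_norm {k : ℕ} (γ : Fin k → ℝ) (i : Fin k) : |γ i| ≤ ‖γ‖ :=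
  Real.norm_eq_abs (γ i) ▸ norm_le_pi_norm γ i

theorem abs_sysPhase_le {d : ℕ} (hF : ∀ i, (F i).IsHomogeneous d) (γ : Fin r → ℝ)
    {y : Fin n → ℝ} {A : ℝ} (hy : ∀ l, |y l| ≤ A) :
    |sysPhase F γ y| ≤ ‖γ‖ * (sysSize F * A ^ d) := by
  rw [sysPhase, sysSize, Nat.cast_sum, sum_mul, mul_sum]
  refine (abs_sum_le_sum_abs _ _).trans (sum_le_sum fun i _ => ?_)
  rw [abs_mul]
  exact mul_le_mul (abs_le_pi_norm γ i) (abs_aeval_le (F i) (hF i) y hy) (abs_nonneg _)
    (norm_nonneg _)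

theorem abs_sysPhase_sub_le {d : ℕ} (hF : ∀ i, (F i).IsHomogeneous (d + 1)) (γ : Fin r → ℝ)
    (x y : Fin n → ℝ) {A δ : ℝ} (hA : 0 < A) (hx : ∀ l, |x l| ≤ A)
    (hy : ∀ l, |y l| ≤ A) (hxy : ∀ l, |x l - y l| ≤ δ) :
    |sysPhase F γ x - sysPhase F γ y| ≤
      ‖γ‖ * (((d + 1 : ℕ) : ℝ) * sysSize F * A ^ d * δ) := by
  rw [sysPhase, sysPhase, ← sum_sub_distrib, sysSize, Nat.cast_sum, mul_sum, sum_mul, sum_mul,
    mul_sum]
  refine (abs_sum_le_sum_abs _ _).trans (sum_le_sum fun i _ => ?_)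
  rw [← mul_sub, abs_mul]
  exact mul_le_mul (abs_le_pi_norm γ i) (abs_aeval_sub_le (F i) (hF i) x y hA hx hy hxy)
    (abs_nonneg _) (norm_nonneg _)

theorem sysPhase_sub (α β : Fin r → ℝ) (y : Fin n → ℝ) :
    sysPhase F α y - sysPhase F β y = sysPhase F (α - β) y := by
  simp [sysPhase, sum_sub_distrib, sub_mul]

theorem norm_sysSum_sub_le {m : ℕ} (hF : ∀ i, (F i).IsHomogeneous (m + 2)) (P : ℕ)
    (α β : Fin r → ℝ) : ‖sysSum F P α - sysSum F P β‖ ≤
      2 * π * sysSize F * (P : ℝ) ^ (m + 2) * ((2 * P + 1 : ℕ) : ℝ) ^ n * ‖α - β‖ := by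
  rw [sysSum_eq, sysSum_eq, ← sum_sub_distrib]
  refine (norm_sum_le _ _).trans ((sum_le_card_nsmul _ _
    (2 * π * (‖α - β‖ * (sysSize F * (P : ℝ) ^ (m + 2)))) fun x hx => ?_).trans (le_of_eq ?_))
  · refine (norm_eAdd_sub_le _ _).trans ?_
    rw [sysPhase_sub]
    gcongr
    exact abs_sysPhase_le F hF _ fun l => by exact_mod_cast mem_cbox.1 hx l
  · rw [nsmul_eq_mul, card_cbox, Nat.cast_pow]; ring

/-- **The main term near a fraction.** -/
theorem exists_sys_major_approx {m : ℕ} (hF : ∀ i, (F i).IsHomogeneous (m + 2)) :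
    ∃ C : ℝ, 0 < C ∧ ∀ (P q : ℕ) (a : Fin r → ℤ) (β : Fin r → ℝ), 1 ≤ q → q ≤ P →
      ‖sysSum F P (fun i => (a i : ℝ) / q + β i) -
          sysCompleteSum F q a / (q : ℂ) ^ n * sysSum F P β‖ ≤
        C * q * (P : ℝ) ^ (n - 1) * (1 + (P : ℝ) ^ (m + 2) * ‖β‖) := by
  obtain ⟨L₀, hL₀⟩ : ∃ L₀ : ℝ, L₀ = 2 * π * (((m + 2 : ℕ) : ℝ) * sysSize F * 2 ^ (m + 1)) :=
    ⟨_, rfl⟩
  have hL0 : 0 ≤ L₀ := hL₀ ▸ by positivity
  refine ⟨(4 * n + L₀ * 3 + 1) * 3 ^ n, by positivity, fun P q a β hq hqP => ?_⟩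
  have hq0 : 0 < q := hq
  have hP : 1 ≤ P := hq.trans hqP
  have hP0 : (1 : ℝ) ≤ P := by exact_mod_cast hP
  have hqn : ((q : ℂ) ^ n) ≠ 0 := pow_ne_zero _ (Nat.cast_ne_zero.2 hq0.ne')
  obtain ⟨ph, hph⟩ : ∃ ph : (Fin n → ℤ) → ℝ,
      ph = fun y => sysPhase F β fun l => (y l : ℝ) := ⟨_, rfl⟩
  obtain ⟨f, hf⟩ : ∃ f : (Fin n → ℤ) → ℂ,
      f = fun y => eAdd (((∑ i, a i * eval y (F i) : ℤ) : ℝ) / q + ph y) := ⟨_, rfl⟩
  obtain ⟨V, hV⟩ : ∃ V, V = sysSum F P β := ⟨_, rfl⟩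
  have hsum : sysSum F P (fun i => (a i : ℝ) / q + β i) = ∑ y ∈ cbox n P, f y := by
    refine sum_congr rfl fun y _ => ?_
    simp only [hf, hph, sysPhase, aeval_intCast, add_mul, sum_add_distrib]
    push_cast
    rw [sum_div]
    congr 1
    refine congrArg₂ _ (sum_congr rfl fun i _ => ?_) rfl
    ring
  have hsplit : ∀ (x : Fin n → ℤ), ∀ y : Fin n → ℤ, f y =
      eAdd (((∑ i, a i * eval y (F i) : ℤ) : ℝ) / q) * eAdd (ph x) +
        eAdd (((∑ i, a i * eval y (F i) : ℤ) : ℝ) / q) * (eAdd (ph y) - eAdd (ph x)) :=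
    fun x y => by rw [← mul_add, add_sub_cancel, ← eAdd_add, hf]
  obtain ⟨D, hD⟩ : ∃ D : ℝ, D = L₀ * ((q : ℝ) * (P : ℝ) ^ (m + 1) * ‖β‖) := ⟨_, rfl⟩
  have hΔ : ∀ x ∈ cbox n P, ∀ y ∈ residueBox n q,
      ‖eAdd (ph (x + fun l => (y l : ℤ))) - eAdd (ph x)‖ ≤ D := by
    intro x hx y hy
    have hq2 : (q : ℝ) ≤ P := Nat.cast_le.2 hqP
    have hy' : ∀ l, |((y l : ℕ) : ℝ)| ≤ (q : ℝ) := fun l => by
      rw [Nat.abs_cast]; exact_mod_cast (mem_residueBox.1 hy l).le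
    have hx' : ∀ l, |(x l : ℝ)| ≤ (P : ℝ) := fun l => by exact_mod_cast mem_cbox.1 hx l
    refine (norm_eAdd_sub_le _ _).trans ?_
    simp only [hph]
    have h := abs_sysPhase_sub_le F (d := m + 1) hF β
      (fun l => (((x + fun l => (y l : ℤ)) l : ℤ) : ℝ))
      (fun l => (x l : ℝ)) (A := 2 * P) (δ := q) (by linarith) (fun l => by
        push_cast [Pi.add_apply]
        exact (abs_add_le _ _).trans (by linarith [hx' l, hy' l]))
      (fun l => (hx' l).trans (by linarith)) fun l => by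
        push_cast [Pi.add_apply]
        rw [add_sub_cancel_left]
        exact hy' l
    refine (mul_le_mul_of_nonneg_left h (by positivity)).trans (le_of_eq ?_)
    rw [hD, hL₀, mul_pow]; push_cast; ring
  have hD0 : 0 ≤ D := hD ▸ by positivity
  have hmain : ‖∑ y ∈ residueBox n q, ∑ x ∈ cbox n P, f (x + fun l => (y l : ℤ)) -
      sysCompleteSum F q a * V‖ ≤ (q : ℝ) ^ n * ((3 * (P : ℝ)) ^ n * D) := by
    rw [sum_comm, hV, sysSum_eq, mul_sum, ← sum_sub_distrib]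
    refine (norm_sum_le _ _).trans ((sum_le_card_nsmul _ _ ((q : ℝ) ^ n * D) fun x hx => ?_).trans
      ?_)
    · rw [sum_congr rfl fun y _ => hsplit x (x + fun l => (y l : ℤ)), sum_add_distrib, ← sum_mul,
        sum_sys_residues_shift F hq0, show eAdd (ph x) = eAdd (sysPhase F β fun l => (x l : ℝ)) by
          rw [hph], add_sub_cancel_left]
      refine (norm_sum_le _ _).trans ((sum_le_card_nsmul _ _ D fun y hy => ?_).trans (le_of_eq ?_))
      · rw [norm_mul, norm_eAdd, one_mul]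
        have := hΔ x hx y hy
        simpa [hph] using this
      · rw [nsmul_eq_mul, card_residueBox, Nat.cast_pow]
    · rw [nsmul_eq_mul, card_cbox, Nat.cast_pow, mul_left_comm]
      gcongr
      push_cast
      linarith
  have hshift : ‖(q : ℂ) ^ n * sysSum F P (fun i => (a i : ℝ) / q + β i) -
      ∑ y ∈ residueBox n q, ∑ x ∈ cbox n P, f (x + fun l => (y l : ℤ))‖ ≤
      (q : ℝ) ^ n * (4 * n * q * (3 * (P : ℝ)) ^ (n - 1)) := by
    rw [show (q : ℂ) ^ n * sysSum F P (fun i => (a i : ℝ) / q + β i) =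
      ∑ y ∈ residueBox n q, ∑ x ∈ cbox n P, f x by
      rw [sum_const, card_residueBox, nsmul_eq_mul, Nat.cast_pow, hsum], ← sum_sub_distrib]
    refine (norm_sum_le _ _).trans ((sum_le_card_nsmul _ _
      (4 * n * q * (3 * (P : ℝ)) ^ (n - 1)) fun y hy => ?_).trans (le_of_eq ?_))
    · rw [norm_sub_rev]
      refine norm_sum_shift_sub_le f (fun y => by rw [hf, norm_eAdd]) hqP fun l => ?_
      rw [Nat.abs_cast]
      exact_mod_cast (mem_residueBox.1 hy l).le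
    · rw [nsmul_eq_mul, card_residueBox, Nat.cast_pow]
  rw [← hV, show sysSum F P (fun i => (a i : ℝ) / q + β i) -
      sysCompleteSum F q a / (q : ℂ) ^ n * V =
    ((q : ℂ) ^ n * sysSum F P (fun i => (a i : ℝ) / q + β i) - sysCompleteSum F q a * V) /
      (q : ℂ) ^ n by
      field_simp, norm_div, norm_pow, Complex.norm_natCast, div_le_iff₀ (by positivity)]
  refine (norm_sub_le_norm_sub_add_norm_sub _
    (∑ y ∈ residueBox n q, ∑ x ∈ cbox n P, f (x + fun l => (y l : ℤ))) _).trans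
    ((add_le_add hshift hmain).trans ?_)
  rw [← mul_add, mul_comm ((q : ℝ) ^ n)]
  refine mul_le_mul_of_nonneg_right ?_ (by positivity)
  have hP' : (P : ℝ) ^ n ≤ (P : ℝ) ^ (n - 1) * P := by
    rw [← pow_succ]; exact pow_le_pow_right₀ hP0 (by omega)
  have h3 : (3 : ℝ) ^ (n - 1) ≤ 3 ^ n := pow_le_pow_right₀ (by norm_num) (Nat.sub_le _ _)
  have hw : 0 ≤ (P : ℝ) ^ (m + 2) * ‖β‖ := by positivity
  calc 4 * (n : ℝ) * q * (3 * (P : ℝ)) ^ (n - 1) + (3 * (P : ℝ)) ^ n * D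
      = 4 * (n : ℝ) * q * (3 ^ (n - 1) * (P : ℝ) ^ (n - 1)) +
          3 ^ n * (P : ℝ) ^ n * (L₀ * ((q : ℝ) * (P : ℝ) ^ (m + 1) * ‖β‖)) := by
        rw [hD, mul_pow, mul_pow]
    _ ≤ 4 * (n : ℝ) * q * (3 ^ n * (P : ℝ) ^ (n - 1)) +
          3 ^ n * ((P : ℝ) ^ (n - 1) * P) * (L₀ * ((q : ℝ) * (P : ℝ) ^ (m + 1) * ‖β‖)) := by
        gcongr
    _ = 3 ^ n * q * (P : ℝ) ^ (n - 1) * (4 * n + L₀ * ((P : ℝ) ^ (m + 2) * ‖β‖)) := by ring
    _ ≤ 3 ^ n * q * (P : ℝ) ^ (n - 1) *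
          ((4 * n + L₀ * 3 + 1) * (1 + (P : ℝ) ^ (m + 2) * ‖β‖)) := by
        gcongr
        nlinarith [mul_nonneg hL0 hw]
    _ = _ := by ring

/-- `[-T, T] ^ k`. -/
def symBox (k : ℕ) (T : ℝ) : Set (Fin k → ℝ) := Set.Icc (fun _ => -T) fun _ => T

theorem mem_symBox {k : ℕ} {T : ℝ} {y : Fin k → ℝ} : y ∈ symBox k T ↔ ∀ i, |y i| ≤ T := by
  simp only [symBox, Set.mem_Icc, Pi.le_def, abs_le]
  exact ⟨fun h i => ⟨h.1 i, h.2 i⟩, fun h => ⟨fun i => (h i).1, fun i => (h i).2⟩⟩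

theorem setIntegral_symBox_smul {k : ℕ} (f : (Fin k → ℝ) → ℂ) {c : ℝ} (hc : 0 < c) (T : ℝ) :
    (c : ℂ) ^ k * ∫ y in symBox k T, f (c • y) = ∫ y in symBox k (c * T), f y := by
  have h := Measure.setIntegral_comp_smul_of_pos (volume : Measure (Fin k → ℝ)) f (symBox k T) hc
  have hset : c • symBox k T = symBox k (c * T) := by
    ext y
    rw [Set.mem_smul_set_iff_inv_smul_mem₀ hc.ne', mem_symBox, mem_symBox]
    refine forall_congr' fun i => ?_
    rw [Pi.smul_apply, smul_eq_mul, abs_mul, abs_inv, abs_of_pos hc, inv_mul_le_iff₀ hc]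
  simp only [hset, Module.finrank_fintype_fun_eq_card, Fintype.card_fin] at h
  rw [h, Complex.real_smul]
  push_cast
  rw [← mul_assoc, mul_inv_cancel₀ (pow_ne_zero _ (by exact_mod_cast hc.ne')), one_mul]

/-- **A sum over a cube and the integral.** -/
theorem norm_cube_sum_sub_integral_le {k : ℕ} (g : (Fin k → ℝ) → ℂ) (hg : Continuous g) {H : ℕ}
    (hH : 1 ≤ H) {K B : ℝ} (hK : ∀ x y : Fin k → ℝ, x ∈ symBox k H → y ∈ symBox k H →
      (∀ i, |x i - y i| ≤ 1) → ‖g x - g y‖ ≤ K) (hB : ∀ x, ‖g x‖ ≤ B) :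
    ‖∑ o ∈ cbox k H, g (fun i => (o i : ℝ)) - ∫ y in symBox k H, g y‖ ≤
      k * 3 ^ k * (H : ℝ) ^ (k - 1) * B + 2 ^ k * (H : ℝ) ^ k * K := by
  classical
  have hH0 : (1 : ℝ) ≤ H := by exact_mod_cast hH
  obtain ⟨X, hX⟩ : ∃ X : Finset (Fin k → ℤ),
      X = Fintype.piFinset fun _ => Finset.Ico (-(H : ℤ)) H := ⟨_, rfl⟩
  have hint : ∀ x : Fin k → ℤ, IntegrableOn g (unitCell x) := fun x =>
    ((hg.continuousOn.integrableOn_compact (isCompact_Icc (a := fun i => (x i : ℝ))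
      (b := fun i => (x i : ℝ) + 1))).mono_set
        fun y hy => ⟨fun i => (hy i trivial).1, fun i => (hy i trivial).2.le⟩)
  have hcover : ⋃ x ∈ X, unitCell x =
      Set.pi Set.univ fun _ : Fin k => Set.Ico (-(H : ℝ)) (H : ℝ) := by
    ext y
    simp only [Set.mem_iUnion, mem_unitCell, exists_prop, hX, Fintype.mem_piFinset,
      Finset.mem_Ico, Set.mem_univ_pi, Set.mem_Ico]
    constructor
    · rintro ⟨x, hx, hy⟩ i
      have h1 := hx i
      rw [← hy i, Int.le_floor, Int.floor_lt] at h1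
      push_cast at h1
      exact h1
    · intro hy
      refine ⟨fun i => ⌊y i⌋, fun i => ?_, fun i => rfl⟩
      rw [Int.le_floor, Int.floor_lt]
      push_cast
      exact hy i
  have hdecomp : ∫ y in symBox k H, g y = ∑ x ∈ X, ∫ y in unitCell x, g y := by
    rw [← integral_biUnion_finset (s := unitCell) X
      (fun x _ => MeasurableSet.univ_pi fun i => measurableSet_Ico)
      (fun x _ x' _ hne => Set.disjoint_left.2 fun y h1 h2 => hne (funext fun i => by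
        rw [← mem_unitCell.1 h1 i, mem_unitCell.1 h2 i])) fun x _ => hint x, hcover]
    exact (setIntegral_congr_set Measure.univ_pi_Ico_ae_eq_Icc).symm
  have hcell : ∀ x ∈ X, ‖g (fun i => (x i : ℝ)) - ∫ y in unitCell x, g y‖ ≤ K := by
    intro x hx
    rw [hX, Fintype.mem_piFinset] at hx
    have hx' : ∀ i, -(H : ℝ) ≤ x i ∧ (x i : ℝ) + 1 ≤ H := fun i => by
      have := Finset.mem_Ico.1 (hx i)
      exact ⟨by exact_mod_cast this.1, by exact_mod_cast (show x i + 1 ≤ (H : ℤ) by omega)⟩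
    have hvol : volume.real (unitCell x) = 1 := by
      rw [Measure.real, unitCell, Real.volume_pi_Ico_toReal fun i => by linarith]
      simp
    have hfin : volume (unitCell x) < ⊤ :=
      lt_of_le_of_lt (measure_mono (Set.pi_mono fun i _ => Set.Ico_subset_Icc_self))
        (isCompact_univ_pi fun i => isCompact_Icc).measure_lt_top
    have e : g (fun i => (x i : ℝ)) = ∫ _ in unitCell x, g (fun i => (x i : ℝ)) := by
      rw [setIntegral_const, hvol, one_smul]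
    rw [e, ← integral_sub (integrableOn_const (C := g fun i => (x i : ℝ)) hfin.ne) (hint x)]
    refine (norm_setIntegral_le_of_norm_le_const (C := K) hfin fun y hy => ?_).trans
      (le_of_eq (by rw [hvol, mul_one]))
    have hy' : ∀ i, (x i : ℝ) ≤ y i ∧ y i < x i + 1 := fun i => hy i trivial
    exact hK _ y (mem_symBox.2 fun i => abs_le.2 ⟨(hx' i).1, by linarith [hx' i]⟩)
      (mem_symBox.2 fun i => abs_le.2 ⟨by linarith [hx' i, hy' i], by linarith [hx' i, hy' i]⟩)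
      fun i => abs_le.2 ⟨by linarith [hy' i], by linarith [hy' i]⟩
  have hsub : X ⊆ cbox k H := fun x hx => mem_cbox.2 fun i => by
    rw [hX, Fintype.mem_piFinset] at hx
    have := Finset.mem_Ico.1 (hx i)
    exact abs_le.2 ⟨this.1, this.2.le⟩
  have hXc : X.card = (2 * H) ^ k := by
    rw [hX, Fintype.card_piFinset_const, Int.card_Ico,
      show ((H : ℤ) - -(H : ℤ)).toNat = 2 * H by omega]
  have hB0 : 0 ≤ B := (norm_nonneg _).trans (hB 0)
  rw [hdecomp, ← sum_sdiff hsub, add_sub_assoc, ← sum_sub_distrib]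
  refine (norm_add_le _ _).trans (add_le_add ?_ ?_)
  · refine (norm_sum_le _ _).trans ((sum_le_card_nsmul _ _ B fun x _ => hB _).trans ?_)
    rw [nsmul_eq_mul, card_sdiff_of_subset hsub, Nat.cast_sub (card_le_card hsub), hXc, card_cbox]
    refine mul_le_mul_of_nonneg_right ?_ hB0
    push_cast
    refine (pow_sub_pow_le (by positivity) (by linarith) k).trans ?_
    rw [show (k : ℝ) * (2 * H + 1 - 2 * H) = k by ring, mul_assoc]
    refine mul_le_mul_of_nonneg_left ?_ (Nat.cast_nonneg k)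
    calc (2 * (H : ℝ) + 1) ^ (k - 1) ≤ (3 * (H : ℝ)) ^ (k - 1) :=
          pow_le_pow_left₀ (by positivity) (by linarith) _
      _ = 3 ^ (k - 1) * (H : ℝ) ^ (k - 1) := mul_pow _ _ _
      _ ≤ _ := mul_le_mul_of_nonneg_right (pow_le_pow_right₀ (by norm_num) (Nat.sub_le _ _))
          (by positivity)
  · refine (norm_sum_le _ _).trans ((sum_le_card_nsmul _ _ K hcell).trans (le_of_eq ?_))
    rw [nsmul_eq_mul, hXc]
    push_cast
    rw [mul_pow]

theorem continuous_sysPhase (γ : Fin r → ℝ) : Continuous (sysPhase F γ) := by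
  unfold sysPhase
  exact continuous_finsetSum _ fun i _ => continuous_const.mul (continuous_aeval_form (F i))

/-- The integral of `e (γ · F)` over the cube. -/
def sysFormIntegral (γ : Fin r → ℝ) : ℂ := ∫ y in symBox n 1, eAdd (sysPhase F γ y)

/-- **The sum and the integral.** -/
theorem exists_sys_sum_integral {m : ℕ} (hF : ∀ i, (F i).IsHomogeneous (m + 2)) :
    ∃ C : ℝ, 0 < C ∧ ∀ (P : ℕ) (β : Fin r → ℝ), 1 ≤ P →
      ‖sysSum F P β - (P : ℂ) ^ n * sysFormIntegral F (((P : ℝ) ^ (m + 2)) • β)‖ ≤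
        C * (P : ℝ) ^ (n - 1) * (1 + (P : ℝ) ^ (m + 2) * ‖β‖) := by
  obtain ⟨L, hL⟩ : ∃ L : ℝ, L = 2 * π * (((m + 2 : ℕ) : ℝ) * sysSize F) := ⟨_, rfl⟩
  have hL0 : 0 ≤ L := hL ▸ by positivity
  refine ⟨(n : ℝ) * 3 ^ n + 2 ^ n * L + 1, by positivity, fun P β hP => ?_⟩
  have hP0 : (1 : ℝ) ≤ P := by exact_mod_cast hP
  have hscale : (P : ℂ) ^ n * sysFormIntegral F (((P : ℝ) ^ (m + 2)) • β) =
      ∫ y in symBox n P, eAdd (sysPhase F β y) := by
    have h := setIntegral_symBox_smul (fun y => eAdd (sysPhase F β y))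
      (show (0 : ℝ) < P by linarith) 1
    rw [mul_one] at h
    rw [← h, sysFormIntegral, Complex.ofReal_natCast]
    congr 1
    refine setIntegral_congr_fun measurableSet_Icc fun y _ => congrArg _ ?_
    simp only [sysPhase, Pi.smul_apply, smul_eq_mul]
    exact sum_congr rfl fun i _ => by rw [aeval_smul (F i) (hF i)]; ring
  rw [hscale, sysSum_eq]
  refine (norm_cube_sum_sub_integral_le (fun y => eAdd (sysPhase F β y))
    (continuous_eAdd.comp (continuous_sysPhase F β)) hP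
    (K := L * (‖β‖ * (P : ℝ) ^ (m + 1))) (B := 1) (fun x y hx hy hxy => ?_)
    fun x => (norm_eAdd _).le).trans ?_
  · refine (norm_eAdd_sub_le _ _).trans ?_
    refine (mul_le_mul_of_nonneg_left (abs_sysPhase_sub_le F (d := m + 1) hF β x y
      (by linarith : (0 : ℝ) < P) (mem_symBox.1 hx) (mem_symBox.1 hy) hxy)
      (by positivity)).trans (le_of_eq ?_)
    rw [hL]; push_cast; ring
  have hPn : (P : ℝ) ^ n ≤ (P : ℝ) ^ (n - 1) * P := by
    rw [← pow_succ]; exact pow_le_pow_right₀ hP0 (by omega)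
  have h0 : 0 ≤ (P : ℝ) ^ (m + 2) * ‖β‖ := by positivity
  have h1 : 0 ≤ (P : ℝ) ^ (n - 1) := by positivity
  have e : 2 ^ n * (P : ℝ) ^ n * (L * (‖β‖ * (P : ℝ) ^ (m + 1))) ≤
      2 ^ n * L * (P : ℝ) ^ (n - 1) * ((P : ℝ) ^ (m + 2) * ‖β‖) :=
    (mul_le_mul_of_nonneg_right (mul_le_mul_of_nonneg_left hPn (by positivity))
      (by positivity)).trans_eq (by ring)
  rw [mul_one]
  nlinarith [e, mul_nonneg (mul_nonneg (show (0 : ℝ) ≤ n * 3 ^ n + 1 by positivity) h1) h0,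
    mul_nonneg (show (0 : ℝ) ≤ 2 ^ n * L + 1 by positivity) h1]

end FA.FormSystems
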