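import Fermat.Agent.FormSystems.Series
import Mathlib.Analysis.SpecialFunctions.JapaneseBracket

/-!
# The singular integral of a system

The integral of `e (γ · F)` over the cube is `O ((1 + ‖γ‖) ^ (- r - 1))`, so that
`J (c) = ∫ I (γ) e (- γ · c)` over `ℝ ^ r` converges absolutely, with tails `O (T ^ (- 1 / 2))`.
-/

set_option autoImplicit false

noncomputable section

namespace FA.FormSystems

open Finset FA.ThreePrimes FA.WaringAsymptotic FA.CubicForms FA.FormsManyVariables MvPolynomial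
  MeasureTheory
open scoped Real ComplexConjugate

variable {n r : ℕ} (F : Fin r → MvPolynomial (Fin n) ℤ)

/-- `I (γ) e (- γ · c)`. -/
def sysTwistedIntegral (c γ : Fin r → ℝ) : ℂ :=
  sysFormIntegral F γ * eAdd (-∑ i, γ i * c i)

/-- The singular integral of `F i x = ν i`, at `c = ν / P ^ d`. -/
def sysRepIntegral (c : Fin r → ℝ) : ℝ := (∫ γ, sysTwistedIntegral F c γ).re

theorem volume_symBox_lt_top (k : ℕ) (T : ℝ) : volume (symBox k T) < ⊤ :=
  isCompact_Icc.measure_lt_top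

theorem volume_real_symBox_one : volume.real (symBox n 1) = 2 ^ n := by
  rw [symBox, Measure.real, Real.volume_Icc_pi_toReal fun _ => by norm_num]
  simp [show (1 : ℝ) - -1 = 2 by norm_num]

theorem norm_sysFormIntegral_le (γ : Fin r → ℝ) : ‖sysFormIntegral F γ‖ ≤ 2 ^ n := by
  refine (norm_setIntegral_le_of_norm_le_const (C := 1) (volume_symBox_lt_top n 1)
    fun y _ => (norm_eAdd _).le).trans ?_
  rw [one_mul, volume_real_symBox_one]

theorem integrableOn_eAdd_sysPhase (γ : Fin r → ℝ) (T : ℝ) :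
    IntegrableOn (fun y => eAdd (sysPhase F γ y)) (symBox n T) :=
  (continuous_eAdd.comp (continuous_sysPhase F γ)).continuousOn.integrableOn_compact isCompact_Icc

theorem norm_sysFormIntegral_sub_le {d : ℕ} (hF : ∀ i, (F i).IsHomogeneous d)
    (γ δ : Fin r → ℝ) :
    ‖sysFormIntegral F γ - sysFormIntegral F δ‖ ≤ 2 * π * sysSize F * 2 ^ n * ‖γ - δ‖ := by
  rw [sysFormIntegral, sysFormIntegral,
    ← integral_sub (integrableOn_eAdd_sysPhase F γ 1) (integrableOn_eAdd_sysPhase F δ 1)]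
  refine (norm_setIntegral_le_of_norm_le_const (C := 2 * π * (‖γ - δ‖ * sysSize F))
    (volume_symBox_lt_top n 1) fun y hy => ?_).trans (le_of_eq ?_)
  · refine (norm_eAdd_sub_le _ _).trans ?_
    rw [sysPhase_sub]
    have h := abs_sysPhase_le F hF (γ - δ) (mem_symBox.1 hy)
    rw [one_pow, mul_one] at h
    exact mul_le_mul_of_nonneg_left h (by positivity)
  · rw [volume_real_symBox_one]; ring

theorem sysFormIntegral_neg (γ : Fin r → ℝ) :
    sysFormIntegral F (-γ) = conj (sysFormIntegral F γ) := by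
  rw [sysFormIntegral, sysFormIntegral, ← integral_conj]
  simp [sysPhase, conj_eAdd]

theorem norm_sysTwistedIntegral (c γ : Fin r → ℝ) :
    ‖sysTwistedIntegral F c γ‖ = ‖sysFormIntegral F γ‖ := by
  rw [sysTwistedIntegral, norm_mul, norm_eAdd, mul_one]

theorem norm_sysTwistedIntegral_sub_le {d : ℕ} (hF : ∀ i, (F i).IsHomogeneous d) {B : ℝ}
    {c : Fin r → ℝ} (hc : ‖c‖ ≤ B) (γ δ : Fin r → ℝ) :
    ‖sysTwistedIntegral F c γ - sysTwistedIntegral F c δ‖ ≤
      2 * π * ((sysSize F : ℝ) + r * B) * 2 ^ n * ‖γ - δ‖ := by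
  rw [sysTwistedIntegral, sysTwistedIntegral, show sysFormIntegral F γ * eAdd (-∑ i, γ i * c i) -
      sysFormIntegral F δ * eAdd (-∑ i, δ i * c i) =
        (sysFormIntegral F γ - sysFormIntegral F δ) * eAdd (-∑ i, γ i * c i) +
          sysFormIntegral F δ * (eAdd (-∑ i, γ i * c i) - eAdd (-∑ i, δ i * c i)) by ring]
  refine (norm_add_le _ _).trans ?_
  rw [norm_mul, norm_eAdd, mul_one, norm_mul]
  have h : |(-∑ i, γ i * c i) - (-∑ i, δ i * c i)| ≤ r * (‖γ - δ‖ * B) := by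
    rw [neg_sub_neg, ← sum_sub_distrib]
    refine (abs_sum_le_sum_abs _ _).trans ((sum_le_card_nsmul _ _ (‖γ - δ‖ * B) fun i _ => ?_).trans
      (le_of_eq (by simp)))
    rw [← sub_mul, abs_mul, abs_sub_comm]
    exact mul_le_mul (abs_le_pi_norm (γ - δ) i) ((abs_le_pi_norm c i).trans hc) (abs_nonneg _)
      (norm_nonneg _)
  refine (add_le_add (norm_sysFormIntegral_sub_le F hF γ δ) (mul_le_mul
    (norm_sysFormIntegral_le F δ) ((norm_eAdd_sub_le _ _).trans
      (mul_le_mul_of_nonneg_left h (by positivity))) (norm_nonneg _) (by positivity))).trans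
    (le_of_eq ?_)
  ring

theorem continuous_sysFormIntegral {d : ℕ} (hF : ∀ i, (F i).IsHomogeneous d) :
    Continuous (sysFormIntegral F) := by
  refine (LipschitzWith.of_dist_le' (K := 2 * π * sysSize F * 2 ^ n) fun γ δ => ?_).continuous
  rw [dist_eq_norm, dist_eq_norm]
  exact norm_sysFormIntegral_sub_le F hF γ δ

theorem continuous_sysTwistedIntegral {d : ℕ} (hF : ∀ i, (F i).IsHomogeneous d) (c : Fin r → ℝ) :
    Continuous (sysTwistedIntegral F c) :=
  (continuous_sysFormIntegral F hF).mul (continuous_eAdd.comp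
    (continuous_finsetSum univ fun i _ => (continuous_apply i).mul continuous_const).neg)

/-- **Decay of an integral approximated by bounded sums.** -/
theorem exists_decay_of_sums {m s : ℕ} (hr : 0 < r) (hF : ∀ i, (F i).IsHomogeneous (m + 2))
    (hs : SystemSingularDimLE F s) (hn : s + r * (r + 1) * (m + 1) * 2 ^ (m + 1) < n)
    (I : (Fin r → ℝ) → ℂ) (S : ℕ → (Fin r → ℝ) → ℂ) (hI : ∀ γ, ‖I γ‖ ≤ 2 ^ n)
    (hS : ∀ P β, 1 ≤ P → SysWeylBound F m P β (S P β)) {C₁ : ℝ} (hC₁ : 0 < C₁)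
    (happ : ∀ (P : ℕ) (β : Fin r → ℝ), 1 ≤ P →
      ‖S P β - (P : ℂ) ^ n * I (((P : ℝ) ^ (m + 2)) • β)‖ ≤
        C₁ * (P : ℝ) ^ (n - 1) * (1 + (P : ℝ) ^ (m + 2) * ‖β‖)) :
    ∃ C : ℝ, 0 < C ∧ ∀ γ : Fin r → ℝ, ‖I γ‖ * (1 + ‖γ‖) ^ (r + 1) ≤ C := by
  obtain ⟨C₂, hC₂, hpoint⟩ := exists_weylBound_pointwise F hr hF hs hn
  have he := sysSaving_pos hr m
  have he1 := sysSaving_le_one hr m
  have hn1 : 1 ≤ n := by omega
  obtain ⟨L₀, hL₀, hlog⟩ :=
    exists_log_le (δ := sysSaving r m / (((r : ℝ) + 4) * n)) (by positivity)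
  refine ⟨2 ^ n * 3 ^ (r + 1) + 2 ^ (r + 1) * (2 * C₂ * L₀ ^ n + 2 * C₁), by positivity,
    fun γ => ?_⟩
  obtain ⟨g, hg⟩ : ∃ g, g = ‖γ‖ := ⟨_, rfl⟩
  rw [← hg]
  have hg0 : 0 ≤ g := hg ▸ norm_nonneg γ
  rcases lt_or_ge g 2 with hsmall | hbig
  · have h2 := mul_le_mul (hI γ)
      (pow_le_pow_left₀ (by linarith) (by linarith : 1 + g ≤ 3) (r + 1))
      (by positivity) (by positivity)
    have h3 : 0 ≤ 2 ^ (r + 1) * (2 * C₂ * L₀ ^ n + 2 * C₁) := by positivity
    linarith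
  have hgpos : 0 < g := by linarith
  obtain ⟨P, hP⟩ : ∃ P, P = ⌈g ^ (r + 4)⌉₊ := ⟨_, rfl⟩
  have hg1 : (1 : ℝ) ≤ g ^ (r + 4) := one_le_pow₀ (by linarith)
  have hPle : g ^ (r + 4) ≤ P := hP ▸ Nat.le_ceil _
  have hPge : (P : ℝ) ≤ 2 * g ^ (r + 4) := by
    have := Nat.ceil_lt_add_one (show 0 ≤ g ^ (r + 4) by positivity)
    rw [← hP] at this
    linarith
  have hP0 : (1 : ℝ) ≤ P := by linarith
  have hP1 : 1 ≤ P := by exact_mod_cast hP0
  obtain ⟨β, hβ⟩ : ∃ β, β = (((P : ℝ) ^ (m + 2))⁻¹) • γ := ⟨_, rfl⟩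
  have hPd : (0 : ℝ) < (P : ℝ) ^ (m + 2) := by positivity
  have hβγ : ((P : ℝ) ^ (m + 2)) • β = γ := by
    rw [hβ, smul_smul, mul_inv_cancel₀ hPd.ne', one_smul]
  have hβa : (P : ℝ) ^ (m + 2) * ‖β‖ = g := by
    rw [hg, ← hβγ, norm_smul, Real.norm_eq_abs, abs_of_pos hPd]
  have h1 := hpoint P 1 (fun _ => 0) β g (S P β) hP1 le_rfl (fun k hk _ => Nat.dvd_one.1 hk) (by
    rw [Nat.cast_one, one_mul, hβa, max_eq_right (by linarith)]) (by
    have h2 : g ^ 2 ≤ g ^ (r + 4) := pow_le_pow_right₀ (by linarith) (by omega)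
    exact (h2.trans hPle).trans (le_self_pow₀ hP0 (by omega))) (by simpa using hS P β hP1)
  have h2 := happ P β hP1
  rw [hβγ, hβa, norm_sub_rev] at h2
  have h3 := (norm_sub_norm_le _ _).trans h2
  rw [norm_mul, norm_pow, Complex.norm_natCast] at h3
  obtain ⟨N, hN⟩ : ∃ N, N = ‖I γ‖ := ⟨_, rfl⟩
  rw [← hN] at h3 ⊢
  have hSb : ‖S P β‖ * g ^ (r + 1) ≤ 2 * C₂ * L₀ ^ n * (P : ℝ) ^ n := by
    refine le_of_mul_le_mul_right ?_ (Real.rpow_pos_of_pos hgpos (sysSaving r m))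
    have hL : (1 + Real.log P) ^ n ≤ L₀ ^ n * (2 * g ^ sysSaving r m) := by
      refine (pow_le_pow_left₀ (by linarith [Real.log_nonneg hP0]) (hlog _ hP0) n).trans ?_
      rw [mul_pow]
      refine mul_le_mul_of_nonneg_left ?_ (by positivity)
      rw [← Real.rpow_natCast (_ ^ _) n, ← Real.rpow_mul (by linarith),
        show sysSaving r m / (((r : ℝ) + 4) * n) * n = sysSaving r m / ((r : ℝ) + 4) by field_simp]
      refine (Real.rpow_le_rpow (by linarith) hPge (by positivity)).trans ?_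
      rw [Real.mul_rpow two_pos.le (by positivity), ← Real.rpow_natCast g (r + 4),
        ← Real.rpow_mul hg0, show ((r + 4 : ℕ) : ℝ) * (sysSaving r m / ((r : ℝ) + 4)) =
          sysSaving r m by push_cast; field_simp]
      refine mul_le_mul_of_nonneg_right ?_ (by positivity)
      refine (Real.rpow_le_rpow_of_exponent_le one_le_two ?_).trans (Real.rpow_one 2).le
      rw [div_le_one (by positivity)]
      linarith [(Nat.cast_nonneg r : (0 : ℝ) ≤ r)]
    rw [mul_assoc, show g ^ (r + 1) * g ^ sysSaving r m = g ^ ((r : ℝ) + 1 + sysSaving r m) by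
      rw [Real.rpow_add hgpos, ← Nat.cast_add_one, Real.rpow_natCast]]
    exact h1.trans ((mul_le_mul_of_nonneg_right (mul_le_mul_of_nonneg_left hL hC₂.le)
      (by positivity)).trans (le_of_eq (by ring)))
  have hE : C₁ * (P : ℝ) ^ (n - 1) * (1 + g) * g ^ (r + 1) ≤ 2 * C₁ * (P : ℝ) ^ n := by
    rw [show (P : ℝ) ^ n = (P : ℝ) ^ (n - 1) * P by rw [← pow_succ, Nat.sub_add_cancel hn1]]
    have : (1 + g) * g ^ (r + 1) ≤ 2 * (P : ℝ) := by
      calc (1 + g) * g ^ (r + 1) ≤ (2 * g ^ 3) * g ^ (r + 1) := by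
            gcongr; nlinarith [le_self_pow₀ (show 1 ≤ g by linarith) (show 3 ≠ 0 by norm_num)]
        _ = 2 * g ^ (r + 4) := by ring
        _ ≤ _ := by linarith
    calc C₁ * (P : ℝ) ^ (n - 1) * (1 + g) * g ^ (r + 1)
        = C₁ * (P : ℝ) ^ (n - 1) * ((1 + g) * g ^ (r + 1)) := by ring
      _ ≤ C₁ * (P : ℝ) ^ (n - 1) * (2 * P) := by gcongr
      _ = _ := by ring
  have hmain : N * g ^ (r + 1) ≤ 2 * C₂ * L₀ ^ n + 2 * C₁ := by
    refine le_of_mul_le_mul_left ?_ (by positivity : (0 : ℝ) < (P : ℝ) ^ n)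
    have h4 := mul_le_mul_of_nonneg_right h3 (pow_nonneg hg0 (r + 1))
    linarith
  have hN0 : 0 ≤ N := hN ▸ norm_nonneg _
  have h5 : N * (1 + g) ^ (r + 1) ≤ 2 ^ (r + 1) * (N * g ^ (r + 1)) := by
    rw [mul_left_comm, ← mul_pow]
    gcongr
    linarith
  have h6 := h5.trans (mul_le_mul_of_nonneg_left hmain (by positivity))
  have h7 : (0 : ℝ) ≤ 2 ^ n * 3 ^ (r + 1) := by positivity
  linarith

/-- **The decay of the integral.** -/
theorem exists_sysFormIntegral_le {m s : ℕ} (hr : 0 < r) (hF : ∀ i, (F i).IsHomogeneous (m + 2))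
    (hs : SystemSingularDimLE F s) (hn : s + r * (r + 1) * (m + 1) * 2 ^ (m + 1) < n) :
    ∃ C : ℝ, 0 < C ∧ ∀ γ : Fin r → ℝ,
      ‖sysFormIntegral F γ‖ * (1 + ‖γ‖) ^ (r + 1) ≤ C :=
  let ⟨_, hC₁, happ⟩ := exists_sys_sum_integral F hF
  exists_decay_of_sums F hr hF hs hn _ (sysSum F) (norm_sysFormIntegral_le F)
    (fun _ β hP => sysWeylBound_sysSum F (fun i => (hF i).totalDegree_le) hP β) hC₁ happ

theorem integrable_of_decay {I : (Fin r → ℝ) → ℂ} (hcont : Continuous I) {C : ℝ}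
    (hdec : ∀ γ, ‖I γ‖ * (1 + ‖γ‖) ^ (r + 1) ≤ C) : Integrable I := by
  have hint : Integrable (fun γ : Fin r → ℝ => (1 + ‖γ‖) ^ (-((r : ℝ) + 1))) :=
    integrable_one_add_norm (by simp)
  refine (hint.const_mul C).mono' hcont.aestronglyMeasurable
    (Filter.Eventually.of_forall fun γ => ?_)
  rw [Real.rpow_neg (by positivity), ← Nat.cast_add_one, Real.rpow_natCast, ← div_eq_mul_inv,
    le_div_iff₀ (by positivity)]
  exact hdec γ

theorem integrable_sysFormIntegral {m s : ℕ} (hr : 0 < r) (hF : ∀ i, (F i).IsHomogeneous (m + 2))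
    (hs : SystemSingularDimLE F s) (hn : s + r * (r + 1) * (m + 1) * 2 ^ (m + 1) < n) :
    Integrable (sysFormIntegral F) :=
  let ⟨_, _, hdec⟩ := exists_sysFormIntegral_le F hr hF hs hn
  integrable_of_decay (continuous_sysFormIntegral F hF) hdec

theorem integrable_sysTwistedIntegral {m s : ℕ} (hr : 0 < r)
    (hF : ∀ i, (F i).IsHomogeneous (m + 2)) (hs : SystemSingularDimLE F s)
    (hn : s + r * (r + 1) * (m + 1) * 2 ^ (m + 1) < n) (c : Fin r → ℝ) :
    Integrable (sysTwistedIntegral F c) :=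
  (integrable_sysFormIntegral F hr hF hs hn).norm.mono'
    (continuous_sysTwistedIntegral F hF c).aestronglyMeasurable
    (Filter.Eventually.of_forall fun γ => (norm_sysTwistedIntegral F c γ).le)

theorem integral_sysTwistedIntegral_eq (c : Fin r → ℝ) :
    ∫ γ, sysTwistedIntegral F c γ = (sysRepIntegral F c : ℂ) := by
  refine Complex.ext (by rw [sysRepIntegral, Complex.ofReal_re]) ?_
  rw [Complex.ofReal_im]
  refine Complex.conj_eq_iff_im.1 ?_
  rw [← integral_conj]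
  refine Eq.trans (integral_congr_ae (Filter.Eventually.of_forall fun γ => ?_))
    (integral_neg_eq_self (sysTwistedIntegral F c) volume)
  simp only [sysTwistedIntegral, map_mul, ← sysFormIntegral_neg, conj_eAdd, Pi.neg_apply, neg_mul,
    sum_neg_distrib]

/-- **The tail of a decaying integral.** -/
theorem exists_tail_of_decay {C : ℝ} (hC : 0 < C) :
    ∃ C' : ℝ, 0 < C' ∧ ∀ I : (Fin r → ℝ) → ℂ, Continuous I →
      (∀ γ, ‖I γ‖ * (1 + ‖γ‖) ^ (r + 1) ≤ C) → ∀ (W : ℕ) (T : ℝ), 1 ≤ W → (W : ℝ) ≤ T →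
      ‖(∫ γ in symBox r T, I γ) - ∫ γ, I γ‖ ≤ C' * (W : ℝ) ^ (-(1 / 2) : ℝ) := by
  obtain ⟨g, hg⟩ : ∃ g : (Fin r → ℝ) → ℝ, g = fun γ => (1 + ‖γ‖) ^ (-((r : ℝ) + 1 / 2)) :=
    ⟨_, rfl⟩
  have hint : Integrable g := by
    rw [hg]
    exact integrable_one_add_norm (by simp)
  have hg0 : ∀ γ, 0 ≤ g γ := fun γ => by rw [hg]; positivity
  refine ⟨C * ((∫ γ, g γ) + 1), by
    have : 0 ≤ ∫ γ, g γ := integral_nonneg hg0
    positivity, fun I hcont hdec W T hW hT => ?_⟩
  have hW0 : (1 : ℝ) ≤ W := by exact_mod_cast hW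
  rw [← integral_add_compl (s := symBox r T) measurableSet_Icc
      (integrable_of_decay hcont hdec), sub_add_cancel_left, norm_neg]
  have hb : ∀ γ ∈ (symBox r T)ᶜ, ‖I γ‖ ≤
      C * (W : ℝ) ^ (-(1 / 2) : ℝ) * g γ := by
    intro γ hγ
    have hT' : (W : ℝ) ≤ 1 + ‖γ‖ := by
      rw [Set.mem_compl_iff, mem_symBox, not_forall] at hγ
      obtain ⟨i, hi⟩ := hγ
      have := abs_le_pi_norm γ i
      linarith
    have hpos : (0 : ℝ) < 1 + ‖γ‖ := by positivity
    rw [hg]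
    have h := hdec γ
    rw [← le_div_iff₀ (by positivity)] at h
    refine h.trans ?_
    rw [div_eq_mul_inv, ← Real.rpow_natCast, ← Real.rpow_neg hpos.le, mul_assoc]
    refine mul_le_mul_of_nonneg_left ?_ hC.le
    rw [show -(((r + 1 : ℕ) : ℝ)) = -(1 / 2) + -((r : ℝ) + 1 / 2) by push_cast; ring,
      Real.rpow_add hpos]
    exact mul_le_mul_of_nonneg_right
      (Real.rpow_le_rpow_of_nonpos (by linarith) hT' (by norm_num)) (by positivity)
  refine (norm_integral_le_of_norm_le (hint.const_mul _).integrableOn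
    ((ae_restrict_iff' measurableSet_Icc.compl).2 (Filter.Eventually.of_forall hb))).trans ?_
  rw [integral_const_mul, mul_right_comm]
  refine mul_le_mul_of_nonneg_right (mul_le_mul_of_nonneg_left ?_ hC.le) (by positivity)
  exact (setIntegral_le_integral hint (Filter.Eventually.of_forall hg0)).trans
    (le_add_of_nonneg_right zero_le_one)

/-- **The tail of the integral.** -/
theorem exists_sys_integral_tail {m s : ℕ} (hr : 0 < r) (hF : ∀ i, (F i).IsHomogeneous (m + 2))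
    (hs : SystemSingularDimLE F s) (hn : s + r * (r + 1) * (m + 1) * 2 ^ (m + 1) < n) :
    ∃ C : ℝ, 0 < C ∧ ∀ (c : Fin r → ℝ) (W : ℕ) (T : ℝ), 1 ≤ W → (W : ℝ) ≤ T →
      ‖(∫ γ in symBox r T, sysTwistedIntegral F c γ) - (sysRepIntegral F c : ℂ)‖ ≤
        C * (W : ℝ) ^ (-(1 / 2) : ℝ) := by
  obtain ⟨C, hC, hdec⟩ := exists_sysFormIntegral_le F hr hF hs hn
  obtain ⟨C', hC', h⟩ := exists_tail_of_decay (r := r) hC
  refine ⟨C', hC', fun c W T hW hT => ?_⟩
  rw [← integral_sysTwistedIntegral_eq]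
  exact h _ (continuous_sysTwistedIntegral F hF c)
    (fun γ => (norm_sysTwistedIntegral F c γ).symm ▸ hdec γ) W T hW hT

end FA.FormSystems
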