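import Fermat.Agent.FormsManyVariables.Local
import Fermat.Agent.FormSystems.Fibre

/-!
# Nonsingular `p`-adic zeros of a system

At a common zero with a nonzero `r × r` minor of the Jacobian, of valuation `e`, Newton's iteration
lifts every translate of the other coordinates by multiples of `p ^ (2 e + 1)`: so there are
`≫ p ^ (J (n - r))` common zeros modulo `p ^ J`.
-/

set_option autoImplicit false

noncomputable section

namespace FA.FormSystems

open Finset MvPolynomial FA.FormsManyVariables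

variable {n r : ℕ}

/-- The number of common zeros modulo `q`. -/
def sysZeroCount (F : Fin r → MvPolynomial (Fin n) ℤ) (q : ℕ) : ℕ :=
  Nat.card {x : Fin n → ZMod q // ∀ i, aeval x (F i) = 0}

theorem taylor_dvd (G : MvPolynomial (Fin n) ℤ) {R : Type*} [CommRing R] (c : R)
    (y t : Fin n → R) :
    c ^ 2 ∣ aeval (y + c • t) G - aeval y G - c * ∑ j, t j * aeval y (pderiv j G) := by
  induction G using MvPolynomial.induction_on with
  | C a => simp
  | add p q hp hq =>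
    refine (dvd_add hp hq).trans (dvd_of_eq ?_)
    simp only [map_add, mul_add, sum_add_distrib]
    ring
  | mul_X p i hp =>
    obtain ⟨w, hw⟩ := hp
    refine ⟨w * (y i + c * t i) + (∑ j, t j * aeval y (pderiv j p)) * t i, ?_⟩
    have e : ∑ j, t j * aeval y (pderiv j (p * X i)) =
        (∑ j, t j * aeval y (pderiv j p)) * y i + t i * aeval y p := by
      rw [sum_mul]
      simp only [pderiv_mul, map_add, map_mul, aeval_X, mul_add, sum_add_distrib]
      congr 1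
      · exact sum_congr rfl fun j _ => by ring
      · rw [sum_eq_single i (fun j _ hj => by simp [pderiv_X_of_ne (Ne.symm hj)])
          fun h => absurd (mem_univ _) h, pderiv_X_self, map_one, mul_one]
    rw [e, map_mul, map_mul, aeval_X, aeval_X, Pi.add_apply, Pi.smul_apply, smul_eq_mul]
    rw [show aeval (y + c • t) p = aeval y p + c * ∑ j, t j * aeval y (pderiv j p) + c ^ 2 * w by
      linear_combination hw]
    ring

theorem aeval_sub_dvd (G : MvPolynomial (Fin n) ℤ) {R : Type*} [CommRing R] (c : R)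
    (y t : Fin n → R) : c ∣ aeval (y + c • t) G - aeval y G := by
  have h := (dvd_pow_self c two_ne_zero).trans (taylor_dvd G c y t)
  simpa using dvd_add h (dvd_mul_right c (∑ j, t j * aeval y (pderiv j G)))

variable (F : Fin r → MvPolynomial (Fin n) ℤ)

/-- The minor of the Jacobian at the columns `f`. -/
def jacMinor {R : Type*} [CommRing R] (f : Fin r → Fin n) (y : Fin n → R) : R :=
  (Matrix.of fun i a => aeval y (pderiv (f a) (F i))).det

theorem jacMinor_map {R S : Type*} [CommRing R] [CommRing S] (g : R →+* S) (f : Fin r → Fin n)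
    (y : Fin n → R) : jacMinor F f (fun l => g (y l)) = g (jacMinor F f y) := by
  rw [jacMinor, jacMinor, g.map_det]
  congr 1
  ext i a
  exact aeval_ringHom _ g y

theorem jacMinor_injective {R : Type*} [CommRing R] {f : Fin r → Fin n} {y : Fin n → R}
    (h : jacMinor F f y ≠ 0) : Function.Injective f := fun a b e => by
  by_contra hab
  exact h (Matrix.det_zero_of_column_eq hab fun i => by simp [e])

theorem jacMinor_sub_dvd {R : Type*} [CommRing R] (f : Fin r → Fin n) (c : R)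
    (y t : Fin n → R) : c ∣ jacMinor F f (y + c • t) - jacMinor F f y := by
  obtain ⟨G, hG⟩ : ∃ G : MvPolynomial (Fin n) ℤ,
      G = (Matrix.of fun i a => pderiv (f a) (F i)).det := ⟨_, rfl⟩
  have e : ∀ z : Fin n → R, jacMinor F f z = aeval z G := fun z => by
    rw [hG, jacMinor, ← AlgHom.coe_toRingHom, RingHom.map_det]
    rfl
  rw [e, e]
  exact aeval_sub_dvd G c y t

theorem isUnit_add_p_mul {p : ℕ} [hp : Fact p.Prime] (u : ℤ_[p]ˣ) (c : ℤ_[p]) :
    IsUnit (↑u + (p : ℤ_[p]) * c) := by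
  rw [PadicInt.isUnit_iff]
  have h1 : ‖(u : ℤ_[p])‖ = 1 := PadicInt.isUnit_iff.1 u.isUnit
  have h2 : ‖(p : ℤ_[p]) * c‖ < 1 := by
    rw [norm_mul, PadicInt.norm_p]
    exact mul_lt_one_of_nonneg_of_lt_one_left (by positivity)
      (inv_lt_one_of_one_lt₀ (by exact_mod_cast hp.out.one_lt)) (PadicInt.norm_le_one c)
  rw [PadicInt.norm_add_eq_max_of_ne (by rw [h1]; exact ne_of_gt h2), h1, max_eq_left h2.le]

/-- **One step of Newton's iteration.** -/
theorem exists_newton_step {p : ℕ} [Fact p.Prime] {f : Fin r → Fin n}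
    {e k : ℕ} (hk : 1 ≤ k) {y : Fin n → ℤ_[p]} {u : ℤ_[p]ˣ}
    (hy : jacMinor F f y = (p : ℤ_[p]) ^ e * u)
    (hF : ∀ i, (p : ℤ_[p]) ^ (2 * e + k) ∣ aeval y (F i)) :
    ∃ y' : Fin n → ℤ_[p], (∀ l, (∀ a, f a ≠ l) → y' l = y l) ∧
      (∀ l, (p : ℤ_[p]) ^ (e + 1) ∣ y' l - y l) ∧
      (∀ i, (p : ℤ_[p]) ^ (2 * e + (k + 1)) ∣ aeval y' (F i)) ∧
      ∃ u' : ℤ_[p]ˣ, jacMinor F f y' = (p : ℤ_[p]) ^ e * u' := by
  classical
  choose g hg using hF
  obtain ⟨A, hA⟩ : ∃ A : Matrix (Fin r) (Fin r) ℤ_[p],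
      A = Matrix.of fun i a => aeval y (pderiv (f a) (F i)) := ⟨_, rfl⟩
  have hdet : A.det = (p : ℤ_[p]) ^ e * u := by rw [hA, ← hy]; rfl
  obtain ⟨s, hs⟩ : ∃ s : Fin r → ℤ_[p],
      s = fun a => -(↑u⁻¹ * A.adjugate.mulVec g a) := ⟨_, rfl⟩
  obtain ⟨t, ht⟩ : ∃ t : Fin n → ℤ_[p],
      t = fun l => ∑ a, if f a = l then s a else 0 := ⟨_, rfl⟩
  have hsum : ∀ i, ∑ l, t l * aeval y (pderiv l (F i)) = -((p : ℤ_[p]) ^ e * g i) := by
    intro i
    simp only [ht, sum_mul, ite_mul, zero_mul]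
    rw [sum_comm]
    simp only [sum_ite_eq, mem_univ, if_true]
    have h1 : ∀ a, s a * aeval y (pderiv (f a) (F i)) =
        -(↑u⁻¹ * (A i a * A.adjugate.mulVec g a)) := fun a => by
      rw [hs, hA, Matrix.of_apply]; ring
    rw [sum_congr rfl fun a _ => h1 a, sum_neg_distrib, ← mul_sum]
    have h2 : ∑ a, A i a * A.adjugate.mulVec g a = A.det * g i := by
      have := congrFun (Matrix.mulVec_mulVec g A A.adjugate) i
      rw [Matrix.mul_adjugate, Matrix.smul_mulVec, Matrix.one_mulVec] at this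
      simpa [Matrix.mulVec, dotProduct] using this
    rw [h2, hdet]
    congr 1
    calc ↑u⁻¹ * ((p : ℤ_[p]) ^ e * ↑u * g i) =
          (p : ℤ_[p]) ^ e * g i * ((↑u⁻¹ : ℤ_[p]) * ↑u) := by ring
      _ = _ := by rw [Units.inv_mul, mul_one]
  refine ⟨y + ((p : ℤ_[p]) ^ (e + k)) • t, fun l hl => ?_, fun l => ?_, fun i => ?_, ?_⟩
  · simp [ht, hl]
  · rw [Pi.add_apply, add_sub_cancel_left, Pi.smul_apply, smul_eq_mul]
    exact Dvd.dvd.mul_right (pow_dvd_pow _ (by omega)) _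
  · have h3 := taylor_dvd (F i) ((p : ℤ_[p]) ^ (e + k)) y t
    rw [hsum, hg, ← pow_mul] at h3
    have h4 := (pow_dvd_pow (p : ℤ_[p]) (by omega : 2 * e + (k + 1) ≤ (e + k) * 2)).trans h3
    refine h4.trans (dvd_of_eq ?_)
    ring
  · obtain ⟨c, hc⟩ := (pow_dvd_pow (p : ℤ_[p]) (show e + 1 ≤ e + k by omega)).trans
      (jacMinor_sub_dvd F f ((p : ℤ_[p]) ^ (e + k)) y t)
    have hu := isUnit_add_p_mul u c
    refine ⟨hu.unit, ?_⟩
    rw [IsUnit.unit_spec]
    linear_combination hc + hy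

/-- **Lifting** to any level. -/
theorem exists_newton_lift {p : ℕ} [Fact p.Prime] {f : Fin r → Fin n}
    {e : ℕ} {y : Fin n → ℤ_[p]} {u : ℤ_[p]ˣ} (hy : jacMinor F f y = (p : ℤ_[p]) ^ e * u)
    (hF : ∀ i, (p : ℤ_[p]) ^ (2 * e + 1) ∣ aeval y (F i)) (J : ℕ) :
    ∃ y' : Fin n → ℤ_[p], (∀ l, (∀ a, f a ≠ l) → y' l = y l) ∧
      ∀ i, (p : ℤ_[p]) ^ J ∣ aeval y' (F i) := by
  suffices h : ∀ k, ∃ y' : Fin n → ℤ_[p], (∀ l, (∀ a, f a ≠ l) → y' l = y l) ∧
      (∀ i, (p : ℤ_[p]) ^ (2 * e + (k + 1)) ∣ aeval y' (F i)) ∧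
      ∃ u' : ℤ_[p]ˣ, jacMinor F f y' = (p : ℤ_[p]) ^ e * u' by
    obtain ⟨y', h1, h2, -⟩ := h J
    exact ⟨y', h1, fun i => (pow_dvd_pow _ (by omega)).trans (h2 i)⟩
  intro k
  induction k with
  | zero => exact ⟨y, fun _ _ => rfl, hF, u, hy⟩
  | succ k ih =>
    obtain ⟨y', h1, h2, u', hu'⟩ := ih
    obtain ⟨z, hz1, -, hz3, hz4⟩ := exists_newton_step F (Nat.succ_pos k) hu' h2
    exact ⟨z, fun l hl => (hz1 l hl).trans (h1 l hl), hz3, hz4⟩

/-- **The zeros modulo prime powers** near a nonsingular zero. -/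
theorem exists_sysZeroCount_ge {p : ℕ} [hp : Fact p.Prime] {x : Fin n → ℤ_[p]}
    (hx : ∀ i, aeval x (F i) = 0) {f : Fin r → Fin n} (hdet : jacMinor F f x ≠ 0) :
    ∃ E : ℕ, ∀ J, (p ^ J) ^ (n - r) ≤ sysZeroCount F (p ^ J) * (p ^ E) ^ (n - r) := by
  classical
  obtain ⟨e, he⟩ : ∃ e : ℕ, e = (jacMinor F f x).valuation := ⟨_, rfl⟩
  obtain ⟨u, hu⟩ : ∃ u : ℤ_[p]ˣ, jacMinor F f x = (p : ℤ_[p]) ^ e * u :=
    ⟨PadicInt.unitCoeff hdet, by rw [he, mul_comm]; exact PadicInt.unitCoeff_spec hdet⟩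
  have hf := jacMinor_injective F hdet
  refine ⟨2 * e + 1, fun J => ?_⟩
  obtain ⟨E, hE⟩ : ∃ E, E = 2 * e + 1 := ⟨_, rfl⟩
  rw [← hE]
  have : NeZero (p ^ J) := ⟨pow_ne_zero _ hp.out.ne_zero⟩
  obtain ⟨Z, hZ⟩ : ∃ Z : Finset (Fin n → ZMod (p ^ J)),
      Z = univ.filter fun y => ∀ i, aeval y (F i) = 0 := ⟨_, rfl⟩
  have hcount : sysZeroCount F (p ^ J) = Z.card := by
    rw [sysZeroCount, Nat.card_eq_fintype_card, Fintype.card_subtype, hZ]
  rw [hcount]
  rcases Nat.lt_or_ge J E with hJ | hJ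
  · refine (Nat.pow_le_pow_left (Nat.pow_le_pow_right hp.out.pos hJ.le) _).trans
      (Nat.le_mul_of_pos_left _ ?_)
    refine card_pos.2 ⟨fun l => PadicInt.toZModPow J (x l), ?_⟩
    rw [hZ]
    exact mem_filter.2 ⟨mem_univ _, fun i => by rw [aeval_ringHom, hx i, map_zero]⟩
  obtain ⟨S, hS⟩ : ∃ S : Finset (Fin n), S = univ.image f := ⟨_, rfl⟩
  obtain ⟨U, hU⟩ : ∃ U : Finset (Fin n → ℕ), U = Fintype.piFinset fun l =>
      if l ∈ S then {0} else range (p ^ (J - E)) := ⟨_, rfl⟩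
  obtain ⟨y, hydef⟩ : ∃ y : (Fin n → ℕ) → Fin n → ℤ_[p],
      y = fun w => x + ((p : ℤ_[p]) ^ E) • fun l => (w l : ℤ_[p]) := ⟨_, rfl⟩
  have key : ∀ w, ∃ y' : Fin n → ℤ_[p], (∀ l, (∀ a, f a ≠ l) → y' l = y w l) ∧
      ∀ i, (p : ℤ_[p]) ^ J ∣ aeval y' (F i) := by
    intro w
    obtain ⟨c, hc⟩ := (pow_dvd_pow (p : ℤ_[p]) (show e + 1 ≤ E by omega)).trans
      (jacMinor_sub_dvd F f ((p : ℤ_[p]) ^ E) x fun l => (w l : ℤ_[p]))
    have hunit := isUnit_add_p_mul u c
    refine exists_newton_lift F (e := e) (u := hunit.unit) ?_ (fun i => ?_) J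
    · rw [IsUnit.unit_spec, hydef]
      linear_combination hc + hu
    · have := aeval_sub_dvd (F i) ((p : ℤ_[p]) ^ E) x fun l => (w l : ℤ_[p])
      rw [hx i, sub_zero] at this
      rw [hydef, ← hE]
      exact this
  choose Y hY1 hY2 using key
  obtain ⟨Ψ, hΨ⟩ : ∃ Ψ : (Fin n → ℕ) → Fin n → ZMod (p ^ J),
      Ψ = fun w l => PadicInt.toZModPow J (Y w l) := ⟨_, rfl⟩
  have hmaps : ∀ w ∈ U, Ψ w ∈ Z := fun w _ => by
    rw [hZ]
    refine mem_filter.2 ⟨mem_univ _, fun i => ?_⟩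
    rw [hΨ, aeval_ringHom, ← RingHom.mem_ker, PadicInt.ker_toZModPow, Ideal.mem_span_singleton]
    exact hY2 w i
  have hinj : Set.InjOn Ψ U := by
    intro w hw w' hw' eq
    rw [hU, mem_coe, Fintype.mem_piFinset] at hw hw'
    funext l
    have h1 := hw l
    have h2 := hw' l
    by_cases hl : l ∈ S
    · rw [if_pos hl, mem_singleton] at h1 h2
      rw [h1, h2]
    · rw [if_neg hl, mem_range] at h1 h2
      have hl' : ∀ a, f a ≠ l := fun a ha => hl (hS ▸ mem_image.2 ⟨a, mem_univ _, ha⟩)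
      have e' := congrFun eq l
      simp only [hΨ, hY1 _ l hl', hydef, Pi.add_apply, Pi.smul_apply, smul_eq_mul, map_add,
        map_mul, map_pow, map_natCast, add_right_inj] at e'
      rw [← Nat.cast_pow, ← Nat.cast_mul, ← Nat.cast_mul, ZMod.natCast_eq_natCast_iff'] at e'
      have hlt : ∀ v, v < p ^ (J - E) → p ^ E * v < p ^ J := fun v hv => by
        calc p ^ E * v < p ^ E * p ^ (J - E) :=
              Nat.mul_lt_mul_of_pos_left hv (pow_pos hp.out.pos _)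
          _ = p ^ J := by rw [← pow_add, Nat.add_sub_cancel' hJ]
      rw [Nat.mod_eq_of_lt (hlt _ h1), Nat.mod_eq_of_lt (hlt _ h2)] at e'
      exact Nat.eq_of_mul_eq_mul_left (pow_pos hp.out.pos _) e'
  refine le_trans (le_of_eq ?_) (Nat.mul_le_mul_right _ (card_le_card_of_injOn Ψ hmaps hinj))
  rw [hU, Fintype.card_piFinset, ← prod_mul_prod_compl S,
    prod_congr rfl fun l hl => by rw [if_pos hl, card_singleton], prod_const_one, one_mul,
    prod_congr rfl fun l hl => by rw [if_neg (mem_compl.1 hl), card_range], prod_const, card_compl,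
    Fintype.card_fin, hS, card_image_of_injective _ hf, card_univ, Fintype.card_fin, ← mul_pow,
    ← pow_add, Nat.sub_add_cancel hJ]

theorem ne_zero_of_independent {d : ℕ} (hr : 0 < r) (hd : 1 ≤ d)
    (hF : ∀ i, (F i).IsHomogeneous (d + 1)) {K : Type*} [Field K] {z : Fin n → K}
    (hli : LinearIndependent K fun i j => aeval z (pderiv j (F i))) : z ≠ 0 := fun h => by
  refine hli.ne_zero ⟨0, hr⟩ (funext fun j => ?_)
  have := aeval_smul (pderiv j (F ⟨0, hr⟩)) (isHomogeneous_pderiv _ (hF _) j) (0 : K) z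
  rw [zero_smul, zero_pow (by omega), zero_mul] at this
  rw [h, Pi.zero_apply]
  exact this

/-- **A nonsingular `p`-adic zero.** -/
theorem exists_sysZeroCount_ge_padic {m p : ℕ} [hp : Fact p.Prime] (hr : 0 < r)
    (hF : ∀ i, (F i).IsHomogeneous (m + 2)) {z : Fin n → ℚ_[p]}
    (hz : ∀ i, aeval z (F i) = 0)
    (hli : LinearIndependent ℚ_[p] fun i j => aeval z (pderiv j (F i))) :
    ∃ E : ℕ, ∀ J, (p ^ J) ^ (n - r) ≤ sysZeroCount F (p ^ J) * (p ^ E) ^ (n - r) := by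
  classical
  have hz0 := ne_zero_of_independent F hr (Nat.succ_pos m) hF hli
  obtain ⟨i₁, hi₁⟩ := Function.ne_iff.1 hz0
  obtain ⟨l, -, hmax⟩ := (univ : Finset (Fin n)).exists_max_image (fun i => ‖z i‖)
    ⟨i₁, mem_univ _⟩
  have hl : z l ≠ 0 := norm_pos_iff.1
    (lt_of_lt_of_le (norm_pos_iff.2 hi₁) (hmax i₁ (mem_univ _)))
  obtain ⟨x, hx⟩ : ∃ x : Fin n → ℤ_[p], ∀ i, (x i : ℚ_[p]) = z i / z l :=
    ⟨fun i => ⟨z i / z l, by
      rw [norm_div, div_le_one (norm_pos_iff.2 hl)]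
      exact hmax i (mem_univ i)⟩, fun i => rfl⟩
  have e : (fun i => PadicInt.Coe.ringHom (x i)) = (z l)⁻¹ • z := funext fun i => by
    show (x i : ℚ_[p]) = _
    rw [hx, Pi.smul_apply, smul_eq_mul, div_eq_inv_mul]
  obtain ⟨f, hf⟩ := exists_minor_ne_zero hli
  refine exists_sysZeroCount_ge F (x := x) (fun i => ?_) (f := f) fun h => hf ?_
  · have h := aeval_ringHom (F i) (PadicInt.Coe.ringHom (p := p)) x
    rw [e, aeval_smul (F i) (hF i), hz i, mul_zero] at h
    exact PadicInt.ext h.symm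
  · have h' := jacMinor_map F (PadicInt.Coe.ringHom (p := p)) f x
    rw [h, map_zero, e, jacMinor] at h'
    have e1 : (Matrix.of fun i a => aeval ((z l)⁻¹ • z) (pderiv (f a) (F i))) =
        ((z l)⁻¹ ^ (m + 1)) • Matrix.of fun i a => aeval z (pderiv (f a) (F i)) := by
      ext i a
      simp [aeval_smul _ (isHomogeneous_pderiv _ (hF i) (f a))]
    rw [e1, Matrix.det_smul] at h'
    exact (mul_eq_zero.1 h').resolve_left (pow_ne_zero _ (pow_ne_zero _ (inv_ne_zero hl)))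

end FA.FormSystems
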