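import Fermat.Agent.FormRepresentations.Density
import Fermat.Agent.FormSystems.Integral
import Fermat.Agent.FormSystems.Local
import Mathlib.Analysis.Calculus.InverseFunctionTheorem.FDeriv
import Mathlib.MeasureTheory.Measure.Hausdorff
import Mathlib.MeasureTheory.Integral.Pi

/-!
# The singular integral of a system is positive

Smoothed by Gaussians it is `ε ^ (- r)` times the integral of `exp (- π ∑ (F i / ε) ^ 2)` over the
cube. Near a nonsingular real zero the inverse function theorem gives `≫ ε ^ r` for the volume of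
`|F i| ≤ ε`, as Lipschitz maps increase volumes by a bounded factor.
-/

set_option autoImplicit false

noncomputable section

namespace FA.FormSystems

open Finset FA.ThreePrimes FA.CubicForms FA.FormsManyVariables MvPolynomial MeasureTheory Filter
  Topology
open scoped Real NNReal ENNReal

variable {n r : ℕ} (F : Fin r → MvPolynomial (Fin n) ℤ)

theorem hasStrictFDerivAt_aeval (G : MvPolynomial (Fin n) ℤ) (z : Fin n → ℝ) :
    HasStrictFDerivAt (fun y : Fin n → ℝ => aeval y G)
      (∑ l, aeval z (pderiv l G) •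
        ContinuousLinearMap.proj (R := ℝ) (φ := fun _ : Fin n => ℝ) l) z := by
  induction G using MvPolynomial.induction_on with
  | C a =>
    simp only [aeval_C, pderiv_C, map_zero, zero_smul, sum_const_zero]
    exact hasStrictFDerivAt_const _ _
  | add p q hp hq =>
    simp only [map_add, add_smul, sum_add_distrib]
    exact hp.add hq
  | mul_X p i hp =>
    simp only [map_mul, aeval_X]
    refine (hp.mul (hasStrictFDerivAt_apply i z)).congr_fderiv ?_
    refine ContinuousLinearMap.ext fun v => ?_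
    simp only [pderiv_mul, map_add, map_mul, aeval_X, add_smul, sum_add_distrib,
      _root_.add_apply, FunLike.coe_smul, Pi.smul_apply,
      FunLike.coe_sum, Finset.sum_apply, ContinuousLinearMap.proj_apply, smul_eq_mul]
    rw [sum_eq_single i (fun j _ hj => by simp [pderiv_X_of_ne (Ne.symm hj)])
      (fun h => absurd (mem_univ _) h) (f := fun j => aeval z p * aeval z (pderiv j (X i)) * v j),
      pderiv_X_self, map_one, mul_one, mul_sum, add_comm]
    exact congrArg₂ _ (sum_congr rfl fun j _ => by ring) rfl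

/-- The system completed by the other coordinates. -/
def completedMap (f : Fin r → Fin n) (y : Fin n → ℝ) : Fin n → ℝ :=
  fun l => (∑ a, if f a = l then aeval y (F a) else 0) + if ∃ a, f a = l then 0 else y l

theorem completedMap_apply {f : Fin r → Fin n} (hf : Function.Injective f) (y : Fin n → ℝ)
    (a : Fin r) : completedMap F f y (f a) = aeval y (F a) := by
  rw [completedMap, sum_eq_single a (fun b _ hb => if_neg fun e => hb (hf e))
    fun h => absurd (mem_univ _) h, if_pos rfl, if_pos ⟨a, rfl⟩, add_zero]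

theorem completedMap_apply_other {f : Fin r → Fin n} (y : Fin n → ℝ) {l : Fin n}
    (hl : ∀ a, f a ≠ l) : completedMap F f y l = y l := by
  rw [completedMap, sum_eq_zero fun a _ => if_neg (hl a), if_neg fun ⟨a, ha⟩ => hl a ha, zero_add]

theorem map_nhds_completedMap {f : Fin r → Fin n} (hf : Function.Injective f) {z : Fin n → ℝ}
    (hdet : jacMinor F f z ≠ 0) :
    Filter.map (completedMap F f) (𝓝 z) = 𝓝 (completedMap F f z) := by
  classical
  obtain ⟨D, hD⟩ : ∃ D : (Fin n → ℝ) →L[ℝ] (Fin n → ℝ), D = ContinuousLinearMap.pi fun l =>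
      (∑ a, if f a = l then ∑ j, aeval z (pderiv j (F a)) •
        ContinuousLinearMap.proj (R := ℝ) (φ := fun _ : Fin n => ℝ) j else 0) +
      if ∃ a, f a = l then 0 else ContinuousLinearMap.proj (R := ℝ) (φ := fun _ : Fin n => ℝ) l :=
    ⟨_, rfl⟩
  have hder : HasStrictFDerivAt (completedMap F f) D z := by
    rw [hD]
    refine hasStrictFDerivAt_pi.2 fun l => ?_
    refine (HasStrictFDerivAt.fun_sum fun a _ => ?_).add ?_
    · by_cases ha : f a = l
      · simp only [if_pos ha]
        exact hasStrictFDerivAt_aeval (F a) z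
      · simp only [if_neg ha]
        exact hasStrictFDerivAt_const _ _
    · by_cases hl : ∃ a, f a = l
      · simp only [if_pos hl]
        exact hasStrictFDerivAt_const _ _
      · simp only [if_neg hl]
        exact hasStrictFDerivAt_apply l z
  have hinj : Function.Injective D.toLinearMap := by
    rw [← LinearMap.ker_eq_bot, LinearMap.ker_eq_bot']
    intro v hv
    have hva : ∀ a, ∑ j, aeval z (pderiv j (F a)) * v j = 0 := fun a => by
      have h := congrFun hv (f a)
      simp only [hD, ContinuousLinearMap.coe_coe, ContinuousLinearMap.pi_apply,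
        FunLike.coe_sum, Finset.sum_apply,
        if_pos (⟨a, rfl⟩ : ∃ b, f b = f a), add_zero,
        Pi.zero_apply] at h
      rw [sum_eq_single a (fun b _ hb => by rw [if_neg fun e => hb (hf e)]; rfl)
        fun h => absurd (mem_univ _) h, if_pos rfl] at h
      simpa using h
    have hvl : ∀ l, (∀ a, f a ≠ l) → v l = 0 := fun l hl => by
      have h := congrFun hv l
      simpa [hD, hl] using h
    have hrange : ∀ a, ∑ b, (Matrix.of fun i c => aeval z (pderiv (f c) (F i))) a b * v (f b) =
        0 := fun a => by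
      refine Eq.trans ?_ (hva a)
      simp only [Matrix.of_apply]
      rw [← sum_image (s := univ) (g := f) (f := fun j => aeval z (pderiv j (F a)) * v j)
        fun b _ c _ e => hf e]
      exact sum_subset (subset_univ _) fun j _ hj => by
        rw [hvl j fun a e => hj (mem_image.2 ⟨a, mem_univ _, e⟩), mul_zero]
    have h0 := Matrix.eq_zero_of_mulVec_eq_zero (v := fun b => v (f b)) hdet (funext hrange)
    funext l
    by_cases hl : ∃ a, f a = l
    · obtain ⟨a, rfl⟩ := hl
      exact congrFun h0 a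
    · exact hvl l fun a e => hl ⟨a, e⟩
  obtain ⟨D', hD'⟩ : ∃ D' : (Fin n → ℝ) ≃L[ℝ] (Fin n → ℝ),
      (D' : (Fin n → ℝ) →L[ℝ] (Fin n → ℝ)) = D :=
    ⟨(LinearEquiv.ofInjectiveEndo D.toLinearMap hinj).toContinuousLinearEquiv,
      ContinuousLinearMap.ext fun v => rfl⟩
  rw [← hD'] at hder
  exact hder.map_nhds_eq_of_equiv

theorem exists_lipschitz_completedMap {m : ℕ} (hF : ∀ i, (F i).IsHomogeneous (m + 2))
    {f : Fin r → Fin n} (hf : Function.Injective f) :
    ∃ L : ℝ≥0, LipschitzOnWith L (completedMap F f) (symBox n 1) := by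
  refine ⟨Real.toNNReal (((m + 2 : ℕ) : ℝ) * sysSize F + 1),
    LipschitzOnWith.of_dist_le_mul fun x hx y hy => ?_⟩
  rw [Real.coe_toNNReal _ (by positivity), dist_eq_norm, dist_eq_norm]
  have hxy : ∀ l, |x l - y l| ≤ ‖x - y‖ := fun l => abs_le_pi_norm (x - y) l
  refine (pi_norm_le_iff_of_nonneg (by positivity)).2 fun l => ?_
  rw [Real.norm_eq_abs, Pi.sub_apply]
  by_cases hl : ∃ a, f a = l
  · obtain ⟨a, rfl⟩ := hl
    rw [completedMap_apply F hf, completedMap_apply F hf]
    refine (abs_aeval_sub_le (F a) (hF a) x y one_pos (mem_symBox.1 hx) (mem_symBox.1 hy) hxy).trans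
      ?_
    rw [one_pow, mul_one]
    refine mul_le_mul_of_nonneg_right (le_trans ?_ (le_add_of_nonneg_right zero_le_one))
      (norm_nonneg _)
    gcongr
    exact single_le_sum (f := fun i => formSize (F i)) (fun _ _ => Nat.zero_le _) (mem_univ a)
  · have hl' : ∀ a, f a ≠ l := fun a e => hl ⟨a, e⟩
    rw [completedMap_apply_other F x hl', completedMap_apply_other F y hl']
    exact (hxy l).trans (le_mul_of_one_le_left (norm_nonneg _)
      (le_add_of_nonneg_left (by positivity)))

/-- The points of the cube where all `|F i| ≤ ε`. -/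
def smallSet (ε : ℝ) : Set (Fin n → ℝ) := symBox n 1 ∩ {y | ∀ i, |aeval y (F i)| ≤ ε}

theorem measurableSet_forms_le (ε : ℝ) :
    MeasurableSet {y : Fin n → ℝ | ∀ i, |aeval y (F i)| ≤ ε} := by
  rw [Set.ofPred_forall]
  exact MeasurableSet.iInter fun i =>
    (isClosed_le (continuous_aeval_form (F i)).abs continuous_const).measurableSet

theorem measurableSet_smallSet (ε : ℝ) : MeasurableSet (smallSet F ε) :=
  measurableSet_Icc.inter (measurableSet_forms_le F ε)

/-- **The volume of the small values near a nonsingular zero.** -/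
theorem exists_volume_small_inter_ge {m : ℕ} (hF : ∀ i, (F i).IsHomogeneous (m + 2))
    {K : Set (Fin n → ℝ)} (hK : K ⊆ symBox n 1) {z : Fin n → ℝ} (hKz : K ∈ 𝓝 z)
    (hz : ∀ i, aeval z (F i) = 0)
    (hli : LinearIndependent ℝ fun i j => aeval z (pderiv j (F i))) :
    ∃ c ε₀ : ℝ, 0 < c ∧ 0 < ε₀ ∧ ∀ ε, 0 < ε → ε ≤ ε₀ →
      c * ε ^ r ≤ volume.real (K ∩ {y | ∀ i, |aeval y (F i)| ≤ ε}) := by
  classical
  obtain ⟨f, hdet⟩ := exists_minor_ne_zero hli
  have hf := jacMinor_injective F hdet
  obtain ⟨L, hL⟩ := exists_lipschitz_completedMap F hF hf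
  have himg : completedMap F f '' K ∈ 𝓝 (completedMap F f z) := by
    rw [← map_nhds_completedMap F hf hdet]
    exact image_mem_map hKz
  obtain ⟨ρ, hρ, hρball⟩ := Metric.nhds_basis_closedBall.mem_iff.1 himg
  obtain ⟨S, hS⟩ : ∃ S : Finset (Fin n), S = univ.image f := ⟨_, rfl⟩
  obtain ⟨w, hw⟩ : ∃ w, w = completedMap F f z := ⟨_, rfl⟩
  rw [← hw] at hρball
  have hwf : ∀ a, w (f a) = 0 := fun a => by rw [hw, completedMap_apply F hf, hz]
  refine ⟨2 ^ r * (2 * ρ) ^ (n - r) / (((L : ℝ) + 1) ^ n), ρ, by positivity, hρ,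
    fun ε hε hερ => ?_⟩
  obtain ⟨T, hT⟩ : ∃ T : Set (Fin n → ℝ), T = Set.Icc
      (fun l => w l - if l ∈ S then ε else ρ) (fun l => w l + if l ∈ S then ε else ρ) := ⟨_, rfl⟩
  have hTsub : T ⊆ completedMap F f '' (K ∩ {y | ∀ i, |aeval y (F i)| ≤ ε}) := by
    intro v hv
    rw [hT, Set.mem_Icc] at hv
    have hv' : ∀ l, |v l - w l| ≤ if l ∈ S then ε else ρ := fun l => by
      rw [abs_le]; constructor <;> linarith [hv.1 l, hv.2 l]
    have hvball : v ∈ Metric.closedBall w ρ := by
      rw [Metric.mem_closedBall, dist_eq_norm]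
      refine (pi_norm_le_iff_of_nonneg hρ.le).2 fun l => ?_
      rw [Real.norm_eq_abs, Pi.sub_apply]
      refine (hv' l).trans ?_
      split_ifs
      exacts [hερ, le_rfl]
    obtain ⟨y, hy, hyv⟩ := hρball hvball
    refine ⟨y, ⟨hy, fun a => ?_⟩, hyv⟩
    have h := hv' (f a)
    rw [if_pos (hS ▸ mem_image.2 ⟨a, mem_univ _, rfl⟩), hwf, sub_zero, ← hyv,
      completedMap_apply F hf] at h
    exact h
  have hvolT : volume.real T = (2 * ε) ^ r * (2 * ρ) ^ (n - r) := by
    rw [hT, Measure.real, Real.volume_Icc_pi_toReal fun l => by split_ifs <;> linarith]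
    simp only [add_sub_sub_cancel]
    rw [← prod_mul_prod_compl S, prod_congr rfl fun l hl => by rw [if_pos hl, ← two_mul],
      prod_const, prod_congr rfl fun l hl => by rw [if_neg (mem_compl.1 hl), ← two_mul],
      prod_const, card_compl, Fintype.card_fin, hS, card_image_of_injective _ hf, card_univ,
      Fintype.card_fin]
  have hmeas : volume T ≤ (L : ℝ≥0∞) ^ n * volume ((K ∩ {y | ∀ i, |aeval y (F i)| ≤ ε})) := by
    refine (measure_mono hTsub).trans ?_
    have h := (hL.mono ((Set.inter_subset_left (t := {y | ∀ i, |aeval y (F i)| ≤ ε})).trans hK)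
      ).hausdorffMeasure_image_le (d := ((Fintype.card (Fin n) : ℕ) : ℝ)) (Nat.cast_nonneg _)
    rw [hausdorffMeasure_pi_real, ENNReal.rpow_natCast, Fintype.card_fin] at h
    exact h
  have hfin : volume ((K ∩ {y | ∀ i, |aeval y (F i)| ≤ ε})) ≠ ⊤ :=
    ((measure_mono (Set.inter_subset_left.trans hK)).trans_lt (volume_symBox_lt_top n 1)).ne
  have hreal : volume.real T ≤ (L : ℝ) ^ n * volume.real ((K ∩ {y | ∀ i, |aeval y (F i)| ≤ ε})) := by
    have h := ENNReal.toReal_mono (ENNReal.mul_ne_top (by simp) hfin) hmeas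
    rwa [ENNReal.toReal_mul, ENNReal.toReal_pow, ENNReal.coe_toReal] at h
  rw [div_mul_eq_mul_div, div_le_iff₀ (by positivity)]
  calc 2 ^ r * (2 * ρ) ^ (n - r) * ε ^ r = volume.real T := by rw [hvolT, mul_pow]; ring
    _ ≤ (L : ℝ) ^ n * volume.real ((K ∩ {y | ∀ i, |aeval y (F i)| ≤ ε})) := hreal
    _ ≤ ((L : ℝ) + 1) ^ n * volume.real ((K ∩ {y | ∀ i, |aeval y (F i)| ≤ ε})) := by
        gcongr
        linarith
    _ = _ := mul_comm _ _

/-- **The volume of the small values.** -/
theorem exists_volume_smallSet_ge {m : ℕ} (hF : ∀ i, (F i).IsHomogeneous (m + 2))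
    {z : Fin n → ℝ} (hz : ∀ i, aeval z (F i) = 0) (hzb : ∀ l, |z l| ≤ 1 / 2)
    (hli : LinearIndependent ℝ fun i j => aeval z (pderiv j (F i))) :
    ∃ c ε₀ : ℝ, 0 < c ∧ 0 < ε₀ ∧ ∀ ε, 0 < ε → ε ≤ ε₀ →
      c * ε ^ r ≤ volume.real (smallSet F ε) := by
  have hU : symBox n 1 ∈ 𝓝 z := by
    refine Filter.mem_of_superset (Metric.closedBall_mem_nhds z (show (0 : ℝ) < 1 / 2 by norm_num))
      fun y hy => mem_symBox.2 fun l => ?_
    rw [Metric.mem_closedBall, dist_eq_norm] at hy
    have := abs_le_pi_norm (y - z) l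
    have := abs_sub_abs_le_abs_sub (y l) (z l)
    simp only [Pi.sub_apply] at *
    linarith [hzb l]
  exact exists_volume_small_inter_ge F hF le_rfl hU hz hli

/-- The Gaussian weight. -/
def gaussWeight (ε : ℝ) (γ : Fin r → ℝ) : ℂ :=
  ∏ i, (Real.exp (-(π * ε ^ 2) * γ i ^ 2) : ℂ)

theorem norm_gaussWeight (ε : ℝ) (γ : Fin r → ℝ) :
    ‖gaussWeight ε γ‖ = ∏ i, Real.exp (-(π * ε ^ 2) * γ i ^ 2) := by
  rw [gaussWeight, norm_prod]
  exact prod_congr rfl fun i _ => by
    rw [Complex.norm_real, Real.norm_eq_abs, abs_of_pos (Real.exp_pos _)]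

theorem continuous_gaussWeight (ε : ℝ) : Continuous (gaussWeight (r := r) ε) := by
  unfold gaussWeight
  exact continuous_finsetProd _ fun i _ =>
    Complex.continuous_ofReal.comp (Real.continuous_exp.comp
      (continuous_const.mul ((continuous_apply i).pow 2)))

theorem integral_gauss_setIntegral {K : Set (Fin n → ℝ)} (hK : IsCompact K) {ε : ℝ}
    (hε : 0 < ε) :
    ∫ γ, gaussWeight ε γ * (∫ y in K, eAdd (sysPhase F γ y)) =
      ((∫ y in K, ∏ i, 1 / ε * Real.exp (-π * (aeval y (F i) / ε) ^ 2) : ℝ) : ℂ) := by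
  have : IsFiniteMeasure (volume.restrict (K)) :=
    isFiniteMeasure_restrict.2 (hK.measure_lt_top).ne
  obtain ⟨h, hh⟩ : ∃ h : (Fin r → ℝ) → (Fin n → ℝ) → ℂ,
      h = fun γ y => gaussWeight ε γ * eAdd (sysPhase F γ y) := ⟨_, rfl⟩
  have e : ∀ γ, gaussWeight ε γ * (∫ y in K, eAdd (sysPhase F γ y)) = ∫ y in K, h γ y := fun γ => by
    rw [hh, ← integral_const_mul]
  rw [integral_congr_ae (Eventually.of_forall e), integral_integral_swap]
  · rw [← integral_complex_ofReal]
    refine integral_congr_ae (Eventually.of_forall fun y => ?_)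
    simp only [hh, gaussWeight, sysPhase, eAdd_sum, ← prod_mul_distrib, Complex.ofReal_prod]
    exact (integral_fintype_prod_volume_eq_prod (fun i (γ : ℝ) =>
      (Real.exp (-(π * ε ^ 2) * γ ^ 2) : ℂ) * eAdd (γ * aeval y (F i)))).trans
        (prod_congr rfl fun i _ => integral_eAdd_gauss hε _)
  · have hint : Integrable fun γ : Fin r → ℝ => ∏ i, Real.exp (-(π * ε ^ 2) * γ i ^ 2) :=
      Integrable.fintype_prod fun _ => integrable_exp_neg_mul_sq (by positivity)
    refine (hint.mul_prod (integrable_const (1 : ℝ))).mono' ?_ (Eventually.of_forall fun z => ?_)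
    · refine Continuous.aestronglyMeasurable ?_
      rw [hh]
      exact ((continuous_gaussWeight ε).comp continuous_fst).mul (continuous_eAdd.comp
        (continuous_finsetSum _ fun i _ => ((continuous_apply i).comp continuous_fst).mul
          ((continuous_aeval_form (F i)).comp continuous_snd)))
    · simp only [hh, Function.uncurry, norm_mul, norm_eAdd, norm_gaussWeight, mul_one, le_refl]

theorem integral_gauss_sysFormIntegral {ε : ℝ} (hε : 0 < ε) :
    ∫ γ, gaussWeight ε γ * sysFormIntegral F γ =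
      ((∫ y in symBox n 1, ∏ i, 1 / ε * Real.exp (-π * (aeval y (F i) / ε) ^ 2) : ℝ) : ℂ) :=
  integral_gauss_setIntegral F isCompact_Icc hε

/-- **Positivity of the integral of a compact set** containing enough small values. -/
theorem re_integral_setIntegral_pos {K : Set (Fin n → ℝ)} (hK : IsCompact K) {c ε₀ : ℝ}
    (hc : 0 < c) (hε₀ : 0 < ε₀) (hvol : ∀ ε, 0 < ε → ε ≤ ε₀ →
      c * ε ^ r ≤ volume.real (K ∩ {y | ∀ i, |aeval y (F i)| ≤ ε}))
    (hcont : Continuous fun γ : Fin r → ℝ => ∫ y in K, eAdd (sysPhase F γ y))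
    (hint : Integrable fun γ : Fin r → ℝ => ∫ y in K, eAdd (sysPhase F γ y)) :
    0 < (∫ γ : Fin r → ℝ, ∫ y in K, eAdd (sysPhase F γ y)).re := by
  obtain ⟨ε, hεdef⟩ : ∃ ε : ℕ → ℝ, ε = fun k : ℕ => ε₀ / ((k : ℝ) + 1) := ⟨_, rfl⟩
  have hε : ∀ k, 0 < ε k := fun k => by rw [hεdef]; positivity
  have hε1 : ∀ k, ε k ≤ ε₀ := fun k => by
    rw [hεdef]; exact div_le_self hε₀.le (by simp)
  have hε0 : Tendsto ε atTop (𝓝 0) := by
    rw [hεdef]
    simpa [div_eq_mul_one_div ε₀] using
      (tendsto_one_div_add_atTop_nhds_zero_nat (𝕜 := ℝ)).const_mul ε₀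
  have hL : Tendsto (fun k => ∫ γ, gaussWeight (ε k) γ * (∫ y in K, eAdd (sysPhase F γ y))) atTop
      (𝓝 (∫ γ, (∫ y in K, eAdd (sysPhase F γ y)))) := by
    refine tendsto_integral_of_dominated_convergence (fun γ => ‖(∫ y in K, eAdd (sysPhase F γ y))‖)
      (fun k => ((continuous_gaussWeight (ε k)).mul
        hcont).aestronglyMeasurable) hint.norm
      (fun k => Eventually.of_forall fun γ => ?_) (Eventually.of_forall fun γ => ?_)
    · rw [norm_mul, norm_gaussWeight]
      refine mul_le_of_le_one_left (norm_nonneg _) (prod_le_one (fun i _ => (Real.exp_pos _).le)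
        fun i _ => Real.exp_le_one_iff.2 ?_)
      have : 0 ≤ π * ε k ^ 2 * γ i ^ 2 := by positivity
      linarith
    · have h1 : Tendsto (fun k => gaussWeight (ε k) γ) atTop (𝓝 (gaussWeight 0 γ)) :=
        ((show Continuous fun t : ℝ => gaussWeight t γ by
          unfold gaussWeight; fun_prop).tendsto 0).comp hε0
      simpa [gaussWeight] using h1.mul_const ((∫ y in K, eAdd (sysPhase F γ y)))
  simp only [integral_gauss_setIntegral F hK (hε _)] at hL
  have hL' := (Complex.continuous_re.tendsto _).comp hL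
  simp only [Function.comp_def, Complex.ofReal_re] at hL'
  refine lt_of_lt_of_le (show 0 < c * Real.exp (-π) ^ r by positivity)
    (ge_of_tendsto hL' (Eventually.of_forall fun k => ?_))
  obtain ⟨g, hg⟩ : ∃ g : (Fin n → ℝ) → ℝ,
      g = fun y => ∏ i, 1 / ε k * Real.exp (-π * (aeval y (F i) / ε k) ^ 2) := ⟨_, rfl⟩
  rw [← hg]
  have hg0 : ∀ y, 0 ≤ g y := fun y => by
    have := hε k
    rw [hg]; positivity
  have hgint : IntegrableOn g (K) := by
    rw [hg]
    refine (continuous_finsetProd _ fun i _ => continuous_const.mul (Real.continuous_exp.comp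
      (continuous_const.mul ((continuous_aeval_form (F i)).div_const _ |>.pow 2)))
        ).continuousOn.integrableOn_compact hK
  have hlow : ∀ y ∈ (K ∩ {y | ∀ i, |aeval y (F i)| ≤ ε k}), (1 / ε k * Real.exp (-π)) ^ r ≤ g y := by
    intro y hy
    have := hε k
    rw [hg]
    refine le_trans (le_of_eq (by rw [prod_const, card_univ, Fintype.card_fin]))
      (prod_le_prod (f := fun _ : Fin r => 1 / ε k * Real.exp (-π)) (fun _ _ => by positivity)
        fun i _ => ?_)
    refine mul_le_mul_of_nonneg_left (Real.exp_le_exp.2 ?_) (by positivity)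
    have h1 : (aeval y (F i) / ε k) ^ 2 ≤ 1 := by
      rw [sq_le_one_iff_abs_le_one, abs_div, abs_of_pos this, div_le_one this]
      exact hy.2 i
    nlinarith [Real.pi_pos]
  have hfin : volume (K ∩ {y | ∀ i, |aeval y (F i)| ≤ ε k}) ≠ ⊤ :=
    ((measure_mono Set.inter_subset_left).trans_lt hK.measure_lt_top).ne
  refine le_trans ?_ (setIntegral_mono_set hgint (Eventually.of_forall hg0)
    (Eventually.of_forall fun y (hy : y ∈ (K ∩ {y | ∀ i, |aeval y (F i)| ≤ ε k})) => hy.1))
  refine le_trans ?_ (setIntegral_ge_of_const_le_real (hK.isClosed.measurableSet.inter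
    (measurableSet_forms_le F (ε k))) hfin hlow
    (hgint.mono_set Set.inter_subset_left))
  have hv := hvol (ε k) (hε k) (hε1 k)
  have := hε k
  calc c * Real.exp (-π) ^ r = (1 / ε k * Real.exp (-π)) ^ r * (c * ε k ^ r) := by
        rw [mul_pow, div_pow, one_pow]; field_simp
    _ ≤ _ := mul_le_mul_of_nonneg_left hv (by positivity)

/-- **The singular integral is positive.** -/
theorem sysIntegral_pos {m s : ℕ} (hr : 0 < r) (hF : ∀ i, (F i).IsHomogeneous (m + 2))
    (hs : SystemSingularDimLE F s) (hn : s + r * (r + 1) * (m + 1) * 2 ^ (m + 1) < n)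
    {z : Fin n → ℝ} (hz : ∀ i, aeval z (F i) = 0) (hzb : ∀ l, |z l| ≤ 1 / 2)
    (hli : LinearIndependent ℝ fun i j => aeval z (pderiv j (F i))) :
    0 < sysRepIntegral F 0 := by
  obtain ⟨c, ε₀, hc, hε₀, hvol⟩ := exists_volume_smallSet_ge F hF hz hzb hli
  have he : sysRepIntegral F 0 = (∫ γ, sysFormIntegral F γ).re := by
    simp [sysRepIntegral, sysTwistedIntegral]
  rw [he]
  exact re_integral_setIntegral_pos F isCompact_Icc hc hε₀ hvol (continuous_sysFormIntegral F hF)
    (integrable_sysFormIntegral F hr hF hs hn)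

end FA.FormSystems
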