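import Fermat.Agent.FormSystems.Complete
import Fermat.Agent.WaringAsymptotic.WeylMeanValue
import Mathlib.Analysis.PSeries

/-!
# The singular series of a system

The bound at `a / q` gives `q ^ (-n) S (a, q) = O (q ^ (- r - 1 - e / 2))` for primitive `a`, so the
series converges absolutely and uniformly in the right hand sides.
-/

set_option autoImplicit false

noncomputable section

namespace FA.FormSystems

open Finset FA.ThreePrimes FA.WaringAsymptotic FA.CubicForms FA.FormsManyVariables MvPolynomial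

variable {n r : ℕ} (F : Fin r → MvPolynomial (Fin n) ℤ)

/-- The numerators of the primitive fractions of denominator `q`. -/
def primResidues (r q : ℕ) : Finset (Fin r → ℕ) :=
  (Fintype.piFinset fun _ : Fin r => range q).filter fun a => Nat.Coprime q (univ.gcd a)

theorem isPrimitive_iff_coprime (q : ℕ) (a : Fin r → ℕ) :
    IsPrimitiveFraction q (fun i => (a i : ℤ)) ↔ Nat.Coprime q (univ.gcd a) := by
  refine ⟨fun h => h _ (Nat.gcd_dvd_left _ _) fun i => Int.natCast_dvd_natCast.2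
    ((Nat.gcd_dvd_right _ _).trans (gcd_dvd (mem_univ i))), fun h k hk ha => ?_⟩
  exact Nat.eq_one_of_dvd_coprimes h hk (dvd_gcd fun i _ => Int.natCast_dvd_natCast.1 (ha i))

theorem mem_primResidues {q : ℕ} {a : Fin r → ℕ} :
    a ∈ primResidues r q ↔ (∀ i, a i < q) ∧ IsPrimitiveFraction q fun i => (a i : ℤ) := by
  rw [primResidues, mem_filter, Fintype.mem_piFinset, isPrimitive_iff_coprime]
  simp

theorem primResidues_zero (hr : 0 < r) : primResidues r 0 = ∅ := by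
  refine eq_empty_of_forall_notMem fun a ha => ?_
  exact absurd ((mem_primResidues.1 ha).1 ⟨0, hr⟩) (Nat.not_lt_zero _)

theorem primResidues_one : primResidues r 1 = {0} := by
  ext a
  rw [mem_primResidues, mem_singleton]
  refine ⟨fun h => funext fun i => Nat.lt_one_iff.1 (h.1 i), fun h => ?_⟩
  subst h
  exact ⟨fun _ => Nat.one_pos, fun k hk _ => Nat.dvd_one.1 hk⟩

theorem card_primResidues_le (r q : ℕ) : (primResidues r q).card ≤ q ^ r :=
  (card_filter_le _ _).trans (by simp)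

/-- The term of the singular series of `F i x = ν i`. -/
def sysRepTerm (ν : Fin r → ℤ) (q : ℕ) : ℂ :=
  ∑ a ∈ primResidues r q, sysCompleteSum F q (fun i => (a i : ℤ)) / (q : ℂ) ^ n *
    eAdd (-((∑ i, (a i : ℝ) * ν i) / q))

/-- The singular series of `F i x = ν i`. -/
def sysRepSeries (ν : Fin r → ℤ) : ℝ := (∑' q, sysRepTerm F ν q).re

theorem sysRepTerm_zero_modulus (hr : 0 < r) (ν : Fin r → ℤ) : sysRepTerm F ν 0 = 0 := by
  simp [sysRepTerm, primResidues_zero hr]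

theorem sysRepTerm_one (ν : Fin r → ℤ) : sysRepTerm F ν 1 = 1 := by
  have h1 : residueBox n 1 = {fun _ => 0} := by
    ext x
    simp [mem_residueBox, funext_iff]
  simp [sysRepTerm, primResidues_one, sysCompleteSum, h1]

/-- **The size of a complete sum**: it is bounded through a sum over `q ^ (r + 4)` values. -/
theorem exists_weylBound_complete {m s : ℕ} (hr : 0 < r) (hF : ∀ i, (F i).IsHomogeneous (m + 2))
    (hs : SystemSingularDimLE F s) (hn : s + r * (r + 1) * (m + 1) * 2 ^ (m + 1) < n) (C₁ : ℝ)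
    (hC₁ : 0 < C₁) :
    ∃ C : ℝ, 0 < C ∧ ∀ (P q : ℕ) (a : Fin r → ℤ) (T : ℝ) (X : ℂ), P = q ^ (r + 4) → 1 ≤ q →
      IsPrimitiveFraction q a → SysWeylBound F m P (fun i => (a i : ℝ) / q) X →
      T * (P : ℝ) ^ n ≤ ‖X‖ + C₁ * q * (P : ℝ) ^ (n - 1) →
        T ≤ C * (q : ℝ) ^ (-((r : ℝ) + 1 + sysSaving r m / 2)) := by
  obtain ⟨C₂, hC₂, hpoint⟩ := exists_weylBound_pointwise F hr hF hs hn
  have he0 := sysSaving_pos hr m
  have he1 := sysSaving_le_one hr m
  have hn1 : 1 ≤ n := by omega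
  obtain ⟨L₀, hL₀, hlog⟩ :=
    exists_log_le (δ := sysSaving r m / (2 * ((r : ℝ) + 4) * n)) (by positivity)
  refine ⟨C₂ * L₀ ^ n + C₁, by positivity, fun P q a T X hP hq hco hX hT => ?_⟩
  have hqP : q ≤ P := hP ▸ Nat.le_self_pow (by omega) q
  have hP1 : 1 ≤ P := hq.trans hqP
  have hq0 : (1 : ℝ) ≤ q := by exact_mod_cast hq
  have hP' : (P : ℝ) = (q : ℝ) ^ (r + 4) := by rw [hP]; push_cast; rfl
  have hP0 : (1 : ℝ) ≤ P := by exact_mod_cast hP1
  have hq' : (0 : ℝ) < q := by linarith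
  have hp := hpoint P q a 0 (q : ℝ) X hP1 hq hco (by simp) (by
    rw [hP', ← pow_mul]
    refine pow_le_pow_right₀ hq0 ?_
    calc 2 ≤ (r + 4) * 2 := by omega
      _ ≤ (r + 4) * (m + 2) := Nat.mul_le_mul_left _ (by omega))
    (by simpa using hX)
  obtain ⟨Z, hZ⟩ : ∃ Z : ℝ, Z = (q : ℝ) ^ (-((r : ℝ) + 1 + sysSaving r m / 2)) := ⟨_, rfl⟩
  rw [← hZ]
  have hZ0 : 0 < Z := hZ ▸ by positivity
  have hS : ‖X‖ ≤ C₂ * L₀ ^ n * Z * (P : ℝ) ^ n := by
    refine le_of_mul_le_mul_right (hp.trans ?_)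
      (by positivity : (0 : ℝ) < (q : ℝ) ^ ((r : ℝ) + 1 + sysSaving r m))
    have hL : (1 + Real.log P) ^ n ≤ L₀ ^ n * (q : ℝ) ^ (sysSaving r m / 2) := by
      refine (pow_le_pow_left₀ (by linarith [Real.log_nonneg hP0]) (hlog _ hP0) n).trans
        (le_of_eq ?_)
      rw [mul_pow, hP', ← Real.rpow_natCast (q : ℝ) (r + 4), ← Real.rpow_mul hq'.le,
        ← Real.rpow_natCast (_ ^ _) n, ← Real.rpow_mul hq'.le]
      congr 2
      push_cast
      field_simp
    calc C₂ * (1 + Real.log P) ^ n * (P : ℝ) ^ n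
        ≤ C₂ * (L₀ ^ n * (q : ℝ) ^ (sysSaving r m / 2)) * (P : ℝ) ^ n := by gcongr
      _ = C₂ * L₀ ^ n * (P : ℝ) ^ n * (Z * (q : ℝ) ^ ((r : ℝ) + 1 + sysSaving r m)) := by
          rw [hZ, ← Real.rpow_add hq', show -((r : ℝ) + 1 + sysSaving r m / 2) +
            ((r : ℝ) + 1 + sysSaving r m) = sysSaving r m / 2 by ring]
          ring
      _ = _ := by ring
  have hE : C₁ * q * (P : ℝ) ^ (n - 1) ≤ C₁ * Z * (P : ℝ) ^ n := by
    rw [show (P : ℝ) ^ n = (P : ℝ) ^ (n - 1) * P by rw [← pow_succ, Nat.sub_add_cancel hn1],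
      mul_comm ((P : ℝ) ^ (n - 1)) (P : ℝ), ← mul_assoc]
    refine mul_le_mul_of_nonneg_right ?_ (by positivity)
    rw [mul_assoc]
    refine mul_le_mul_of_nonneg_left ?_ hC₁.le
    rw [hZ, hP', ← Real.rpow_natCast (q : ℝ) (r + 4), ← Real.rpow_add hq']
    exact Real.self_le_rpow_of_one_le hq0 (by push_cast; linarith)
  refine le_of_mul_le_mul_right (?_ : T * (P : ℝ) ^ n ≤ _) (by positivity : (0 : ℝ) < (P : ℝ) ^ n)
  rw [add_mul, add_mul]
  linarith

/-- **The complete sums.** -/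
theorem exists_sysCompleteSum_le {m s : ℕ} (hr : 0 < r) (hF : ∀ i, (F i).IsHomogeneous (m + 2))
    (hs : SystemSingularDimLE F s) (hn : s + r * (r + 1) * (m + 1) * 2 ^ (m + 1) < n) :
    ∃ C : ℝ, 0 < C ∧ ∀ (q : ℕ) (a : Fin r → ℤ), 1 ≤ q → IsPrimitiveFraction q a →
      ‖sysCompleteSum F q a‖ / (q : ℝ) ^ n ≤
        C * (q : ℝ) ^ (-((r : ℝ) + 1 + sysSaving r m / 2)) := by
  obtain ⟨C₁, hC₁, happrox⟩ := exists_sys_major_approx F hF
  obtain ⟨C, hC, h⟩ := exists_weylBound_complete F hr hF hs hn C₁ hC₁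
  refine ⟨C, hC, fun q a hq hco => h (q ^ (r + 4)) q a _ _ rfl hq hco
    (sysWeylBound_sysSum F (fun i => (hF i).totalDegree_le) (Nat.one_le_pow _ _ hq) _) ?_⟩
  obtain ⟨P, hP⟩ : ∃ P, P = q ^ (r + 4) := ⟨_, rfl⟩
  rw [← hP]
  have hqP : q ≤ P := hP ▸ Nat.le_self_pow (by omega) q
  have happ := happrox P q a 0 hq hqP
  simp only [norm_zero, mul_zero, add_zero, mul_one, Pi.zero_apply, sysSum_zero] at happ
  rw [norm_sub_rev] at happ
  have h2 := (norm_sub_norm_le _ _).trans happ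
  rw [norm_mul, norm_div, norm_pow, Complex.norm_natCast, Complex.norm_natCast] at h2
  obtain ⟨T, hT⟩ : ∃ T, T = ‖sysCompleteSum F q a‖ / (q : ℝ) ^ n := ⟨_, rfl⟩
  rw [← hT] at h2 ⊢
  have hbox : T * (P : ℝ) ^ n ≤ T * (((2 * P + 1) ^ n : ℕ) : ℝ) := by
    refine mul_le_mul_of_nonneg_left ?_ (hT ▸ by positivity)
    push_cast
    exact pow_le_pow_left₀ (by positivity) (by linarith [(Nat.cast_nonneg P : (0 : ℝ) ≤ P)]) n
  linarith

/-- **The tail of the series** when the complete sums are small. -/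
theorem exists_sysRepTerm_tail_of_le {m : ℕ} (hr : 0 < r) {C : ℝ} (hC : 0 < C)
    (hle : ∀ (q : ℕ) (a : Fin r → ℤ), 1 ≤ q → IsPrimitiveFraction q a →
      ‖sysCompleteSum F q a‖ / (q : ℝ) ^ n ≤
        C * (q : ℝ) ^ (-((r : ℝ) + 1 + sysSaving r m / 2))) :
    ∃ C : ℝ, 0 < C ∧ ∀ ν : Fin r → ℤ,
      Summable (fun q => ‖sysRepTerm F ν q‖) ∧ ∑' q, ‖sysRepTerm F ν q‖ ≤ C ∧
      ∀ W : ℕ, 1 ≤ W → ‖∑' q, sysRepTerm F ν q - ∑ q ∈ Icc 1 W, sysRepTerm F ν q‖ ≤
        C * (W : ℝ) ^ (-(sysSaving r m / 4)) := by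
  classical
  obtain ⟨e, he⟩ : ∃ e, e = sysSaving r m / 4 := ⟨_, rfl⟩
  have he0 : 0 < e := he ▸ by have := sysSaving_pos hr m; positivity
  rw [← he]
  have hterm : ∀ (ν : Fin r → ℤ) (q : ℕ), 1 ≤ q →
      ‖sysRepTerm F ν q‖ ≤ C * (q : ℝ) ^ (-1 - 2 * e) := by
    intro ν q hq
    refine (norm_sum_le _ _).trans ((sum_le_card_nsmul _ _
      (C * (q : ℝ) ^ (-((r : ℝ) + 1 + sysSaving r m / 2))) fun a ha => ?_).trans ?_)
    · rw [norm_mul, norm_eAdd, mul_one, norm_div, norm_pow, Complex.norm_natCast]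
      exact hle q _ hq (mem_primResidues.1 ha).2
    rw [nsmul_eq_mul]
    refine (mul_le_mul_of_nonneg_right (Nat.cast_le.2 (card_primResidues_le r q))
      (by positivity)).trans (le_of_eq ?_)
    rw [mul_left_comm, Nat.cast_pow, ← Real.rpow_natCast (q : ℝ) r,
      ← Real.rpow_add (Nat.cast_pos.2 hq)]
    congr 2
    rw [he]; ring
  have hsum' : Summable fun q : ℕ => C * (q : ℝ) ^ (-1 - e) :=
    (Real.summable_nat_rpow.2 (by linarith)).mul_left C
  refine ⟨∑' q : ℕ, C * (q : ℝ) ^ (-1 - e) + 1, ?_, fun ν => ?_⟩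
  · have : 0 ≤ ∑' q : ℕ, C * (q : ℝ) ^ (-1 - e) := tsum_nonneg fun q => by positivity
    linarith
  have hterm' : ∀ q : ℕ, ‖sysRepTerm F ν q‖ ≤ C * (q : ℝ) ^ (-1 - e) := fun q => by
    rcases Nat.eq_zero_or_pos q with rfl | hq
    · rw [sysRepTerm_zero_modulus F hr, norm_zero]
      positivity
    · exact (hterm ν q hq).trans (mul_le_mul_of_nonneg_left (Real.rpow_le_rpow_of_exponent_le
        (Nat.one_le_cast.2 hq) (by linarith)) hC.le)
  have hsum : Summable fun q => ‖sysRepTerm F ν q‖ :=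
    .of_nonneg_of_le (fun q => norm_nonneg _) hterm' hsum'
  refine ⟨hsum, (hsum.tsum_le_tsum hterm' hsum').trans (by linarith), fun W hW => ?_⟩
  have hz : ∑ q ∈ range (W + 1), sysRepTerm F ν q = ∑ q ∈ Icc 1 W, sysRepTerm F ν q := by
    rw [← sum_subset (s₁ := Icc 1 W) (s₂ := range (W + 1)) (fun q hq => by
      rw [mem_Icc] at hq; rw [mem_range]; omega) fun q hq hq' => by
        rw [mem_range] at hq
        rw [mem_Icc] at hq'
        rw [show q = 0 by omega, sysRepTerm_zero_modulus F hr]]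
  rw [← hsum.of_norm.sum_add_tsum_nat_add (W + 1), hz, add_sub_cancel_left]
  have hs' : Summable fun i => ‖sysRepTerm F ν (i + (W + 1))‖ :=
    (summable_nat_add_iff (f := fun q => ‖sysRepTerm F ν q‖) (W + 1)).2 hsum
  refine (norm_tsum_le_tsum_norm hs').trans ?_
  have hs'' : Summable fun i : ℕ => C * ((i + (W + 1) : ℕ) : ℝ) ^ (-1 - e) :=
    (summable_nat_add_iff (f := fun q : ℕ => C * (q : ℝ) ^ (-1 - e)) (W + 1)).2 hsum'
  have hW0 : (0 : ℝ) < W := Nat.cast_pos.2 hW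
  have hstep : ∀ i : ℕ, ‖sysRepTerm F ν (i + (W + 1))‖ ≤
      C * ((i + (W + 1) : ℕ) : ℝ) ^ (-1 - e) * (W : ℝ) ^ (-e) := fun i => by
    refine (hterm ν _ (by omega)).trans ?_
    have hi : (W : ℝ) ≤ ((i + (W + 1) : ℕ) : ℝ) := Nat.cast_le.2 (by omega)
    rw [show (-1 - 2 * e) = (-1 - e) + -e by ring, Real.rpow_add (by linarith), ← mul_assoc]
    exact mul_le_mul_of_nonneg_left (Real.rpow_le_rpow_of_nonpos hW0 hi (by linarith))
      (by positivity)
  refine (hs'.tsum_le_tsum hstep (hs''.mul_right _)).trans ?_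
  rw [tsum_mul_right]
  refine mul_le_mul_of_nonneg_right ?_ (by positivity)
  rw [← hsum'.sum_add_tsum_nat_add (W + 1)]
  have : 0 ≤ ∑ q ∈ range (W + 1), C * (q : ℝ) ^ (-1 - e) := sum_nonneg fun q _ => by positivity
  linarith

/-- **The tail of the series, uniformly in `ν`.** -/
theorem exists_sysRepTerm_tail {m s : ℕ} (hr : 0 < r) (hF : ∀ i, (F i).IsHomogeneous (m + 2))
    (hs : SystemSingularDimLE F s) (hn : s + r * (r + 1) * (m + 1) * 2 ^ (m + 1) < n) :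
    ∃ C : ℝ, 0 < C ∧ ∀ ν : Fin r → ℤ,
      Summable (fun q => ‖sysRepTerm F ν q‖) ∧ ∑' q, ‖sysRepTerm F ν q‖ ≤ C ∧
      ∀ W : ℕ, 1 ≤ W → ‖∑' q, sysRepTerm F ν q - ∑ q ∈ Icc 1 W, sysRepTerm F ν q‖ ≤
        C * (W : ℝ) ^ (-(sysSaving r m / 4)) :=
  let ⟨_, hC, hle⟩ := exists_sysCompleteSum_le F hr hF hs hn
  exists_sysRepTerm_tail_of_le F hr hC hle

end FA.FormSystems
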