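import Fermat.Agent.FormSystems.Local
import Fermat.Agent.FormSystems.Series
import Fermat.Agent.FormsManyVariables.SeriesPositive

/-!
# The singular series of a system is positive

For common zeros it is multiplicative and its factors are the densities
`p ^ (r L) # {zeros mod p ^ L} / p ^ (n L)`, positive when there are `≫ p ^ (J (n - r))` zeros
modulo `p ^ J` for every `p`, and near `1` for large `p`.
-/

set_option autoImplicit false

noncomputable section

namespace FA.FormSystems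

open Finset FA.ThreePrimes FA.WaringAsymptotic FA.CubicForms FA.FormsManyVariables MvPolynomial
  Filter Topology

variable {n r : ℕ} (F : Fin r → MvPolynomial (Fin n) ℤ)

theorem sysRepTerm_zero_rhs (q : ℕ) : sysRepTerm F 0 q =
    ∑ a ∈ primResidues r q, sysCompleteSum F q (fun i => (a i : ℤ)) / (q : ℂ) ^ n := by
  simp [sysRepTerm]

theorem sysCompleteSum_mul {q₁ q₂ : ℕ} (hco : q₁.Coprime q₂) (h₁ : 0 < q₁) (h₂ : 0 < q₂)
    (a₁ a₂ : Fin r → ℕ) :
    sysCompleteSum F (q₁ * q₂) (fun i => (crtResidue q₁ q₂ (a₁ i) (a₂ i) : ℤ)) =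
      sysCompleteSum F q₁ (fun i => (a₁ i : ℤ)) * sysCompleteSum F q₂ (fun i => (a₂ i : ℤ)) := by
  rw [sysCompleteSum, sysCompleteSum, sysCompleteSum, sum_mul_sum, ← sum_product']
  have hmaps : ∀ z ∈ residueBox n (q₁ * q₂),
      ((fun i => z i % q₁, fun i => z i % q₂) : (Fin n → ℕ) × (Fin n → ℕ)) ∈
        residueBox n q₁ ×ˢ residueBox n q₂ := fun z _ =>
    mem_product.2 ⟨mem_residueBox.2 fun i => Nat.mod_lt _ h₁,
      mem_residueBox.2 fun i => Nat.mod_lt _ h₂⟩
  have hinj : Set.InjOn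
      (fun z => ((fun i => z i % q₁, fun i => z i % q₂) : (Fin n → ℕ) × (Fin n → ℕ)))
      (residueBox n (q₁ * q₂) : Set (Fin n → ℕ)) := fun z hz w hw e => funext fun i => by
    simp only [Prod.mk.injEq] at e
    have h := (Nat.modEq_and_modEq_iff_modEq_mul hco).1 ⟨congrFun e.1 i, congrFun e.2 i⟩
    rwa [Nat.ModEq, Nat.mod_eq_of_lt (mem_residueBox.1 hz i),
      Nat.mod_eq_of_lt (mem_residueBox.1 hw i)] at h
  refine sum_bij (fun z _ => (fun i => z i % q₁, fun i => z i % q₂)) hmaps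
    (fun z hz w hw e => hinj hz hw e) (fun b hb => ?_) fun z _ => ?_
  · obtain ⟨z, hz, e⟩ := surj_on_of_inj_on_of_card_le (fun z _ => _) hmaps
      (fun z w hz hw e => hinj hz hw e) (by
        rw [card_product, card_residueBox, card_residueBox, card_residueBox, mul_pow]) b hb
    exact ⟨z, hz, e.symm⟩
  · simp only
    obtain ⟨M, hM⟩ : ∃ M : Fin r → ℤ, M = fun i => eval (fun l => (z l : ℤ)) (F i) := ⟨_, rfl⟩
    rw [← eAdd_sys_congr F h₁ (fun i => (a₁ i : ℤ)) (x := fun l => (z l : ℤ))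
        (y := fun l => ((z l % q₁ : ℕ) : ℤ)) fun l => by simp,
      ← eAdd_sys_congr F h₂ (fun i => (a₂ i : ℤ)) (x := fun l => (z l : ℤ))
        (y := fun l => ((z l % q₂ : ℕ) : ℤ)) fun l => by simp, ← eAdd_add,
      show (∑ i, (crtResidue q₁ q₂ (a₁ i) (a₂ i) : ℤ) * eval (fun l => (z l : ℤ)) (F i)) =
        ∑ i, (crtResidue q₁ q₂ (a₁ i) (a₂ i) : ℤ) * M i by rw [hM],
      eAdd_natCast_div_congr (Nat.mul_pos h₁ h₂)
        (n := ∑ i, ((a₁ i * q₂ + a₂ i * q₁ : ℕ) : ℤ) * M i) (by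
          simp only [Int.cast_sum, Int.cast_mul, Int.cast_natCast, crtResidue, ZMod.natCast_mod])]
    congr 1
    have : (q₁ : ℝ) ≠ 0 := Nat.cast_ne_zero.2 h₁.ne'
    have : (q₂ : ℝ) ≠ 0 := Nat.cast_ne_zero.2 h₂.ne'
    simp only [hM]
    push_cast
    rw [sum_div, sum_div, sum_div, ← sum_add_distrib]
    refine sum_congr rfl fun i _ => ?_
    field_simp

theorem crt_mem_primResidues {m q : ℕ} (h : m.Coprime q) (hm : 0 < m) (hq : 0 < q)
    {a b : Fin r → ℕ} (ha : a ∈ primResidues r m) (hb : b ∈ primResidues r q) :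
    (fun i => crtResidue m q (a i) (b i)) ∈ primResidues r (m * q) := by
  obtain ⟨-, hpa⟩ := mem_primResidues.1 ha
  obtain ⟨-, hpb⟩ := mem_primResidues.1 hb
  refine mem_primResidues.2 ⟨fun i => Nat.mod_lt _ (Nat.mul_pos hm hq), fun k hk hka => ?_⟩
  by_contra hk1
  obtain ⟨l, hl, hlk⟩ := Nat.exists_prime_and_dvd hk1
  have hdvd : ∀ i, l ∣ a i * q + b i * m := fun i =>
    (Nat.dvd_mod_iff (hlk.trans hk)).1
      (hlk.trans (Int.natCast_dvd_natCast.1 (hka i)))
  rcases (Nat.Prime.dvd_mul hl).1 (hlk.trans hk) with hlm | hlq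
  · refine hl.ne_one (hpa l hlm fun i => Int.natCast_dvd_natCast.2 ?_)
    exact (Nat.Coprime.coprime_dvd_left hlm h).dvd_of_dvd_mul_right
      ((Nat.dvd_add_left (hlm.mul_left _)).1 (hdvd i))
  · refine hl.ne_one (hpb l hlq fun i => Int.natCast_dvd_natCast.2 ?_)
    exact (Nat.Coprime.coprime_dvd_left hlq h.symm).dvd_of_dvd_mul_right
      ((Nat.dvd_add_right (hlq.mul_left _)).1 (hdvd i))

theorem exists_primResidue_factor {m q : ℕ} (h : m.Coprime q) (hm : 0 < m)
    {c : Fin r → ℕ} (hc : c ∈ primResidues r (m * q)) :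
    ∃ a ∈ primResidues r m, ∀ i, ((a i * q : ℕ) : ZMod m) = (c i : ZMod m) := by
  have : NeZero m := ⟨hm.ne'⟩
  obtain ⟨-, hpc⟩ := mem_primResidues.1 hc
  obtain ⟨u, hu⟩ := (ZMod.isUnit_iff_coprime q m).2 h.symm
  have e : ∀ i, ((((c i : ZMod m) * ↑u⁻¹).val * q : ℕ) : ZMod m) = (c i : ZMod m) := fun i => by
    rw [Nat.cast_mul, ZMod.natCast_zmod_val, ← hu, mul_assoc, Units.inv_mul, mul_one]
  refine ⟨fun i => (((c i : ZMod m) * ↑u⁻¹).val), mem_primResidues.2 ⟨fun i => ZMod.val_lt _,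
    fun k hk hka => hpc k (hk.mul_right q) fun i => ?_⟩, e⟩
  have e' := e i
  rw [ZMod.natCast_eq_natCast_iff'] at e'
  refine Int.natCast_dvd_natCast.2 ((Nat.dvd_mod_iff hk).1 ?_)
  rw [← e', Nat.dvd_mod_iff hk]
  exact (Int.natCast_dvd_natCast.1 (hka i)).mul_right q

/-- **Multiplicativity.** -/
theorem sysRepTerm_mul (hr : 0 < r) {m q : ℕ} (h : m.Coprime q) :
    sysRepTerm F 0 (m * q) = sysRepTerm F 0 m * sysRepTerm F 0 q := by
  rcases Nat.eq_zero_or_pos m with rfl | hm
  · simp [sysRepTerm_zero_modulus F hr]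
  rcases Nat.eq_zero_or_pos q with rfl | hq
  · simp [sysRepTerm_zero_modulus F hr]
  simp only [sysRepTerm_zero_rhs]
  rw [sum_mul_sum, ← sum_product']
  have hinj : Set.InjOn (fun z : (Fin r → ℕ) × (Fin r → ℕ) =>
      fun i => crtResidue m q (z.1 i) (z.2 i))
      (primResidues r m ×ˢ primResidues r q : Finset ((Fin r → ℕ) × (Fin r → ℕ))) := by
    intro z hz w hw e
    simp only [mem_coe, mem_product, mem_primResidues] at hz hw
    refine Prod.ext (funext fun i => ?_) (funext fun i => ?_)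
    · have a1 := congrArg (fun v : Fin r → ℕ => (v i : ZMod m)) e
      simp only [crtResidue_cast_left] at a1
      have b1 := ((ZMod.isUnit_iff_coprime q m).2 h.symm).mul_right_cancel a1
      rwa [ZMod.natCast_eq_natCast_iff', Nat.mod_eq_of_lt (hz.1.1 i),
        Nat.mod_eq_of_lt (hw.1.1 i)] at b1
    · have a2 := congrArg (fun v : Fin r → ℕ => (v i : ZMod q)) e
      simp only [crtResidue_cast_right] at a2
      have b2 := ((ZMod.isUnit_iff_coprime m q).2 h).mul_right_cancel a2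
      rwa [ZMod.natCast_eq_natCast_iff', Nat.mod_eq_of_lt (hz.2.1 i),
        Nat.mod_eq_of_lt (hw.2.1 i)] at b2
  have himg : (primResidues r m ×ˢ primResidues r q).image
      (fun z : (Fin r → ℕ) × (Fin r → ℕ) => fun i => crtResidue m q (z.1 i) (z.2 i)) =
        primResidues r (m * q) := by
    ext c
    rw [mem_image]
    constructor
    · rintro ⟨z, hz, rfl⟩
      exact crt_mem_primResidues h hm hq (mem_product.1 hz).1 (mem_product.1 hz).2
    · intro hc
      obtain ⟨a, ha, hae⟩ := exists_primResidue_factor h hm hc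
      obtain ⟨b, hb, hbe⟩ := exists_primResidue_factor h.symm hq (m := q) (q := m)
        (c := c) (by rwa [mul_comm])
      refine ⟨(a, b), mem_product.2 ⟨ha, hb⟩, funext fun i => ?_⟩
      simp only
      refine Nat.ModEq.eq_of_lt_of_lt ((Nat.modEq_and_modEq_iff_modEq_mul h).1 ⟨?_, ?_⟩)
        (Nat.mod_lt _ (Nat.mul_pos hm hq)) ((mem_primResidues.1 hc).1 i)
      · rw [← ZMod.natCast_eq_natCast_iff, crtResidue_cast_left, ← Nat.cast_mul, hae i]
      · rw [← ZMod.natCast_eq_natCast_iff, crtResidue_cast_right, ← Nat.cast_mul, hbe i]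
  rw [← himg, sum_image hinj]
  refine sum_congr rfl fun z _ => ?_
  rw [sysCompleteSum_mul F h hm hq, Nat.cast_mul, mul_pow, mul_div_mul_comm]

theorem sysCompleteSum_mul_left {p q : ℕ} (hp : 0 < p) (hq : 0 < q) (b : Fin r → ℤ) :
    sysCompleteSum F (p * q) (fun i => (p : ℤ) * b i) = (p : ℂ) ^ n * sysCompleteSum F q b := by
  rw [show (p : ℂ) ^ n * sysCompleteSum F q b = ∑ _w ∈ residueBox n p, sysCompleteSum F q b by
      rw [sum_const, card_residueBox, nsmul_eq_mul, Nat.cast_pow],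
    sysCompleteSum, sysCompleteSum, ← sum_product']
  refine sum_nbij' (fun z => (fun i => z i / q, fun i => z i % q))
    (fun w i => q * w.1 i + w.2 i) (fun z hz => ?_) (fun w hw => ?_)
    (fun z _ => funext fun i => Nat.div_add_mod _ _) (fun w hw => ?_) fun z _ => ?_
  · refine mem_product.2 ⟨mem_residueBox.2 fun i => ?_, mem_residueBox.2 fun i => Nat.mod_lt _ hq⟩
    rw [Nat.div_lt_iff_lt_mul hq]
    exact mem_residueBox.1 hz i
  · rw [mem_product, mem_residueBox, mem_residueBox] at hw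
    refine mem_residueBox.2 fun i => ?_
    calc q * w.1 i + w.2 i < q * w.1 i + q := Nat.add_lt_add_left (hw.2 i) _
      _ = q * (w.1 i + 1) := by ring
      _ ≤ p * q := by rw [mul_comm p]; exact Nat.mul_le_mul_left _ (hw.1 i)
  · rw [mem_product, mem_residueBox, mem_residueBox] at hw
    refine Prod.ext (funext fun i => ?_) (funext fun i => ?_)
    · show (q * w.1 i + w.2 i) / q = w.1 i
      rw [Nat.mul_add_div hq, Nat.div_eq_of_lt (hw.2 i), add_zero]
    · show (q * w.1 i + w.2 i) % q = w.2 i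
      rw [Nat.mul_add_mod, Nat.mod_eq_of_lt (hw.2 i)]
  · rw [← eAdd_sys_congr F hq b (x := fun i => (z i : ℤ))
      (y := fun i => ((z i % q : ℕ) : ℤ)) fun i => by simp]
    congr 1
    push_cast
    have : (p : ℝ) ≠ 0 := Nat.cast_ne_zero.2 hp.ne'
    simp only [mul_assoc, ← mul_sum]
    field_simp

/-- The sum over all residues. -/
theorem sum_piFinset_sysCompleteSum {q : ℕ} (hq : 0 < q) :
    ∑ a ∈ Fintype.piFinset (fun _ : Fin r => range q), sysCompleteSum F q (fun i => (a i : ℤ)) =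
      (q : ℂ) ^ r * (sysZeroCount F q : ℂ) := by
  classical
  have : NeZero q := ⟨hq.ne'⟩
  have hcount : sysZeroCount F q =
      ((residueBox n q).filter fun x => ∀ i, (q : ℤ) ∣ eval (fun l => (x l : ℤ)) (F i)).card := by
    rw [sysZeroCount, Nat.card_eq_fintype_card, Fintype.card_subtype]
    refine card_nbij' (fun x i => (x i).val) (fun x i => (x i : ZMod q)) (fun x hx => ?_)
      (fun x hx => ?_) (fun x _ => funext fun i => ZMod.natCast_zmod_val _)
      fun x hx => funext fun i => ZMod.val_cast_of_lt (mem_residueBox.1 (mem_filter.1 hx).1 i)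
    · refine mem_coe.2 (mem_filter.2 ⟨mem_residueBox.2 fun i => ZMod.val_lt _, fun i => ?_⟩)
      rw [← ZMod.intCast_zmod_eq_zero_iff_dvd, ← aeval_intCast]
      simpa using (mem_filter.1 hx).2 i
    · refine mem_coe.2 (mem_filter.2 ⟨mem_univ _, fun i => ?_⟩)
      have := (mem_filter.1 hx).2 i
      rw [← ZMod.intCast_zmod_eq_zero_iff_dvd, ← aeval_intCast] at this
      simpa using this
  rw [hcount, card_filter, Nat.cast_sum, mul_sum]
  simp only [sysCompleteSum]
  rw [sum_comm]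
  refine sum_congr rfl fun x _ => ?_
  have e : ∀ a : Fin r → ℕ,
      eAdd (((∑ i, (a i : ℤ) * eval (fun l => (x l : ℤ)) (F i) : ℤ) : ℝ) / q) =
        ∏ i, eAdd (((eval (fun l => (x l : ℤ)) (F i) : ℤ) : ℝ) * a i / q) := fun a => by
    push_cast
    rw [sum_div, eAdd_sum]
    exact prod_congr rfl fun i _ => by ring_nf
  simp only [e]
  rw [← prod_univ_sum (fun _ : Fin r => range q)
    fun i a => eAdd (((eval (fun l => (x l : ℤ)) (F i) : ℤ) : ℝ) * a / q)]
  simp only [sum_eAdd_grid hq]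
  by_cases hall : ∀ i, (q : ℤ) ∣ eval (fun l => (x l : ℤ)) (F i)
  · simp [hall]
  · rw [if_neg hall, Nat.cast_zero, mul_zero]
    obtain ⟨i, hi⟩ := not_forall.1 hall
    exact prod_eq_zero (mem_univ i) (if_neg hi)

theorem sum_sysRepTerm_primePow {p : ℕ} (hp : p.Prime) : ∀ L : ℕ,
    ∑ l ∈ range (L + 1), sysRepTerm F 0 (p ^ l) =
      ((p ^ L : ℕ) : ℂ) ^ r * sysZeroCount F (p ^ L) / ((p ^ L : ℕ) : ℂ) ^ n
  | 0 => by
    rw [sum_range_one, pow_zero, sysRepTerm_one, ← sum_piFinset_sysCompleteSum F one_pos]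
    have h1 : residueBox n 1 = {fun _ => 0} := by ext x; simp [mem_residueBox, funext_iff]
    simp [sysCompleteSum, h1]
  | L + 1 => by
    classical
    rw [sum_range_succ, sum_sysRepTerm_primePow hp L,
      ← sum_piFinset_sysCompleteSum F (pow_pos hp.pos _),
      ← sum_piFinset_sysCompleteSum F (pow_pos hp.pos _), sum_div, sum_div,
      ← sum_filter_add_sum_filter_not (Fintype.piFinset fun _ : Fin r => range (p ^ (L + 1)))
        (fun a => ∀ i, p ∣ a i)]
    congr 1
    · have hp0 : 0 < p := hp.pos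
      symm
      refine sum_nbij' (fun a i => a i / p) (fun b i => p * b i) (fun a ha => ?_) (fun b hb => ?_)
        (fun a ha => funext fun i => Nat.mul_div_cancel' ((mem_filter.1 ha).2 i))
        (fun b _ => funext fun i => Nat.mul_div_cancel_left (b i) hp0) fun a ha => ?_
      · refine Fintype.mem_piFinset.2 fun i => ?_
        rw [mem_range, Nat.div_lt_iff_lt_mul hp0, ← pow_succ]
        exact mem_range.1 (Fintype.mem_piFinset.1 (mem_filter.1 ha).1 i)
      · refine mem_filter.2 ⟨Fintype.mem_piFinset.2 fun i => mem_range.2 ?_,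
          fun i => dvd_mul_right p (b i)⟩
        rw [pow_succ']
        exact Nat.mul_lt_mul_of_pos_left (mem_range.1 (Fintype.mem_piFinset.1 hb i)) hp0
      · have hpi := (mem_filter.1 ha).2
        have e : (fun i => (a i : ℤ)) = fun i => (p : ℤ) * ((a i / p : ℕ) : ℤ) := funext fun i => by
          rw [← Nat.cast_mul, Nat.mul_div_cancel' (hpi i)]
        rw [e, pow_succ' p L, sysCompleteSum_mul_left F hp0 (pow_pos hp0 L), Nat.cast_mul, mul_pow,
          mul_div_mul_left _ _ (pow_ne_zero _ (Nat.cast_ne_zero.2 hp0.ne'))]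
    · rw [sysRepTerm_zero_rhs, primResidues]
      refine sum_congr (filter_congr fun a _ => ?_) fun a _ => rfl
      rw [Nat.coprime_pow_left_iff L.succ_pos, hp.coprime_iff_not_dvd, Finset.dvd_gcd_iff]
      simp

/-- The local density. -/
def sysDensity (p : ℕ) : ℂ := ∑' l, sysRepTerm F 0 (p ^ l)

/-- **Positivity of an absolutely convergent singular series**, of any system. -/
theorem sysSeries_pos_of_summable (hr : 0 < r) (hrn : r ≤ n)
    (hsum : Summable fun q => ‖sysRepTerm F 0 q‖)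
    (hloc : ∀ p : ℕ, p.Prime → ∃ E : ℕ, ∀ J,
      (p ^ J) ^ (n - r) ≤ sysZeroCount F (p ^ J) * (p ^ E) ^ (n - r)) :
    0 < sysRepSeries F 0 := by
  classical
  obtain ⟨b, hb⟩ : ∃ b : ℕ → ℝ, b = fun q => ‖sysRepTerm F 0 q‖ := ⟨_, rfl⟩
  choose! E hE using hloc
  obtain ⟨a, ha⟩ : ∃ a : ℕ → ℝ, a = fun p => if p.Prime then ∑' l, b (p ^ (l + 1)) else 0 :=
    ⟨_, rfl⟩
  have hb0 : ∀ q, 0 ≤ b q := fun q => hb ▸ norm_nonneg _
  have hbsum : Summable b := hb ▸ hsum
  have ha0 : ∀ p, 0 ≤ a p := fun p => by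
    rw [ha]; dsimp only; split_ifs
    exacts [tsum_nonneg fun _ => hb0 _, le_rfl]
  have hasum : Summable a := by
    have h1 : Summable fun z : Nat.Primes × ℕ => b ((z.1 : ℕ) ^ (z.2 + 1)) :=
      hbsum.comp_injective (i := fun z : Nat.Primes × ℕ => (z.1 : ℕ) ^ (z.2 + 1)) fun z w h => by
        have hp := Nat.Prime.pow_inj z.1.2 w.1.2 h
        exact Prod.ext (Subtype.ext hp.1) hp.2
    have h2 := h1.prod
    refine ((Subtype.val_injective (p := Nat.Prime)).summable_iff (f := a)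
      fun p hp => ?_).1 (h2.congr fun p => ?_)
    · rw [ha]; dsimp only
      rw [if_neg]
      exact fun h => hp ⟨⟨p, h⟩, rfl⟩
    · rw [Function.comp_apply, ha]; dsimp only
      rw [if_pos p.2]
  obtain ⟨p₀, hp₀⟩ := ((tendsto_sum_nat_add a).eventually
    (eventually_le_nhds (show (0 : ℝ) < 1 / 2 by norm_num))).exists
  have htend : ∀ p : ℕ, p.Prime → Tendsto (fun L => ((((p ^ L : ℕ) : ℝ) ^ r *
      sysZeroCount F (p ^ L) / ((p ^ L : ℕ) : ℝ) ^ n : ℝ) : ℂ)) atTop (𝓝 (sysDensity F p)) := by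
    intro p hp
    have hpsum : Summable fun l => sysRepTerm F 0 (p ^ l) :=
      hsum.of_norm.comp_injective (Nat.pow_right_injective hp.two_le)
    refine (hpsum.hasSum.tendsto_sum_nat.comp (tendsto_add_atTop_nat 1)).congr fun L => ?_
    rw [Function.comp_apply, sum_sysRepTerm_primePow F hp L]
    push_cast
    rfl
  obtain ⟨d, hd⟩ : ∃ d : ℕ → ℝ, d = fun p => (sysDensity F p).re := ⟨_, rfl⟩
  have hdre : ∀ p : ℕ, p.Prime → sysDensity F p = (d p : ℂ) := fun p hp => by
    refine Complex.ext (by rw [hd]; rfl) ?_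
    rw [Complex.ofReal_im]
    refine tendsto_nhds_unique ((Complex.continuous_im.tendsto _).comp (htend p hp))
      (tendsto_const_nhds.congr fun L => ?_)
    rw [Function.comp_apply, Complex.ofReal_im]
  have hd0 : ∀ p : ℕ, p.Prime → 1 / ((p ^ E p : ℕ) : ℝ) ^ (n - r) ≤ d p := fun p hp => by
    have := hp.pos
    rw [hd]
    refine ge_of_tendsto ((Complex.continuous_re.tendsto _).comp (htend p hp))
      (eventually_atTop.2 ⟨E p, fun L _ => ?_⟩)
    rw [Function.comp_apply, Complex.ofReal_re, div_le_div_iff₀ (by positivity)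
      (by positivity), one_mul]
    calc ((p ^ L : ℕ) : ℝ) ^ n = (((p ^ L) ^ r * (p ^ L) ^ (n - r) : ℕ) : ℝ) := by
          rw [← pow_add, Nat.add_sub_cancel' hrn]; push_cast; rfl
      _ ≤ (((p ^ L) ^ r * (sysZeroCount F (p ^ L) * (p ^ E p) ^ (n - r)) : ℕ) : ℝ) :=
          Nat.cast_le.2 (Nat.mul_le_mul_left _ (hE p hp L))
      _ = _ := by push_cast; ring
  have hnear : ∀ p, p.Prime → 1 - a p ≤ d p := fun p hp => by
    have hinj : Function.Injective fun l : ℕ => p ^ (l + 1) := fun l k h =>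
      Nat.succ_injective (Nat.pow_right_injective hp.two_le h)
    have e : sysDensity F p = 1 + ∑' l, sysRepTerm F 0 (p ^ (l + 1)) := by
      have hp' : Summable fun l => sysRepTerm F 0 (p ^ l) :=
        hsum.of_norm.comp_injective (Nat.pow_right_injective hp.two_le)
      rw [sysDensity, hp'.tsum_eq_zero_add, pow_zero, sysRepTerm_one]
    have h1 : ‖∑' l, sysRepTerm F 0 (p ^ (l + 1))‖ ≤ a p := by
      rw [ha, hb]; dsimp only
      rw [if_pos hp]
      exact norm_tsum_le_tsum_norm (hsum.comp_injective hinj)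
    have h2 := (abs_le.1 ((Complex.abs_re_le_norm _).trans h1)).1
    rw [hd]
    dsimp only
    rw [e, Complex.add_re, Complex.one_re]
    linarith
  obtain ⟨c, hc⟩ : ∃ c : ℝ,
      c = (∏ p ∈ Nat.primesBelow p₀, 1 / ((p ^ E p : ℕ) : ℝ) ^ (n - r)) * (1 / 2) := ⟨_, rfl⟩
  have hlow0 : ∀ p ∈ Nat.primesBelow p₀, (0 : ℝ) < 1 / ((p ^ E p : ℕ) : ℝ) ^ (n - r) :=
    fun p hp => by
      have := (Nat.mem_primesBelow.1 hp).2.pos
      positivity
  refine lt_of_lt_of_le (show 0 < c by rw [hc]; exact mul_pos (prod_pos hlow0) (by norm_num)) ?_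
  rw [sysRepSeries]
  have hEu := EulerProduct.eulerProduct (f := sysRepTerm F 0) (sysRepTerm_one F 0)
    (fun h => sysRepTerm_mul F hr h) hsum (sysRepTerm_zero_modulus F hr 0)
  refine ge_of_tendsto ((Complex.continuous_re.tendsto _).comp hEu)
    (eventually_atTop.2 ⟨p₀, fun k hk => ?_⟩)
  obtain ⟨S, hS⟩ : ∃ S, S = Nat.primesBelow k := ⟨_, rfl⟩
  have hprod : ∏ p ∈ S, ∑' l, sysRepTerm F 0 (p ^ l) = ((∏ p ∈ S, d p : ℝ) : ℂ) := by
    rw [Complex.ofReal_prod]
    exact prod_congr rfl fun p hp => hdre p (Nat.mem_primesBelow.1 (hS ▸ hp)).2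
  simp only [Function.comp, ← hS, hprod, Complex.ofReal_re]
  have hlow : S.filter (fun p => p < p₀) = Nat.primesBelow p₀ := by
    ext p
    simp only [hS, mem_filter, Nat.mem_primesBelow]
    exact ⟨fun h => ⟨h.2, h.1.2⟩, fun h => ⟨⟨h.1.trans_le hk, h.2⟩, h.1⟩⟩
  rw [← prod_filter_mul_prod_filter_not S (fun p => p < p₀), hlow, hc]
  refine mul_le_mul (prod_le_prod (fun p hp => (hlow0 p hp).le)
    fun p hp => hd0 p (Nat.mem_primesBelow.1 hp).2) ?_ (by norm_num)
      (prod_nonneg fun p hp => (hlow0 p hp).le.trans (hd0 p (Nat.mem_primesBelow.1 hp).2))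
  have hsum' : ∑ p ∈ S.filter (fun p => ¬p < p₀), a p ≤ 1 / 2 := by
    refine le_trans ?_ hp₀
    refine (sum_le_sum_of_subset_of_nonneg (t := Ico p₀ k) (fun p hp => ?_)
      fun p _ _ => ha0 p).trans ?_
    · rw [hS, mem_filter, Nat.mem_primesBelow] at hp
      exact mem_Ico.2 ⟨not_lt.1 hp.2, hp.1.1⟩
    · rw [sum_Ico_eq_sum_range]
      simp only [add_comm p₀]
      exact (((summable_nat_add_iff p₀).2 hasum)).sum_le_tsum _ fun i _ => ha0 _
  have hle1 : ∀ p ∈ S.filter (fun p => ¬p < p₀), a p ≤ 1 := fun p hp =>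
    ((single_le_sum (fun q _ => ha0 q) hp).trans hsum').trans (by norm_num)
  refine le_trans (by linarith) ((one_sub_sum_le_prod _ a (fun p _ => ha0 p) hle1).trans
    (prod_le_prod (fun p hp => sub_nonneg.2 (hle1 p hp)) fun p hp => ?_))
  exact hnear p (Nat.mem_primesBelow.1 (hS ▸ (mem_filter.1 hp).1)).2

/-- **The singular series is positive.** -/
theorem sysSeries_pos {m s : ℕ} (hr : 0 < r) (hF : ∀ i, (F i).IsHomogeneous (m + 2))
    (hs : SystemSingularDimLE F s) (hn : s + r * (r + 1) * (m + 1) * 2 ^ (m + 1) < n)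
    (hloc : ∀ p : ℕ, p.Prime → ∃ E : ℕ, ∀ J,
      (p ^ J) ^ (n - r) ≤ sysZeroCount F (p ^ J) * (p ^ E) ^ (n - r)) :
    0 < sysRepSeries F 0 := by
  obtain ⟨C₀, -, hser⟩ := exists_sysRepTerm_tail F hr hF hs hn
  refine sysSeries_pos_of_summable F hr ?_ (hser 0).1 hloc
  have : r ≤ r * (r + 1) * (m + 1) * 2 ^ (m + 1) := by
    rw [mul_assoc, mul_assoc]; exact Nat.le_mul_of_pos_right _ (by positivity)
  omega

end FA.FormSystems
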