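import Fermat.Agent.FormSystems.Asymptotic
import Fermat.Agent.FormSystems.RealPositive
import Fermat.Agent.FormSystems.SeriesPositive

/-!
# The Hasse principle for systems of forms in many variables

In the range of Birch's theorem `r` forms with nonsingular common zeros over `ℝ` and every `ℚ_p`
have `c P ^ (n - r d)` common zeros of size `P`, `c > 0`. If the Jacobian has rank `r` at every
common zero but the origin, nontrivial local zeros suffice, so the Hasse principle holds.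
-/

set_option autoImplicit false

noncomputable section

namespace FA.FormSystems

open Finset MvPolynomial Filter Topology FA.CubicForms FA.FormsManyVariables

variable {n r : ℕ} (F : Fin r → MvPolynomial (Fin n) ℤ)

/-- The Jacobian has rank `r` at every complex common zero but the origin. -/
def SmoothCommonZeros : Prop :=
  ∀ z : Fin n → ℂ, (∀ i, aeval z (F i) = 0) → z ≠ 0 →
    LinearIndependent ℂ fun i j => aeval z (pderiv j (F i))

theorem independent_of_jacMinor_ne_zero {K : Type*} [Field K] {f : Fin r → Fin n} {z : Fin n → K}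
    (h : jacMinor F f z ≠ 0) : LinearIndependent K fun i j => aeval z (pderiv j (F i)) :=
  LinearIndependent.of_comp (LinearMap.funLeft K K f) (Matrix.linearIndependent_rows_of_det_ne_zero h)

/-- Forms with no common complex zero but the origin have none in characteristic zero. -/
theorem eq_zero_of_complex_zeros {J : Type*} [Fintype J] {G : J → MvPolynomial (Fin n) ℤ}
    {e : J → ℕ} (hG : ∀ j, (G j).IsHomogeneous (e j))
    (h0 : ∀ z : Fin n → ℂ, (∀ j, aeval z (G j) = 0) → z = 0)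
    {K : Type*} [Field K] [CharZero K] {z : Fin n → K} (hz : ∀ j, aeval z (G j) = 0) : z = 0 := by
  classical
  funext i
  obtain ⟨M, hM⟩ := exists_pow_combination (fun j => map (Int.castRingHom ℂ) (G j)) e
    (fun j => (hG j).map _) (fun w hw => h0 w fun j => by
      have := hw j
      rwa [eval_map, ← algebraMap_int_eq, ← aeval_def] at this) i
  obtain ⟨A, -, hA⟩ := hM M le_rfl
  obtain ⟨φ, hφ⟩ := LinearMap.exists_leftInverse_of_injective (Algebra.linearMap ℚ ℂ)
    (LinearMap.ker_eq_bot.2 (algebraMap ℚ ℂ).injective)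
  have hφ' : ∀ x : ℚ, φ (x : ℂ) = x := fun x => by
    simpa using LinearMap.congr_fun hφ x
  obtain ⟨B, hB⟩ : ∃ B : J → MvPolynomial (Fin n) ℚ,
      B = fun j => ∑ d ∈ (A j).support, monomial d (φ (coeff d (A j))) := ⟨_, rfl⟩
  have hBc : ∀ j d, coeff d (B j) = φ (coeff d (A j)) := fun j d => by
    rw [hB]
    simp only [coeff_sum, coeff_monomial, sum_ite_eq']
    split_ifs with h
    · rfl
    · rw [notMem_support_iff.1 h, map_zero]
  have hX : (X i : MvPolynomial (Fin n) ℚ) ^ M = ∑ j, B j * map (Int.castRingHom ℚ) (G j) := by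
    refine MvPolynomial.ext _ _ fun d => ?_
    have h := congrArg (fun Q => φ (coeff d Q)) hA
    simp only [coeff_sum, map_sum, coeff_mul, coeff_map] at h
    simp only [coeff_sum, coeff_mul, coeff_map, hBc]
    refine Eq.trans ?_ (h.trans (sum_congr rfl fun j _ => sum_congr rfl fun u _ => ?_))
    · rw [coeff_X_pow, coeff_X_pow]
      split_ifs
      · exact_mod_cast (hφ' 1).symm
      · exact (map_zero φ).symm
    · rw [show coeff u.1 (A j) * (Int.castRingHom ℂ) (coeff u.2 (G j)) =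
        coeff u.2 (G j) • coeff u.1 (A j) by rw [zsmul_eq_mul, mul_comm]; rfl, map_zsmul,
        zsmul_eq_mul, mul_comm]
      rfl
  have h := congrArg (aeval z) hX
  simp only [map_pow, aeval_X, map_sum, map_mul] at h
  rw [sum_eq_zero fun j _ => by rw [← algebraMap_int_eq, aeval_map_algebraMap, hz j, mul_zero]] at h
  rcases Nat.eq_zero_or_pos M with hM0 | hM0
  · rw [hM0, pow_zero] at h
    exact absurd h one_ne_zero
  · exact eq_zero_of_pow_eq_zero h

theorem aeval_det_pderiv {R : Type*} [CommRing R] (f : Fin r → Fin n) (y : Fin n → R) :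
    aeval y (Matrix.of fun i a => pderiv (f a) (F i)).det = jacMinor F f y := by
  rw [jacMinor, ← AlgHom.coe_toRingHom, RingHom.map_det]
  rfl

theorem SmoothCommonZeros.independent {m : ℕ} (hF : ∀ i, (F i).IsHomogeneous (m + 2))
    (hsm : SmoothCommonZeros F) {K : Type*} [Field K] [CharZero K] {z : Fin n → K}
    (hz : ∀ i, aeval z (F i) = 0) (hz0 : z ≠ 0) :
    LinearIndependent K fun i j => aeval z (pderiv j (F i)) := by
  classical
  by_contra hdep
  obtain ⟨M, hM⟩ : ∃ M : (Fin r → Fin n) → MvPolynomial (Fin n) ℤ,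
      M = fun f => (Matrix.of fun i a => pderiv (f a) (F i)).det := ⟨_, rfl⟩
  have hMhom : ∀ f, (M f).IsHomogeneous (∑ _a : Fin r, (m + 1)) := fun f => by
    rw [hM]
    simp only [Matrix.det_apply', Matrix.of_apply]
    refine IsHomogeneous.sum _ _ _ fun σ _ => ?_
    rw [← map_intCast (C : ℤ →+* MvPolynomial (Fin n) ℤ)]
    simpa using (isHomogeneous_C (Fin n) _).mul
      (IsHomogeneous.prod univ _ _ fun a _ => isHomogeneous_pderiv _ (hF (σ a)) (f a))
  refine hz0 (eq_zero_of_complex_zeros (G := Sum.elim F M)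
    (e := Sum.elim (fun _ => m + 2) fun _ => ∑ _a : Fin r, (m + 1)) ?_ ?_ ?_)
  · rintro (i | f)
    exacts [hF i, hMhom f]
  · intro w hw
    by_contra hw0
    obtain ⟨f, hf⟩ := exists_minor_ne_zero (hsm w (fun i => hw (.inl i)) hw0)
    have h := hw (.inr f)
    rw [Sum.elim_inr, hM, aeval_det_pderiv] at h
    exact hf h
  · rintro (i | f)
    · exact hz i
    · rw [Sum.elim_inr, hM, aeval_det_pderiv]
      exact by_contra fun hf => hdep (independent_of_jacMinor_ne_zero F hf)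

theorem exists_real_sys_zero_scaled {m : ℕ} (hF : ∀ i, (F i).IsHomogeneous (m + 2))
    {z : Fin n → ℝ} (hz : ∀ i, aeval z (F i) = 0)
    (hli : LinearIndependent ℝ fun i j => aeval z (pderiv j (F i))) :
    ∃ w : Fin n → ℝ, (∀ i, aeval w (F i) = 0) ∧ (∀ l, |w l| ≤ 1 / 2) ∧
      LinearIndependent ℝ fun i j => aeval w (pderiv j (F i)) := by
  obtain ⟨t, ht⟩ : ∃ t : ℝ, t = 1 / (2 * ((∑ l, |z l|) + 1)) := ⟨_, rfl⟩
  have hpos : 0 < (∑ l, |z l|) + 1 := by positivity
  have ht0 : 0 < t := ht ▸ by positivity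
  refine ⟨t • z, fun i => by rw [aeval_smul (F i) (hF i), hz i, mul_zero], fun l => ?_, ?_⟩
  · rw [Pi.smul_apply, smul_eq_mul, abs_mul, abs_of_pos ht0, ht, div_mul_eq_mul_div, one_mul,
      div_le_iff₀ (by positivity)]
    linarith [single_le_sum (fun l _ => abs_nonneg (z l)) (mem_univ l)]
  · refine (funext₂ fun i j => ?_ :
      (fun i j => aeval (t • z) (pderiv j (F i))) =
        (fun _ : Fin r => Units.mk0 _ (pow_ne_zero (m + 1) ht0.ne')) •
          fun i j => aeval z (pderiv j (F i))) ▸ hli.units_smul _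
    simp [aeval_smul _ (isHomogeneous_pderiv _ (hF i) j), Units.smul_def]

/-- **Positivity.** -/
theorem exists_sys_asymptotic_pos {m s : ℕ} (hr : 0 < r) (hF : ∀ i, (F i).IsHomogeneous (m + 2))
    (hs : SystemSingularDimLE F s) (hn : s + r * (r + 1) * (m + 1) * 2 ^ (m + 1) < n)
    (hreal : ∃ z : Fin n → ℝ, (∀ i, aeval z (F i) = 0) ∧
      LinearIndependent ℝ fun i j => aeval z (pderiv j (F i)))
    (hpadic : ∀ (p : ℕ) [Fact p.Prime], ∃ z : Fin n → ℚ_[p], (∀ i, aeval z (F i) = 0) ∧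
      LinearIndependent ℚ_[p] fun i j => aeval z (pderiv j (F i))) :
    ∃ c δ C : ℝ, 0 < c ∧ 0 < δ ∧ ∀ P : ℕ, 1 ≤ P →
      |(countSysReps F 0 P : ℝ) - c * (P : ℝ) ^ (n - r * (m + 2))| ≤
        C * (P : ℝ) ^ (((n - r * (m + 2) : ℕ) : ℝ) - δ) := by
  obtain ⟨δ, C, hδ, -, h⟩ := exists_sys_rep_asymptotic F hr hF hs hn 0
  refine ⟨sysRepSeries F 0 * sysRepIntegral F 0, δ, C, mul_pos ?_ ?_, hδ, fun P hP => ?_⟩
  · refine sysSeries_pos F hr hF hs hn fun p hp => ?_
    have : Fact p.Prime := ⟨hp⟩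
    obtain ⟨z, hz, hli⟩ := hpadic p
    exact exists_sysZeroCount_ge_padic F hr hF hz hli
  · obtain ⟨z, hz, hli⟩ := hreal
    obtain ⟨w, hw, hwb, hwli⟩ := exists_real_sys_zero_scaled F hF hz hli
    exact sysIntegral_pos F hr hF hs hn hw hwb hwli
  · have h0 := h P 0 hP (fun i => by simp)
    simpa [← Pi.zero_def] using h0

/-- **Nonsingular local zeros give a common zero.** -/
theorem exists_sys_common_zero {m s : ℕ} (hr : 0 < r) (hF : ∀ i, (F i).IsHomogeneous (m + 2))
    (hs : SystemSingularDimLE F s) (hn : s + r * (r + 1) * (m + 1) * 2 ^ (m + 1) < n)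
    (hreal : ∃ z : Fin n → ℝ, (∀ i, aeval z (F i) = 0) ∧
      LinearIndependent ℝ fun i j => aeval z (pderiv j (F i)))
    (hpadic : ∀ (p : ℕ) [Fact p.Prime], ∃ z : Fin n → ℚ_[p], (∀ i, aeval z (F i) = 0) ∧
      LinearIndependent ℚ_[p] fun i j => aeval z (pderiv j (F i))) :
    ∃ x : Fin n → ℤ, x ≠ 0 ∧ ∀ i, eval x (F i) = 0 := by
  obtain ⟨c, δ, C, hc, hδ, h⟩ := exists_sys_asymptotic_pos F hr hF hs hn hreal hpadic
  have hdn : 1 ≤ n - r * (m + 2) := by
    have h1 : m + 2 ≤ (r + 1) * (m + 1) * 2 ^ (m + 1) :=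
      le_trans (by nlinarith : m + 2 ≤ (r + 1) * (m + 1))
        (Nat.le_mul_of_pos_right _ (by positivity))
    have h2 : r * (m + 2) ≤ r * (r + 1) * (m + 1) * 2 ^ (m + 1) :=
      le_of_le_of_eq (Nat.mul_le_mul_left r h1) (by ring)
    omega
  obtain ⟨E, hE⟩ : ∃ E, E = n - r * (m + 2) := ⟨_, rfl⟩
  rw [← hE] at h hdn
  have ht : Tendsto (fun P : ℕ => C * (P : ℝ) ^ (-δ)) atTop (𝓝 (C * 0)) :=
    ((tendsto_rpow_neg_atTop hδ).comp tendsto_natCast_atTop_atTop).const_mul C
  rw [mul_zero] at ht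
  obtain ⟨P, hPε, hPbig⟩ := ((ht.eventually (eventually_le_nhds (half_pos hc))).and
    (eventually_ge_atTop (⌈2 / c⌉₊ + 1))).exists
  have hP1 : (1 : ℝ) ≤ P := by exact_mod_cast (show 1 ≤ P by omega)
  have hP2 : 2 / c < (P : ℝ) := by
    have h1 : ((⌈2 / c⌉₊ + 1 : ℕ) : ℝ) ≤ P := Nat.cast_le.2 hPbig
    push_cast at h1
    linarith [Nat.le_ceil (2 / c)]
  have h0 := (abs_le.1 (h P (by omega))).1
  rw [sub_eq_add_neg (E : ℝ), Real.rpow_add (by linarith), Real.rpow_natCast] at h0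
  have hcount : (1 : ℝ) < countSysReps F 0 P := by
    have h2 : C * ((P : ℝ) ^ E * (P : ℝ) ^ (-δ)) ≤ c / 2 * (P : ℝ) ^ E := by
      rw [mul_left_comm, mul_comm (c / 2)]
      exact mul_le_mul_of_nonneg_left hPε (by positivity)
    have h3 : (P : ℝ) ≤ (P : ℝ) ^ E := le_self_pow₀ hP1 (by omega)
    rw [div_lt_iff₀ hc] at hP2
    nlinarith
  obtain ⟨x, hx, y, hy, hxy⟩ := one_lt_card.1 (show 1 < countSysReps F 0 P by exact_mod_cast hcount)
  rcases eq_or_ne x 0 with rfl | hx0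
  · exact ⟨y, hxy.symm, (mem_filter.1 hy).2⟩
  · exact ⟨x, hx0, (mem_filter.1 hx).2⟩

/-- **The Hasse principle for systems.** -/
theorem hasse_principle_systems {m s : ℕ} (hr : 0 < r) (hF : ∀ i, (F i).IsHomogeneous (m + 2))
    (hs : SystemSingularDimLE F s) (hsm : SmoothCommonZeros F)
    (hn : s + r * (r + 1) * (m + 1) * 2 ^ (m + 1) < n) :
    (∃ x : Fin n → ℤ, x ≠ 0 ∧ ∀ i, eval x (F i) = 0) ↔
      (∃ z : Fin n → ℝ, z ≠ 0 ∧ ∀ i, aeval z (F i) = 0) ∧
        ∀ (p : ℕ) [Fact p.Prime], ∃ z : Fin n → ℚ_[p], z ≠ 0 ∧ ∀ i, aeval z (F i) = 0 := by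
  constructor
  · rintro ⟨x, hx, hFx⟩
    refine ⟨⟨fun i => (x i : ℝ), fun h => hx (funext fun i => ?_), fun i => ?_⟩,
      fun p _ => ⟨fun i => (x i : ℚ_[p]), fun h => hx (funext fun i => ?_), fun i => ?_⟩⟩
    · simpa using congrFun h i
    · rw [aeval_intCast, hFx, Int.cast_zero]
    · simpa using congrFun h i
    · rw [aeval_intCast, hFx, Int.cast_zero]
  rintro ⟨⟨z, hz0, hz⟩, hpadic⟩
  refine exists_sys_common_zero F hr hF hs hn ⟨z, hz, hsm.independent F hF hz hz0⟩ fun p _ => ?_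
  obtain ⟨w, hw0, hw⟩ := hpadic p
  exact ⟨w, hw, hsm.independent F hF hw hw0⟩

/-- **Systems of quadrics.** -/
theorem hasse_principle_quadrics {s : ℕ} (hr : 0 < r) (hF : ∀ i, (F i).IsHomogeneous 2)
    (hs : SystemSingularDimLE F s) (hsm : SmoothCommonZeros F) (hn : s + 2 * r * (r + 1) < n) :
    (∃ x : Fin n → ℤ, x ≠ 0 ∧ ∀ i, eval x (F i) = 0) ↔
      (∃ z : Fin n → ℝ, z ≠ 0 ∧ ∀ i, aeval z (F i) = 0) ∧
        ∀ (p : ℕ) [Fact p.Prime], ∃ z : Fin n → ℚ_[p], z ≠ 0 ∧ ∀ i, aeval z (F i) = 0 :=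
  hasse_principle_systems F (m := 0) hr hF hs hsm (by ring_nf; ring_nf at hn; omega)

end FA.FormSystems
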