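import Fermat.Agent.CubicForms.Minor
import Fermat.Agent.FormSystems.Complete
import Fermat.Agent.FormSystems.Series

/-!
# The minor arcs of a system

On the grid `(h i / P ^ (d + 1))` the major arcs are the `W P + 1` steps around the primitive
fractions with denominator at most `W`. The points with an approximation of height `Φ` number
`O (Φ ^ (r + 1) P ^ r)` and, by the dichotomy, the sum is small at the others; so the minor arcs
add `O (P ^ (n + r) (log P) ^ (n + 1) W ^ (-e))`.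
-/

set_option autoImplicit false

noncomputable section

namespace FA.FormSystems

open Finset FA.ThreePrimes FA.CubicForms FA.FormsManyVariables

variable {n r : ℕ} (F : Fin r → MvPolynomial (Fin n) ℤ)

/-- The centres of the arcs. -/
def sysCentres (r W : ℕ) : Finset (Σ _ : ℕ, Fin r → ℕ) := (Icc 1 W).sigma (primResidues r)

/-- The point `o` steps from a centre. -/
def sysArcPoint (M : ℕ) (z : Σ _ : ℕ, Fin r → ℕ) (o : Fin r → ℤ) : Fin r → ℕ :=
  fun i => arcPoint M ⟨z.1, z.2 i⟩ (o i)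

/-- The major arcs. -/
def sysArcs (r d P W : ℕ) : Finset (Fin r → ℕ) :=
  (sysCentres r W ×ˢ cbox r (W * P + 1)).image fun zo => sysArcPoint (P ^ (d + 1)) zo.1 zo.2

/-- The grid point `h` has an approximation of height `Φ`. -/
def ApproxPoint (d P : ℕ) (Φ : ℝ) (h : Fin r → ℕ) : Prop :=
  ∃ (q : ℕ) (a : Fin r → ℤ), 1 ≤ q ∧ (q : ℝ) ≤ Φ ∧
    ∀ i, |(q : ℝ) * ((h i : ℝ) / ((P ^ (d + 1) : ℕ) : ℝ)) - a i| ≤ Φ / (P : ℝ) ^ d

theorem exists_arc_offset {d P W h : ℕ} (hP : 1 ≤ P) (hh : h < P ^ (d + 1))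
    {z : Σ _ : ℕ, ℕ} {t : ℤ}
    (hnear : |(h : ℝ) / ((P ^ (d + 1) : ℕ) : ℝ) - centre z - t| ≤ (W : ℝ) / (P : ℝ) ^ d) :
    ∃ o : ℤ, |o| ≤ ((W * P + 1 : ℕ) : ℤ) ∧ arcPoint (P ^ (d + 1)) z o = h := by
  obtain ⟨M, hM⟩ : ∃ M : ℝ, M = ((P ^ (d + 1) : ℕ) : ℝ) := ⟨_, rfl⟩
  have hP0 : (0 : ℝ) < P := Nat.cast_pos.2 hP
  have hM0 : 0 < M := by rw [hM]; push_cast; positivity
  rw [← hM] at hnear
  obtain ⟨o, ho⟩ : ∃ o : ℤ, o = (h : ℤ) - t * (P ^ (d + 1) : ℕ) - round (centre z * M) := ⟨_, rfl⟩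
  have hoR : |(o : ℝ)| < ((W * P + 1 : ℕ) : ℝ) + 1 := by
    have e : (o : ℝ) = ((h : ℝ) / M - centre z - t) * M +
        (centre z * M - round (centre z * M)) := by
      rw [ho]; push_cast; rw [hM]; push_cast; field_simp; ring
    rw [e]
    refine (abs_add_le _ _).trans_lt ?_
    rw [abs_mul, abs_of_pos hM0]
    have h1 := mul_le_mul_of_nonneg_right hnear hM0.le
    have h2 : (W : ℝ) / (P : ℝ) ^ d * M = W * P := by
      rw [hM]; push_cast; rw [pow_succ]; field_simp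
    have h3 := abs_sub_round (centre z * M)
    push_cast
    linarith
  refine ⟨o, ?_, ?_⟩
  · rw [← Int.lt_add_one_iff]
    exact_mod_cast hoR
  · rw [arcPoint, ← hM,
      show round (centre z * M) + o = (h : ℤ) + (-t) * (P ^ (d + 1) : ℕ) by rw [ho]; ring,
      Int.add_mul_emod_self_right, Int.emod_eq_of_lt (Int.natCast_nonneg h) (Int.ofNat_lt.2 hh),
      Int.toNat_natCast]

/-- Every fraction is one with a primitive numerator. -/
theorem exists_primitive {q : ℕ} (hq : 1 ≤ q) (a : Fin r → ℤ) :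
    ∃ (g q₀ : ℕ) (b : Fin r → ℕ) (t : Fin r → ℤ), 1 ≤ g ∧ q = g * q₀ ∧
      b ∈ primResidues r q₀ ∧ ∀ i, a i = g * ((b i : ℤ) + q₀ * t i) := by
  obtain ⟨g, hg⟩ : ∃ g, g = Nat.gcd q (univ.gcd fun i => (a i).natAbs) := ⟨_, rfl⟩
  have hgq : g ∣ q := hg ▸ Nat.gcd_dvd_left _ _
  have hga : ∀ i, (g : ℤ) ∣ a i := fun i => Int.natCast_dvd.2
    (hg ▸ (Nat.gcd_dvd_right _ _).trans (gcd_dvd (mem_univ i)))
  obtain ⟨q₀, hq₀⟩ := hgq
  choose a₀ ha₀ using hga
  have hg1 : 1 ≤ g := Nat.pos_of_ne_zero fun e => by rw [e, zero_mul] at hq₀; omega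
  have hq1 : 0 < q₀ := Nat.pos_of_ne_zero fun e => by rw [e, mul_zero] at hq₀; omega
  have hbi : ∀ i, (((a₀ i % q₀).toNat : ℕ) : ℤ) = a₀ i - q₀ * (a₀ i / q₀) := fun i => by
    rw [Int.toNat_of_nonneg (Int.emod_nonneg _ (by omega)), Int.emod_def]
  refine ⟨g, q₀, fun i => (a₀ i % q₀).toNat, fun i => a₀ i / q₀, hg1, hq₀,
    mem_primResidues.2 ⟨fun i => ?_, fun k hk hkb => ?_⟩, fun i => ?_⟩
  · rw [Int.toNat_lt (Int.emod_nonneg _ (by omega))]
    exact Int.emod_lt_of_pos _ (by omega)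
  · have hka : ∀ i, g * k ∣ (a i).natAbs := fun i => Int.natCast_dvd.1 (by
      rw [ha₀ i, Nat.cast_mul]
      refine mul_dvd_mul_left _ ?_
      have h1 : a₀ i = (((a₀ i % q₀).toNat : ℕ) : ℤ) + q₀ * (a₀ i / q₀) := by rw [hbi]; ring
      rw [h1]
      exact dvd_add (hkb i) (Dvd.dvd.mul_right (Int.natCast_dvd_natCast.2 hk) _))
    have h2 : g * k ∣ g :=
      (Nat.dvd_gcd (hq₀ ▸ mul_dvd_mul_left g hk) (dvd_gcd fun i _ => hka i)).trans hg.symm.dvd
    exact Nat.dvd_one.1 ((Nat.mul_dvd_mul_iff_left hg1).1 (by rwa [mul_one]))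
  · rw [hbi, ha₀ i]; ring

theorem mem_sysArcs_of_approx {d P W : ℕ} {Φ : ℝ} {h : Fin r → ℕ} (hP : 1 ≤ P)
    (hh : ∀ i, h i < P ^ (d + 1)) (happ : ApproxPoint d P Φ h) (hΦ : Φ ≤ W) :
    h ∈ sysArcs r d P W := by
  obtain ⟨q, a, hq, hqΦ, hclose⟩ := happ
  obtain ⟨g, q₀, b, t, hg, hqe, hb, hat⟩ := exists_primitive hq a
  have hg0 : (1 : ℝ) ≤ g := by exact_mod_cast hg
  have hq1 : 1 ≤ q₀ := Nat.pos_of_ne_zero fun e => by rw [e, mul_zero] at hqe; omega
  have hq0W : q₀ ≤ W := by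
    have : (q : ℝ) ≤ W := hqΦ.trans hΦ
    have h1 : q ≤ W := by exact_mod_cast this
    exact le_trans (hqe ▸ Nat.le_mul_of_pos_left _ hg) h1
  have hnear : ∀ i, |(h i : ℝ) / ((P ^ (d + 1) : ℕ) : ℝ) - centre ⟨q₀, b i⟩ - t i| ≤
      (W : ℝ) / (P : ℝ) ^ d := by
    intro i
    have h1 := hclose i
    rw [hat i, hqe] at h1
    push_cast at h1
    push_cast
    rw [centre]
    have hq₀r : (1 : ℝ) ≤ q₀ := by exact_mod_cast hq1
    have h2 : |(h i : ℝ) / (P : ℝ) ^ (d + 1) - (b i : ℝ) / q₀ - t i| * ((g : ℝ) * q₀) ≤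
        Φ / (P : ℝ) ^ d := by
      refine le_trans (le_of_eq ?_) h1
      rw [← abs_of_pos (show (0 : ℝ) < (g : ℝ) * q₀ by positivity), ← abs_mul,
        abs_of_pos (show (0 : ℝ) < (g : ℝ) * q₀ by positivity)]
      congr 1
      field_simp
      ring
    refine (le_mul_of_one_le_right (abs_nonneg _) (one_le_mul_of_one_le_of_one_le hg0 hq₀r)).trans
      (h2.trans ?_)
    exact div_le_div_of_nonneg_right hΦ (by positivity)
  choose o ho hoe using fun i => exists_arc_offset hP (hh i) (hnear i)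
  refine mem_image.2 ⟨(⟨q₀, b⟩, o), mem_product.2 ⟨mem_sigma.2 ⟨mem_Icc.2 ⟨hq1, hq0W⟩, hb⟩,
    mem_cbox.2 ho⟩, funext hoe⟩

/-- **The points with an approximation.** -/
theorem card_approx_le {d P : ℕ} {Φ : ℝ} (hP : 1 ≤ P) (hΦ : 1 ≤ Φ)
    (S : Finset (Fin r → ℕ)) (hS : ∀ h ∈ S, ∀ i, h i < P ^ (d + 1))
    (happ : ∀ h ∈ S, ApproxPoint d P Φ h) :
    (S.card : ℝ) ≤ 4 ^ r * Φ ^ (r + 1) * (P : ℝ) ^ r := by
  classical
  obtain ⟨near, hnear⟩ : ∃ near : ℕ → ℕ → Finset ℕ, near = fun (q b : ℕ) =>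
      (range (P ^ (d + 1))).filter fun x : ℕ => ∃ t : ℤ,
        |(x : ℝ) / ((P ^ (d + 1) : ℕ) : ℝ) - (b : ℝ) / q - t| ≤ Φ / ((q : ℝ) * (P : ℝ) ^ d) :=
    ⟨_, rfl⟩
  obtain ⟨T, hT⟩ : ∃ T : Finset (Fin r → ℕ), T = (Icc 1 ⌊Φ⌋₊).biUnion fun q =>
      (Fintype.piFinset fun _ : Fin r => range q).biUnion fun b =>
        Fintype.piFinset fun i => near q (b i) := ⟨_, rfl⟩
  have hsub : S ⊆ T := by
    intro h hh
    obtain ⟨q, a, hq, hqΦ, hclose⟩ := happ h hh
    have hqz : (0 : ℤ) < q := by omega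
    have hai : ∀ i, (((a i % q).toNat : ℕ) : ℤ) = a i - q * (a i / q) := fun i => by
      rw [Int.toNat_of_nonneg (Int.emod_nonneg _ hqz.ne'), Int.emod_def]
    rw [hT, mem_biUnion]
    refine ⟨q, mem_Icc.2 ⟨hq, Nat.le_floor hqΦ⟩, mem_biUnion.2 ⟨fun i => (a i % q).toNat,
      Fintype.mem_piFinset.2 fun i => mem_range.2 ?_, Fintype.mem_piFinset.2 fun i => ?_⟩⟩
    · rw [Int.toNat_lt (Int.emod_nonneg _ hqz.ne')]
      exact Int.emod_lt_of_pos _ hqz
    · rw [hnear]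
      refine mem_filter.2 ⟨mem_range.2 (hS h hh i), a i / q, ?_⟩
      have hq0 : (0 : ℝ) < q := Nat.cast_pos.2 hq
      have e := congrArg (fun x : ℤ => (x : ℝ)) (hai i)
      push_cast at e
      rw [e, le_div_iff₀ (by positivity), ← mul_assoc, ← le_div_iff₀ (by positivity)]
      refine le_trans (le_of_eq ?_) (hclose i)
      rw [show ∀ x : ℝ, |x| * (q : ℝ) = |x * q| from fun x => by rw [abs_mul, abs_of_pos hq0]]
      congr 1
      field_simp
      ring
  have hfib : ∀ q ∈ Icc 1 ⌊Φ⌋₊, ∀ b : ℕ, ((near q b).card : ℝ) ≤ 4 * Φ * P / q := by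
    intro q hq b
    have hq0 : (0 : ℝ) < q := Nat.cast_pos.2 (mem_Icc.1 hq).1
    have hqΦ : (q : ℝ) ≤ Φ := (Nat.le_floor_iff (by linarith)).1 (mem_Icc.1 hq).2
    refine (card_near_le (pow_pos hP (d + 1)) _ (fun x hx => ?_) ((b : ℝ) / q)
      (Φ / ((q : ℝ) * (P : ℝ) ^ d)) (by positivity) fun x hx => ?_).trans ?_
    · rw [hnear] at hx
      exact mem_range.1 (mem_filter.1 hx).1
    · rw [hnear] at hx
      exact (mem_filter.1 hx).2
    · push_cast
      rw [pow_succ]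
      have h2 : (1 : ℝ) ≤ Φ * P / q := by
        rw [le_div_iff₀ hq0, one_mul]
        exact hqΦ.trans (le_mul_of_one_le_right (by linarith) (Nat.one_le_cast.2 hP))
      calc 2 * (Φ / ((q : ℝ) * (P : ℝ) ^ d)) * ((P : ℝ) ^ d * P) + 2
          = 2 * (Φ * P / q) + 2 := by field_simp
        _ ≤ 4 * (Φ * P / q) := by linarith
        _ = _ := by ring
  refine (Nat.cast_le.2 (card_le_card hsub)).trans ?_
  rw [hT]
  refine (Nat.cast_le.2 card_biUnion_le).trans ?_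
  rw [Nat.cast_sum]
  refine (sum_le_card_nsmul _ _ ((4 * Φ * P) ^ r) fun q hq => ?_).trans ?_
  · refine (Nat.cast_le.2 card_biUnion_le).trans ?_
    rw [Nat.cast_sum]
    refine (sum_le_card_nsmul _ _ ((4 * Φ * P / q) ^ r) fun b _ => ?_).trans (le_of_eq ?_)
    · rw [Fintype.card_piFinset, Nat.cast_prod]
      refine (prod_le_prod (fun i _ => Nat.cast_nonneg _) fun i _ => hfib q hq (b i)).trans
        (le_of_eq ?_)
      rw [prod_const, card_univ, Fintype.card_fin]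
    · rw [Fintype.card_piFinset_const, card_range, nsmul_eq_mul, Nat.cast_pow, ← mul_pow]
      congr 1
      have : (q : ℝ) ≠ 0 := Nat.cast_ne_zero.2 (by have := (mem_Icc.1 hq).1; omega)
      field_simp
  · rw [Nat.card_Icc, Nat.add_sub_cancel, nsmul_eq_mul, mul_pow, mul_pow, pow_succ]
    calc ((⌊Φ⌋₊ : ℕ) : ℝ) * (4 ^ r * Φ ^ r * (P : ℝ) ^ r)
        ≤ Φ * (4 ^ r * Φ ^ r * (P : ℝ) ^ r) := by gcongr; exact Nat.floor_le (by linarith)
      _ = _ := by ring

/-- **The sum over the minor arcs.** -/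
theorem exists_weylBound_minor_sum {m s : ℕ} (hr : 0 < r) (hF : ∀ i, (F i).IsHomogeneous (m + 2))
    (hs : SystemSingularDimLE F s) (hn : s + r * (r + 1) * (m + 1) * 2 ^ (m + 1) < n) :
    ∃ C : ℝ, 0 < C ∧ ∀ (P W : ℕ) (Z : (Fin r → ℕ) → ℂ), 1 ≤ P → 1 ≤ W → W ≤ P →
      (∀ h, SysWeylBound F m P (fun i => (h i : ℝ) / ((P ^ (m + 3) : ℕ) : ℝ)) (Z h)) →
      ∑ h ∈ (Fintype.piFinset fun _ : Fin r => range (P ^ (m + 3))) \ sysArcs r (m + 2) P W,
          ‖Z h‖ ≤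
        C * (1 + Real.log P) ^ (n + 1) * (P : ℝ) ^ (n + r) * (W : ℝ) ^ (-sysSaving r m) := by
  classical
  obtain ⟨C₀, hC₀, hdich⟩ := exists_weylBound_small_or_approx F hr hF hs hn
  obtain ⟨k, hk⟩ : ∃ k : ℕ, k = r * (m + 1) := ⟨_, rfl⟩
  have hk0 : 0 < k := hk ▸ Nat.mul_pos hr (Nat.succ_pos m)
  obtain ⟨e, he⟩ : ∃ e, e = sysSaving r m := ⟨_, rfl⟩
  have he0 : 0 < e := he ▸ sysSaving_pos hr m
  have he1 : e ≤ 1 := he ▸ sysSaving_le_one hr m
  rw [← he, ← hk] at hdich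
  obtain ⟨e₀, he₀⟩ : ∃ e₀, e₀ = (r : ℝ) + 1 + e := ⟨_, rfl⟩
  have he₀0 : 0 < e₀ := by rw [he₀]; positivity
  rw [← he₀] at hdich
  obtain ⟨C₂, hC₂⟩ : ∃ C₂ : ℝ, C₂ = 3 ^ n + C₀ * ((2 : ℝ) ^ k) ^ e₀ := ⟨_, rfl⟩
  obtain ⟨C₃, hC₃⟩ : ∃ C₃ : ℝ, C₃ = 4 ^ r * C₀ ^ (r + 1) := ⟨_, rfl⟩
  have hC₂0 : 0 < C₂ := by rw [hC₂]; positivity
  have hC₃1 : 1 ≤ C₃ := hC₃ ▸ one_le_mul_of_one_le_of_one_le (one_le_pow₀ (by norm_num))
    (one_le_pow₀ hC₀)
  refine ⟨4 * (C₂ * C₃ * C₀), by positivity, fun P W Z hP hW hWP hZ => ?_⟩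
  rw [← he]
  have hP0 : (1 : ℝ) ≤ P := by exact_mod_cast hP
  have hW0 : (1 : ℝ) ≤ W := by exact_mod_cast hW
  obtain ⟨L, hL⟩ : ∃ L, L = 1 + Real.log P := ⟨_, rfl⟩
  have hL1 : 1 ≤ L := by rw [hL]; linarith [Real.log_nonneg hP0]
  rw [← hL]
  obtain ⟨f, hf⟩ : ∃ f : (Fin r → ℕ) → ℝ, f = fun h =>
      ‖Z h‖ := ⟨_, rfl⟩
  obtain ⟨S, hS⟩ : ∃ S, S = (Fintype.piFinset fun _ : Fin r => range (P ^ (m + 3))) \
      sysArcs r (m + 2) P W := ⟨_, rfl⟩
  rw [← hS, show (fun h : Fin r → ℕ => ‖Z h‖) = f from hf.symm]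
  obtain ⟨top, htop⟩ : ∃ top, top = Nat.log 2 P := ⟨_, rfl⟩
  have hex : ∀ h : Fin r → ℕ, ∃ j, j = top + 1 ∨
      ApproxPoint (m + 2) P (C₀ * ((2 : ℝ) ^ j) ^ k) h := fun h => ⟨_, Or.inl rfl⟩
  obtain ⟨lev, hlev⟩ : ∃ lev : (Fin r → ℕ) → ℕ, lev = fun h => Nat.find (hex h) := ⟨_, rfl⟩
  have hlevle : ∀ h, lev h ≤ top + 1 := fun h => hlev ▸ Nat.find_min' (hex h) (Or.inl rfl)
  have hmaps : ∀ h ∈ S, lev h ∈ range (top + 2) := fun h _ =>
    mem_range.2 (Nat.lt_succ_of_le (hlevle h))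
  have hSh : ∀ h ∈ S, ∀ i, h i < P ^ (m + 2 + 1) := fun h hh i => by
    rw [hS, mem_sdiff, Fintype.mem_piFinset] at hh
    exact mem_range.1 (hh.1 i)
  have htop1 : 2 ^ top ≤ P := htop ▸ Nat.pow_log_le_self 2 (by omega)
  have htop2 : P ≤ 2 ^ (top + 1) := htop ▸ (Nat.lt_pow_succ_log_self one_lt_two P).le
  have hclass : ∀ j ∈ range (top + 2), ∑ h ∈ S.filter (fun h => lev h = j), f h ≤
      C₂ * C₃ * C₀ * (L ^ n * (P : ℝ) ^ (n + r) * (W : ℝ) ^ (-e)) := by
    intro j hj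
    obtain ⟨T, hT⟩ : ∃ T, T = S.filter fun h => lev h = j := ⟨_, rfl⟩
    rw [← hT]
    rcases T.eq_empty_or_nonempty with h0 | ⟨h₀, hh₀⟩
    · rw [h0, sum_empty]; positivity
    obtain ⟨X, hX⟩ : ∃ X : ℝ, X = ((2 : ℝ) ^ j) ^ k := ⟨_, rfl⟩
    have hX1 : 1 ≤ X := hX ▸ one_le_pow₀ (one_le_pow₀ one_le_two)
    have hXC : 1 ≤ C₀ * X := one_le_mul_of_one_le_of_one_le hC₀ hX1
    have hmem : ∀ h ∈ T, h ∈ S ∧ lev h = j := fun h hh => mem_filter.1 (hT ▸ hh)
    have hterm : ∀ h ∈ T, f h ≤ C₂ * L ^ n * (P : ℝ) ^ n / X ^ e₀ := by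
      intro h hh
      obtain ⟨hhS, hj'⟩ := hmem h hh
      rw [le_div_iff₀ (by positivity)]
      rcases Nat.eq_zero_or_pos j with hj0 | hj0
      · rw [hX, hj0, pow_zero, one_pow, Real.one_rpow, mul_one, hf]
        refine (hZ h).1.trans ?_
        calc (2 * (P : ℝ) + 1) ^ n ≤ 3 ^ n * (P : ℝ) ^ n := by
              rw [← mul_pow]; exact pow_le_pow_left₀ (by positivity) (by linarith) n
          _ ≤ C₂ * L ^ n * (P : ℝ) ^ n := by
              refine mul_le_mul_of_nonneg_right ?_ (by positivity)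
              refine le_trans ?_ (le_mul_of_one_le_right hC₂0.le (one_le_pow₀ hL1))
              rw [hC₂]; exact le_add_of_nonneg_right (by positivity)
      · have hnot := Nat.find_min (hex h) (m := j - 1)
          (by have : Nat.find (hex h) = j := by rw [← hj', hlev]
              omega)
        push Not at hnot
        have hHP : 2 ^ (j - 1) ≤ P :=
          le_trans (Nat.pow_le_pow_right two_pos (by rw [mem_range] at hj; omega)) htop1
        rcases hdich P (2 ^ (j - 1)) (fun i => (h i : ℝ) / ((P ^ (m + 3) : ℕ) : ℝ)) (Z h)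
          Nat.one_le_two_pow hHP (hZ h) with hsmall | ⟨q, a, hq, hqle, hclose⟩
        · rw [← hL] at hsmall
          push_cast at hsmall
          rw [hf]
          push_cast
          have hXe : X ^ e₀ = ((2 : ℝ) ^ k) ^ e₀ * (((2 : ℝ) ^ (j - 1)) ^ k) ^ e₀ := by
            rw [← Real.mul_rpow (by positivity) (by positivity), hX, ← mul_pow, ← pow_succ',
              Nat.sub_add_cancel hj0]
          rw [hXe, mul_left_comm]
          refine (mul_le_mul_of_nonneg_left hsmall (by positivity)).trans ?_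
          rw [← mul_assoc, ← mul_assoc, mul_comm _ C₀]
          gcongr
          rw [hC₂]; exact le_add_of_nonneg_left (by positivity)
        · exfalso
          push_cast at hqle hclose
          refine hnot.2 ⟨q, a, hq, hqle, fun i => ?_⟩
          have := hclose i
          push_cast
          exact this
    have hcard : (T.card : ℝ) ≤ C₃ * X ^ (r + 1) * (P : ℝ) ^ r := by
      rcases eq_or_ne j (top + 1) with hje | hje
      · refine (Nat.cast_le.2 (card_le_card (t := Fintype.piFinset fun _ : Fin r =>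
          range (P ^ (m + 3))) fun h hh => ?_)).trans ?_
        · have := (hmem h hh).1
          rw [hS, mem_sdiff] at this
          exact this.1
        rw [Fintype.card_piFinset_const, card_range]
        push_cast
        refine le_trans ?_ (mul_le_mul_of_nonneg_right
          (le_mul_of_one_le_left (by positivity) hC₃1) (by positivity))
        have hPX : (P : ℝ) ^ k ≤ X := by
          rw [hX, hje]
          exact pow_le_pow_left₀ (by positivity) (by exact_mod_cast htop2) k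
        refine le_trans ?_ (mul_le_mul_of_nonneg_right (pow_le_pow_left₀ (by positivity) hPX _)
          (by positivity))
        rw [← pow_mul, ← pow_mul, ← pow_add]
        refine pow_le_pow_right₀ hP0 ?_
        calc (m + 3) * r = r * (m + 2) + r := by ring
          _ ≤ r * ((m + 1) * (r + 1)) + r := by
              refine Nat.add_le_add_right (Nat.mul_le_mul_left r ?_) r
              calc m + 2 ≤ (m + 1) * 2 := by omega
                _ ≤ (m + 1) * (r + 1) := Nat.mul_le_mul_left _ (by omega)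
          _ = k * (r + 1) + r := by rw [hk]; ring
      · refine (card_approx_le (d := m + 2) hP hXC T (fun h hh => hSh h (hmem h hh).1)
          fun h hh => ?_).trans (le_of_eq ?_)
        · have := Nat.find_spec (hex h)
          have hfe : Nat.find (hex h) = j := by rw [← (hmem h hh).2, hlev]
          rw [hfe] at this
          exact hX ▸ this.resolve_left hje
        · rw [hC₃, mul_pow]; ring
    have hsave : X ^ (-e) ≤ C₀ * (W : ℝ) ^ (-e) := by
      have hlow : (W : ℝ) / C₀ ≤ X := by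
        rw [div_le_iff₀ (by linarith)]
        rcases eq_or_ne j (top + 1) with hje | hje
        · have hPX : (P : ℝ) ≤ X := by
            rw [hX, hje]
            exact (show (P : ℝ) ≤ (2 : ℝ) ^ (top + 1) by exact_mod_cast htop2).trans
              (le_self_pow₀ (one_le_pow₀ one_le_two) hk0.ne')
          exact ((Nat.cast_le.2 hWP).trans hPX).trans
            (le_mul_of_one_le_right (by linarith) hC₀)
        · by_contra hcon
          rw [not_le] at hcon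
          obtain ⟨hS₀, hj₀⟩ := hmem h₀ hh₀
          have := Nat.find_spec (hex h₀)
          have hfe : Nat.find (hex h₀) = j := by rw [← hj₀, hlev]
          rw [hfe] at this
          rw [hS, mem_sdiff] at hS₀
          refine hS₀.2 (mem_sysArcs_of_approx hP (hSh h₀ (hmem h₀ hh₀).1)
            (this.resolve_left hje) ?_)
          rw [← hX, mul_comm]
          exact hcon.le
      refine (Real.rpow_le_rpow_of_nonpos (by positivity) hlow (by linarith)).trans ?_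
      rw [Real.div_rpow (by linarith) (by linarith), Real.rpow_neg (by linarith : (0 : ℝ) ≤ C₀),
        div_inv_eq_mul, mul_comm]
      exact mul_le_mul_of_nonneg_right
        ((Real.rpow_le_rpow_of_exponent_le hC₀ he1).trans_eq (Real.rpow_one C₀)) (by positivity)
    refine (sum_le_card_nsmul _ _ _ hterm).trans ?_
    rw [nsmul_eq_mul]
    have hX0 : 0 < X := by linarith
    calc (T.card : ℝ) * (C₂ * L ^ n * (P : ℝ) ^ n / X ^ e₀)
        ≤ C₃ * X ^ (r + 1) * (P : ℝ) ^ r * (C₂ * L ^ n * (P : ℝ) ^ n / X ^ e₀) := by gcongr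
      _ = C₂ * C₃ * (L ^ n * (P : ℝ) ^ (n + r)) * X ^ (-e) := by
          rw [he₀, Real.rpow_add hX0, ← Nat.cast_add_one, Real.rpow_natCast,
            Real.rpow_neg hX0.le, pow_add]
          field_simp
          rw [pow_add, mul_comm]
      _ ≤ C₂ * C₃ * (L ^ n * (P : ℝ) ^ (n + r)) * (C₀ * (W : ℝ) ^ (-e)) :=
          mul_le_mul_of_nonneg_left hsave (by positivity)
      _ = _ := by ring
  rw [← sum_fiberwise_of_maps_to hmaps]
  refine (sum_le_card_nsmul _ _ _ hclass).trans ?_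
  rw [nsmul_eq_mul, card_range]
  have hcount : ((top + 2 : ℕ) : ℝ) ≤ 4 * L := by
    rw [htop, hL]
    push_cast
    linarith [natLog_le hP, Real.log_nonneg hP0]
  calc ((top + 2 : ℕ) : ℝ) * (C₂ * C₃ * C₀ * (L ^ n * (P : ℝ) ^ (n + r) * (W : ℝ) ^ (-e)))
      ≤ (4 * L) * (C₂ * C₃ * C₀ * (L ^ n * (P : ℝ) ^ (n + r) * (W : ℝ) ^ (-e))) := by gcongr
    _ = _ := by ring

theorem exists_sys_minor_sum {m s : ℕ} (hr : 0 < r) (hF : ∀ i, (F i).IsHomogeneous (m + 2))
    (hs : SystemSingularDimLE F s) (hn : s + r * (r + 1) * (m + 1) * 2 ^ (m + 1) < n) :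
    ∃ C : ℝ, 0 < C ∧ ∀ P W : ℕ, 1 ≤ P → 1 ≤ W → W ≤ P →
      ∑ h ∈ (Fintype.piFinset fun _ : Fin r => range (P ^ (m + 3))) \ sysArcs r (m + 2) P W,
          ‖sysSum F P (fun i => (h i : ℝ) / ((P ^ (m + 3) : ℕ) : ℝ))‖ ≤
        C * (1 + Real.log P) ^ (n + 1) * (P : ℝ) ^ (n + r) * (W : ℝ) ^ (-sysSaving r m) :=
  let ⟨C, hC, h⟩ := exists_weylBound_minor_sum F hr hF hs hn
  ⟨C, hC, fun P W hP hW hWP => h P W _ hP hW hWP
    fun _ => sysWeylBound_sysSum F (fun i => (hF i).totalDegree_le) hP _⟩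

end FA.FormSystems
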