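import Fermat.Agent.FormsManyVariables.Asymptotic
import Fermat.Agent.FormSystems.Asymptotic

/-!
# One form

For `r = 1` the singular locus, the threshold, the count and the main term of the theorem on systems
are those of the theorem on one form.
-/

set_option autoImplicit false

noncomputable section

namespace FA.FormSystems

open Finset FA.ThreePrimes FA.WaringAsymptotic FA.CubicForms FA.FormsManyVariables MvPolynomial
  MeasureTheory

variable {n : ℕ} (G : MvPolynomial (Fin n) ℤ)

/-- The system of one form. -/
def singleSystem : Fin 1 → MvPolynomial (Fin n) ℤ := fun _ => G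

theorem systemSingularDimLE_single_iff (s : ℕ) :
    SystemSingularDimLE (singleSystem G) s ↔ SingularDimLE G s := by
  refine exists_congr fun ℓ => forall_congr' fun z => imp_congr_left ?_
  rw [linearIndependent_unique_iff]
  simp [singleSystem, funext_iff]

theorem threshold_single (m : ℕ) : 1 * (1 + 1) * (m + 1) * 2 ^ (m + 1) = (m + 1) * 2 ^ (m + 2) := by
  rw [pow_succ 2 (m + 1)]; ring

theorem sysSaving_one (m : ℕ) : sysSaving 1 m = savingExp m := by
  simp [sysSaving, savingExp]

theorem countSysReps_single (N : ℤ) (P : ℕ) :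
    countSysReps (singleSystem G) (fun _ => N) P = countReps G N P := by
  refine congrArg card (filter_congr fun x _ => ?_)
  simp [singleSystem]

theorem sysRepTerm_single (N : ℤ) (q : ℕ) :
    sysRepTerm (singleSystem G) (fun _ => N) q = repTerm G N q := by
  refine sum_nbij' (fun a => a 0) (fun a _ => a) (fun a ha => ?_) (fun a ha => ?_)
    (fun a _ => funext fun i => by rw [Subsingleton.elim i 0]) (fun a _ => rfl) fun a _ => ?_
  · obtain ⟨h1, h2⟩ := mem_primResidues.1 ha
    rw [isPrimitive_iff_coprime] at h2
    exact mem_filter.2 ⟨mem_range.2 (h1 0), by simpa using h2⟩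
  · obtain ⟨h1, h2⟩ := mem_filter.1 ha
    refine mem_primResidues.2 ⟨fun _ => mem_range.1 h1, ?_⟩
    rw [isPrimitive_iff_coprime]
    simpa using h2
  · simp [sysCompleteSum, FormsManyVariables.completeSum, singleSystem]

theorem sysRepSeries_single (N : ℤ) :
    sysRepSeries (singleSystem G) (fun _ => N) = repSeries G N := by
  simp only [sysRepSeries, repSeries, sysRepTerm_single]

theorem sysRepIntegral_single (c : ℝ) :
    sysRepIntegral (singleSystem G) (fun _ => c) = repIntegral G c := by
  refine congrArg Complex.re ?_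
  rw [← (volume_preserving_funUnique (Fin 1) ℝ).integral_comp'
    (fun γ : ℝ => twistedIntegral G c γ)]
  refine integral_congr_ae (Filter.Eventually.of_forall fun γ => ?_)
  simp [sysTwistedIntegral, twistedIntegral, sysFormIntegral, formIntegral, sysPhase, singleSystem,
    symBox, cube, MeasurableEquiv.funUnique]

/-- The theorem on one form follows from the theorem on systems. -/
theorem rep_asymptotic_of_systems {m s : ℕ} (hG : G.IsHomogeneous (m + 2))
    (hs : SingularDimLE G s) (hn : s + (m + 1) * 2 ^ (m + 2) < n) (B : ℕ) :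
    ∃ δ C : ℝ, 0 < δ ∧ 0 < C ∧ ∀ (P : ℕ) (N : ℤ), 1 ≤ P → |N| ≤ (B * P ^ (m + 2) : ℕ) →
      |(countReps G N P : ℝ) - repSeries G N * repIntegral G ((N : ℝ) / (P : ℝ) ^ (m + 2)) *
          (P : ℝ) ^ (n - (m + 2))| ≤ C * (P : ℝ) ^ (((n - (m + 2) : ℕ) : ℝ) - δ) := by
  obtain ⟨δ, C, hδ, hC, h⟩ := exists_sys_rep_asymptotic (singleSystem G) Nat.one_pos (fun _ => hG)
    ((systemSingularDimLE_single_iff G s).2 hs) (by rwa [threshold_single]) B
  refine ⟨δ, C, hδ, hC, fun P N hP hN => ?_⟩
  have h1 := h P (fun _ => N) hP fun _ => hN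
  simpa only [countSysReps_single, sysRepSeries_single, sysRepIntegral_single, one_mul] using h1

end FA.FormSystems
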