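import Fermat.Agent.FormSystems.Hasse
import Fermat.Agent.FormsManyVariables.Examples
import Mathlib.Algebra.Group.ForwardDiff
import Mathlib.LinearAlgebra.Vandermonde

/-!
# Diagonal systems with Vandermonde coefficients

For `a j ≠ 0` the forms `∑ j, a j * j ^ i * x j ^ d`, `i < r`, have smooth common zeros and singular
locus of dimension `r - 1`, the vectors with fewer than `r` nonzero coordinates. With binomial
coefficients for `a` they vanish at `(1, …, 1, 0, …, 0)`, and the theorems apply unconditionally.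
-/

set_option autoImplicit false

noncomputable section

namespace FA.FormSystems

open Finset MvPolynomial FA.FormsManyVariables

variable {n : ℕ}

/-- The forms `∑ j, a j * j ^ i * x j ^ d`. -/
def vandermondeSystem (a : Fin n → ℤ) (r d : ℕ) (i : Fin r) : MvPolynomial (Fin n) ℤ :=
  diagonalForm (fun j => a j * ((j : ℕ) : ℤ) ^ (i : ℕ)) d

theorem aeval_diagonalForm (c : Fin n → ℤ) (d : ℕ) {R : Type*} [CommRing R] (z : Fin n → R) :
    aeval z (diagonalForm c d) = ∑ j, (c j : R) * z j ^ d := by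
  simp [diagonalForm]

theorem aeval_pderiv_diagonalForm (c : Fin n → ℤ) (d : ℕ) {R : Type*} [CommRing R] (z : Fin n → R)
    (j : Fin n) :
    aeval z (pderiv j (diagonalForm c d)) = (c j : R) * ((d : R) * z j ^ (d - 1)) := by
  rw [diagonalForm, map_sum, map_sum, sum_eq_single j (fun i _ hi => by simp [pderiv_X_of_ne hi])
    fun h => absurd (mem_univ j) h]
  simp

variable {K : Type*} [Field K] [CharZero K]

theorem eq_zero_of_power_sums {v : Fin n → K} {S : Finset (Fin n)} {N : ℕ} (hS : S.card ≤ N)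
    (hsupp : ∀ j ∉ S, v j = 0) (h : ∀ i < N, ∑ j, v j * ((j : ℕ) : K) ^ i = 0) : v = 0 := by
  have key := Matrix.eq_zero_of_forall_pow_sum_mul_pow_eq_zero
    (f := fun k : Fin S.card => (((S.equivFin.symm k : Fin n) : ℕ) : K))
    (v := fun k => v (S.equivFin.symm k : Fin n))
    (fun k l e => S.equivFin.symm.injective (Subtype.ext (Fin.ext (Nat.cast_injective e))))
    fun i => by
      rw [S.equivFin.symm.sum_comp (fun j : S => v j * ((((j : Fin n) : ℕ)) : K) ^ (i : ℕ)),
        S.sum_coe_sort (fun j => v j * ((j : ℕ) : K) ^ (i : ℕ))]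
      refine (sum_subset (subset_univ S) fun j _ hj => ?_).trans (h i (i.2.trans_le hS))
      rw [hsupp j hj, zero_mul]
  funext j
  by_cases hj : j ∈ S
  · simpa using congrFun key (S.equivFin ⟨j, hj⟩)
  · exact hsupp j hj

variable {a : Fin n → ℤ} (ha : ∀ j, a j ≠ 0) {r m : ℕ}

include ha in
theorem vandermonde_independent {z : Fin n → K} {T : Finset (Fin n)} (hT : r ≤ T.card)
    (hz : ∀ j ∈ T, z j ≠ 0) :
    LinearIndependent K fun i j => aeval z (pderiv j (vandermondeSystem a r (m + 2) i)) := by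
  obtain ⟨S, hS, hcard⟩ := exists_subset_card_eq hT
  rw [Fintype.linearIndependent_iff]
  intro g hg
  refine congrFun (Matrix.eq_zero_of_forall_index_sum_mul_pow_eq_zero
    (f := fun k : Fin r => (((S.equivFin.symm (Fin.cast hcard.symm k) : Fin n) : ℕ) : K))
    (fun k l e => (Fin.cast_injective _) (S.equivFin.symm.injective
      (Subtype.ext (Fin.ext (Nat.cast_injective e))))) fun k => ?_)
  obtain ⟨j, hj⟩ : ∃ j : Fin n, j = (S.equivFin.symm (Fin.cast hcard.symm k) : Fin n) := ⟨_, rfl⟩
  have hzj : z j ≠ 0 := hz j (hS (hj ▸ (S.equivFin.symm _).2))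
  have h := congrFun hg j
  simp only [Finset.sum_apply, Pi.smul_apply, smul_eq_mul, Pi.zero_apply, vandermondeSystem,
    aeval_pderiv_diagonalForm] at h
  rw [← hj]
  have e : (∑ i, g i * ((j : ℕ) : K) ^ (i : ℕ)) *
      ((a j : K) * (((m + 2 : ℕ) : K) * z j ^ (m + 2 - 1))) = 0 := by
    rw [sum_mul]
    refine Eq.trans (sum_congr rfl fun i _ => ?_) h
    push_cast
    ring
  exact (mul_eq_zero.1 e).resolve_right (mul_ne_zero (Int.cast_ne_zero.2 (ha j))
    (mul_ne_zero (Nat.cast_ne_zero.2 (by omega)) (pow_ne_zero _ hzj)))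

include ha in
theorem vandermonde_singularDimLE :
    SystemSingularDimLE (vandermondeSystem a r (m + 2)) (r - 1) := by
  classical
  refine ⟨fun i j => ((j : ℕ) : ℤ) ^ (i : ℕ), fun z hz hl => ?_⟩
  refine eq_zero_of_power_sums (S := univ.filter fun j => z j ≠ 0) (N := r - 1) ?_
    (fun j hj => by simpa using hj) fun i hi => ?_
  · by_contra hcon
    exact hz (vandermonde_independent ha (T := univ.filter fun j => z j ≠ 0) (by omega)
      fun j hj => (mem_filter.1 hj).2)
  · simpa [mul_comm] using hl ⟨i, hi⟩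

include ha in
theorem vandermonde_smooth : SmoothCommonZeros (vandermondeSystem a r (m + 2)) := by
  classical
  intro z hz hz0
  by_contra hcon
  obtain ⟨S, hS⟩ : ∃ S, S = univ.filter fun j => z j ≠ 0 := ⟨_, rfl⟩
  have hcard : S.card ≤ r := by
    by_contra h
    exact hcon (vandermonde_independent ha (T := S) (by omega) fun j hj => by simpa [hS] using hj)
  have h0 := eq_zero_of_power_sums (v := fun j => (a j : ℂ) * z j ^ (m + 2)) hcard
    (fun j hj => by
      have : z j = 0 := by simpa [hS] using hj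
      simp [this])
    fun i hi => by
      refine Eq.trans (sum_congr rfl fun j _ => ?_)
        ((aeval_diagonalForm _ _ z).symm.trans (hz ⟨i, hi⟩))
      push_cast
      ring
  exact hz0 (funext fun j => eq_zero_of_pow_eq_zero
    ((mul_eq_zero.1 (congrFun h0 j)).resolve_left (Int.cast_ne_zero.2 (ha j))))

include ha in
/-- **The Hasse principle for these diagonal systems.** -/
theorem vandermonde_hasse (hr : 0 < r) (hn : r - 1 + r * (r + 1) * (m + 1) * 2 ^ (m + 1) < n) :
    (∃ x : Fin n → ℤ, x ≠ 0 ∧ ∀ i, eval x (vandermondeSystem a r (m + 2) i) = 0) ↔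
      (∃ z : Fin n → ℝ, z ≠ 0 ∧ ∀ i, aeval z (vandermondeSystem a r (m + 2) i) = 0) ∧
        ∀ (p : ℕ) [Fact p.Prime], ∃ z : Fin n → ℚ_[p],
          z ≠ 0 ∧ ∀ i, aeval z (vandermondeSystem a r (m + 2) i) = 0 :=
  hasse_principle_systems _ hr (fun _ => diagonalForm_isHomogeneous _ _)
    (vandermonde_singularDimLE ha) (vandermonde_smooth ha) hn

/-- The coefficients `(-1) ^ (r - j) * r.choose j` for `j ≤ r`, and `1` beyond. -/
def binomialWeight (r : ℕ) (j : Fin n) : ℤ :=
  if (j : ℕ) ≤ r then (-1) ^ (r - (j : ℕ)) * r.choose j else 1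

theorem binomialWeight_ne_zero (r : ℕ) (j : Fin n) : binomialWeight r j ≠ 0 := by
  rw [binomialWeight]
  split_ifs with h
  · exact mul_ne_zero (pow_ne_zero _ (by norm_num))
      (Int.natCast_ne_zero.2 (Nat.choose_pos h).ne')
  · exact one_ne_zero

/-- The binomial system vanishes at `(1, …, 1, 0, …, 0)`. -/
theorem vandermonde_known_zero (hrn : r < n) (R : Type) [CommRing R] (i : Fin r) :
    aeval (fun j : Fin n => ((if (j : ℕ) ≤ r then 1 else 0 : ℤ) : R))
      (vandermondeSystem (binomialWeight r) r (m + 2) i) = 0 := by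
  classical
  obtain ⟨x, hx⟩ : ∃ x : Fin n → ℤ, x = fun j : Fin n => if (j : ℕ) ≤ r then (1 : ℤ) else 0 := ⟨_, rfl⟩
  suffices h : ∀ (R : Type) [CommRing R] (i : Fin r),
      aeval (fun j => (x j : R)) (vandermondeSystem (binomialWeight r) r (m + 2) i) = 0 by
    have h1 := h R i
    rw [hx] at h1
    exact h1
  intro R _ i
  rw [aeval_intCast, vandermondeSystem]
  have h := congrFun (fwdDiff_iter_pow_eq_zero_of_lt (R := ℤ) i.2) 0
  rw [fwdDiff_iter_eq_sum_shift] at h
  suffices e : eval x (diagonalForm (fun j => binomialWeight r j * ((j : ℕ) : ℤ) ^ (i : ℕ))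
      (m + 2)) = 0 by rw [e, Int.cast_zero]
  simp only [diagonalForm, map_sum, map_mul, eval_C, map_pow, eval_X, hx, binomialWeight]
  refine Eq.trans ?_ h
  rw [Fin.sum_univ_eq_sum_range (fun k => (if k ≤ r then (-1 : ℤ) ^ (r - k) * r.choose k else 1) *
      (k : ℤ) ^ (i : ℕ) * (if k ≤ r then 1 else 0) ^ (m + 2)) n,
    ← sum_subset (range_subset_range.2 (Nat.succ_le_of_lt hrn)) fun k _ hk => ?_]
  · refine sum_congr rfl fun k hk => ?_
    have : k ≤ r := Nat.lt_succ_iff.1 (mem_range.1 hk)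
    simp [this]
  · have : ¬ k ≤ r := fun h' => hk (mem_range.2 (Nat.lt_succ_of_le h'))
    simp [this]

/-- **An instance with no hypothesis left.** -/
theorem vandermonde_asymptotic_pos (hr : 0 < r)
    (hn : r - 1 + r * (r + 1) * (m + 1) * 2 ^ (m + 1) < n) :
    ∃ c δ C : ℝ, 0 < c ∧ 0 < δ ∧ ∀ P : ℕ, 1 ≤ P →
      |(countSysReps (vandermondeSystem (n := n) (binomialWeight r) r (m + 2)) 0 P : ℝ) -
          c * (P : ℝ) ^ (n - r * (m + 2))| ≤
        C * (P : ℝ) ^ (((n - r * (m + 2) : ℕ) : ℝ) - δ) := by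
  classical
  have hrn : r < n := by
    have h1 : r ≤ r * (r + 1) * (m + 1) * 2 ^ (m + 1) := by
      simp only [mul_assoc]
      exact Nat.le_mul_of_pos_right _ (by positivity)
    omega
  obtain ⟨x, hx⟩ : ∃ x : Fin n → ℤ, x = fun j : Fin n => if (j : ℕ) ≤ r then (1 : ℤ) else 0 := ⟨_, rfl⟩
  have hzero : ∀ (R : Type) [CommRing R] (i : Fin r),
      aeval (fun j => (x j : R)) (vandermondeSystem (binomialWeight r) r (m + 2) i) = 0 := by
    subst hx
    exact fun R _ i => vandermonde_known_zero hrn R i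
  have hind : ∀ (K : Type) [Field K] [CharZero K], LinearIndependent K fun i j =>
      aeval (fun l => (x l : K)) (pderiv j (vandermondeSystem (binomialWeight r) r (m + 2) i)) :=
    fun K _ _ => vandermonde_independent (binomialWeight_ne_zero r)
      (T := Iic (⟨r, hrn⟩ : Fin n)) (by rw [Fin.card_Iic]; exact Nat.le_succ r)
      fun j hj => by simp [hx, show (j : ℕ) ≤ r from Fin.le_def.1 (mem_Iic.1 hj)]
  exact exists_sys_asymptotic_pos _ hr (fun _ => diagonalForm_isHomogeneous _ _)
    (vandermonde_singularDimLE (binomialWeight_ne_zero r)) hn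
    ⟨fun j => (x j : ℝ), hzero ℝ, hind ℝ⟩ fun p _ => ⟨fun j => (x j : ℚ_[p]), hzero _, hind _⟩

end FA.FormSystems
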